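import Mathlib

/-!
# Program G (S56), block TW: the iteration engine (abstract linear algebra)

`exists_finset_iInf_eq_bot` : in a finite-dimensional space `H` with a family of subspaces `K i`,
if every non-zero vector lies outside some `K i` with `i` good and outside any given finite set,
and good indices exist outside any finite set, then there is a set `Q` of exactly `dim H` good
indices with `⨅ i ∈ Q, K i = ⊥`.
-/

set_option autoImplicit false

namespace Fermat.Agent.TW.Cheb

variable {F : Type*} [Field F] {H : Type*} [AddCommGroup H] [Module F H] [FiniteDimensional F H]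
variable {ι : Type*} [DecidableEq ι]

theorem exists_finset_iInf_finrank_le (K : ι → Submodule F H) (good : ι → Prop)
    (hstep : ∀ (A : Finset ι) (x : H), x ≠ 0 → ∃ i, i ∉ A ∧ good i ∧ x ∉ K i)
    (hpad : ∀ A : Finset ι, ∃ i, i ∉ A ∧ good i) (j : ℕ) :
    ∃ Q : Finset ι, Q.card = j ∧ (∀ i ∈ Q, good i) ∧
      Module.finrank F ↥(⨅ i ∈ Q, K i) ≤ Module.finrank F H - j := by
  induction j with
  | zero =>
    refine ⟨∅, rfl, fun i hi => absurd hi (Finset.notMem_empty i), ?_⟩
    exact (Submodule.finrank_le _).trans (by rw [Nat.sub_zero])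
  | succ j ih =>
    obtain ⟨Q, hcard, hgood, hrank⟩ := ih
    by_cases hbot : (⨅ i ∈ Q, K i) = ⊥
    · obtain ⟨i, hiQ, hi⟩ := hpad Q
      refine ⟨insert i Q, by rw [Finset.card_insert_of_notMem hiQ, hcard], ?_, ?_⟩
      · intro i' hi'
        rcases Finset.mem_insert.mp hi' with rfl | h
        · exact hi
        · exact hgood i' h
      · rw [Finset.iInf_insert, hbot, inf_bot_eq, finrank_bot]
        exact Nat.zero_le _
    · obtain ⟨x, hx, hx0⟩ := Submodule.exists_mem_ne_zero_of_ne_bot hbot
      obtain ⟨i, hiQ, hi, hxi⟩ := hstep Q x hx0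
      refine ⟨insert i Q, by rw [Finset.card_insert_of_notMem hiQ, hcard], ?_, ?_⟩
      · intro i' hi'
        rcases Finset.mem_insert.mp hi' with rfl | h
        · exact hi
        · exact hgood i' h
      · rw [Finset.iInf_insert]
        have hlt : K i ⊓ (⨅ i ∈ Q, K i) < ⨅ i ∈ Q, K i := by
          refine lt_of_le_of_ne inf_le_right fun heq => hxi ?_
          have : x ∈ K i ⊓ (⨅ i ∈ Q, K i) := by
            rw [heq]
            exact hx
          exact this.1
        have := Submodule.finrank_lt_finrank_of_lt hlt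
        omega

theorem exists_finset_iInf_eq_bot (K : ι → Submodule F H) (good : ι → Prop)
    (hstep : ∀ (A : Finset ι) (x : H), x ≠ 0 → ∃ i, i ∉ A ∧ good i ∧ x ∉ K i)
    (hpad : ∀ A : Finset ι, ∃ i, i ∉ A ∧ good i) :
    ∃ Q : Finset ι, Q.card = Module.finrank F H ∧ (∀ i ∈ Q, good i) ∧ (⨅ i ∈ Q, K i) = ⊥ := by
  obtain ⟨Q, hcard, hgood, hrank⟩ :=
    exists_finset_iInf_finrank_le K good hstep hpad (Module.finrank F H)
  refine ⟨Q, hcard, hgood, ?_⟩
  rw [Nat.sub_self, Nat.le_zero] at hrank
  exact Submodule.finrank_eq_zero.mp hrank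

end Fermat.Agent.TW.Cheb
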