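import Fermat.Agent.TW.Cheb.FrobStep
import Fermat.Agent.TW.Cheb.Engine

/-!
# Program G (S56), block TW: Taylor–Wiles primes killing the dual Selmer group

`tw_primes` : under the hypotheses of S56 on `ρbar`, for a `G_ℚ`-module `Mstar` over `ZMod p`
identified with `ad⁰ ρbar ⊗ det ρbar` (`AdjointModel`) and with `H¹(G_{Smin}, Mstar)` finite, there
is `r` such that for every `n` there is a Taylor–Wiles family `qv : Fin r → ℕ` of level `n`
such that every class in `H¹(G_{Smin ∪ Q}, Mstar)` which is locally trivial at all `q ∈ Q`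
vanishes (`Q` the image of `qv`).
-/

set_option autoImplicit false

open groupCohomology ExtCitation Polynomial
open Fermat.Agent.CFT Fermat.Agent.S55

namespace Fermat.Agent.TW.Cheb

local notation "Qb" => AlgebraicClosure ℚ
local notation "GQ" => (AlgebraicClosure ℚ ≃ₐ[ℚ] AlgebraicClosure ℚ)

variable {k : Type} [Field k] [Finite k]

/-- **Taylor–Wiles primes.** `T₀` is the set of primes of `Smin`, `T'` the set of primes of
`Smin ∪ Q` (any `Finset Nat.Primes` with these elements). -/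
theorem tw_primes (p : ℕ) [Fact p.Prime] (hp2 : p ≠ 2) (ρbar : ResidualGaloisRep k)
    (habs : ρbar.IsAbsolutelyIrreducible)
    (hdet : (GaloisRepAdic.ofResidualGaloisRep ρbar).DetIsCyclotomic p)
    (hsplit : ∀ σ : GQ, ∃ α β : k, LinearMap.charpoly (ρbar.ρ σ) = (X - C α) * (X - C β))
    (hTW : HTW ρbar)
    (S Smin : Finset ℕ) (hpSmin : p ∈ Smin) (hSmin : Smin ⊆ S)
    (hmin : ∀ q : ℕ, q.Prime → q ≠ p → (q ∈ Smin ↔ ¬ ρbar.IsUnramifiedAt q))
    (T₀ : Finset Nat.Primes) (hT₀ : ∀ q : Nat.Primes, q ∈ T₀ ↔ (q : ℕ) ∈ Smin)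
    (Mstar : Rep.{0} (ZMod p) GQ) (E : AdjointModel ρbar Mstar)
    [Module.Finite (ZMod p) (LC.H1 (globalLevel T₀) Mstar)] :
    ∃ r : ℕ, ∀ n : ℕ, ∃ qv : Fin r → ℕ, Function.Injective qv ∧
      (∀ i, (qv i).Prime ∧ qv i ∉ S ∧ p ^ (n + 1) ∣ qv i - 1) ∧
      (∀ i, ∀ P : ValuationSubring Qb, P.LiesOverPrime (qv i) →
        ∀ φ : GQ, P.IsFrobeniusAt φ (qv i) →
          ∃ α β : k, α ≠ β ∧ LinearMap.charpoly (ρbar.ρ φ) = (X - C α) * (X - C β)) ∧
      ∀ T' : Finset Nat.Primes,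
        (∀ q : Nat.Primes, q ∈ T' ↔ (q : ℕ) ∈ Smin ∪ Finset.univ.image qv) →
        ∀ x : LC.H1 (globalLevel T') Mstar,
          (∀ q : Nat.Primes, (q : ℕ) ∈ Finset.univ.image qv →
            lcResH1 Mstar (levelCompat_globalLevel (primeLocalToGlobal q) T') x = 0) → x = 0 := by
  classical
  refine ⟨Module.finrank (ZMod p) (LC.H1 (globalLevel T₀) Mstar), fun n => ?_⟩
  have hpS : p ∈ S := hSmin hpSmin
  have hunr : ∀ q : ℕ, q.Prime → q ∉ S → ρbar.IsUnramifiedAt q := by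
    intro q hq hqS
    have hqp : q ≠ p := fun h => hqS (h ▸ hpS)
    by_contra hram
    exact hqS (hSmin ((hmin q hq hqp).mpr hram))
  have hunr' : ∀ q : Nat.Primes, q ∉ T₀ → ρbar.IsUnramifiedAt (q : ℕ) := by
    intro q hq
    rw [hT₀] at hq
    have hqp : (q : ℕ) ≠ p := fun h => hq (h ▸ hpSmin)
    by_contra hram
    exact hq ((hmin q q.2 hqp).mpr hram)
  have hsm : IsSmooth (globalLevel T₀) Mstar := E.isSmooth _ hunr'
  have hfin : Finite Mstar := E.finite
  -- the iteration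
  obtain ⟨Q, hcard, hgood, hbot⟩ := exists_finset_iInf_eq_bot
    (fun q : Nat.Primes => LinearMap.ker
      (lcResH1 Mstar (levelCompat_globalLevel (primeLocalToGlobal q) T₀)))
    (fun q : Nat.Primes => (q : ℕ) ∉ S ∧ p ^ (n + 1) ∣ (q : ℕ) - 1 ∧
      ∀ P : ValuationSubring Qb, P.LiesOverPrime (q : ℕ) → ∀ φ : GQ,
        P.IsFrobeniusAt φ (q : ℕ) →
          ∃ α β : k, α ≠ β ∧ LinearMap.charpoly (ρbar.ρ φ) = (X - C α) * (X - C β))
    (by
      intro A x hx0
      obtain ⟨c, rfl⟩ := Submodule.mkQ_surjective _ x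
      have hnc : (c : GQ → Mstar) ∉ coboundaries₁ Mstar := fun h =>
        hx0 ((LC.H1π_eq_zero_iff c).mpr h)
      obtain ⟨q, h1, h2, h3, h4, h5⟩ := exists_tw_prime p hp2 habs hdet hsplit hTW S hpS hunr E
        _ c.2 hnc n (A.image fun q : Nat.Primes => (q : ℕ))
      refine ⟨q, fun hqA => h1 (Finset.mem_image.mpr ⟨q, hqA, rfl⟩), ⟨h2, h3, h4⟩,
        fun hmem => h5 ?_⟩
      exact (lcResH1_eq_zero_iff Mstar _ q c).mp (LinearMap.mem_ker.mp hmem))
    (by
      intro A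
      obtain ⟨q, h1, h2, h3, h4⟩ := exists_tw_prime' p hp2 habs hdet hsplit hTW S hpS hunr n
        (A.image fun q : Nat.Primes => (q : ℕ))
      exact ⟨q, fun hqA => h1 (Finset.mem_image.mpr ⟨q, hqA, rfl⟩), h2, h3, h4⟩)
  -- enumerate `Q`
  let e := Q.equivFinOfCardEq hcard
  have hmemQ : ∀ q : Nat.Primes,
      (q : ℕ) ∈ Finset.univ.image (fun i => (((e.symm i : ↥Q) : Nat.Primes) : ℕ)) ↔ q ∈ Q := by
    intro q
    rw [Finset.mem_image]
    constructor
    · rintro ⟨i, -, hi⟩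
      have : ((e.symm i : ↥Q) : Nat.Primes) = q := Subtype.ext hi
      rw [← this]
      exact (e.symm i).2
    · intro hq
      exact ⟨e ⟨q, hq⟩, Finset.mem_univ _, by rw [Equiv.symm_apply_apply]⟩
  refine ⟨fun i => (((e.symm i : ↥Q) : Nat.Primes) : ℕ), ?_, ?_, ?_, ?_⟩
  · intro i j hij
    have h1 : ((e.symm i : ↥Q) : Nat.Primes) = ((e.symm j : ↥Q) : Nat.Primes) := Subtype.ext hij
    exact e.symm.injective (Subtype.ext h1)
  · intro i
    have := hgood _ (e.symm i).2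
    exact ⟨((e.symm i : ↥Q) : Nat.Primes).2, this.1, this.2.1⟩
  · intro i
    exact (hgood _ (e.symm i).2).2.2
  · intro T' hT' x hx
    obtain ⟨c, rfl⟩ := Submodule.mkQ_surjective _ x
    have hloc : ∀ q ∈ Q, LocTriv Mstar q c := fun q hq =>
      (lcResH1_eq_zero_iff Mstar _ q c).mp (hx q ((hmemQ q).mpr hq))
    have hdef : (c : GQ → Mstar) ∈ LC.Z₁ (globalLevel T₀) Mstar := by
      refine deflate hsm c.2 fun q hqT₀ hqT' => hloc q ((hmemQ q).mp ?_)
      rw [hT₀] at hqT₀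
      rw [hT'] at hqT'
      rcases Finset.mem_union.mp hqT' with h | h
      · exact absurd h hqT₀
      · exact h
    have hy : LC.H1π (globalLevel T₀) Mstar ⟨c, hdef⟩ ∈
        ⨅ q ∈ Q, LinearMap.ker
          (lcResH1 Mstar (levelCompat_globalLevel (primeLocalToGlobal q) T₀)) := by
      rw [Submodule.mem_iInf]
      intro q
      rw [Submodule.mem_iInf]
      intro hq
      rw [LinearMap.mem_ker]
      exact (lcResH1_eq_zero_iff Mstar _ q ⟨c, hdef⟩).mpr (hloc q hq)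
    rw [hbot, Submodule.mem_bot, LC.H1π_eq_zero_iff] at hy
    exact (LC.H1π_eq_zero_iff c).mpr hy

end Fermat.Agent.TW.Cheb
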