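import Fermat.Agent.TW.Cheb.ExistsRegular
import Fermat.Prelude.Def_GaloisRep_Residual

/-!
# Program G (S56), block TW: from the hypotheses `habs`, `hTW` of S56 to `NoConjLine`

For a `ResidualGaloisRep k` (char `k ≠ 2`) which is absolutely irreducible and stays absolutely
irreducible on every subgroup of index two (hypothesis `hTW` of the frozen S56):
* `noConjLine_of_hyp`: `NoConjLine ρbar.ρ` (no conjugation-stable line in `ad⁰ρbar`);
* `not_hasStableLine_of_habs`: `ρbar` is irreducible over `k`.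
-/

set_option autoImplicit false

open scoped TensorProduct

namespace Fermat.Agent.TW.Cheb

local notation "Γℚ" => (AlgebraicClosure ℚ ≃ₐ[ℚ] AlgebraicClosure ℚ)

variable {k : Type} [Field k]

/-- The `hTW` hypothesis of the frozen S56. -/
def HTW (ρbar : ResidualGaloisRep k) : Prop :=
  ∀ (K : Type) [Field K] [Algebra k K] (G : Subgroup Γℚ), G.index = 2 →
    ∀ V : Submodule K (ρbar.baseChange K).V,
      (∀ σ ∈ G, ∀ x ∈ V, (ρbar.baseChange K).ρ σ x ∈ V) → V = ⊥ ∨ V = ⊤

theorem baseChange_ρ_apply (ρbar : ResidualGaloisRep k) (K : Type) [Field K] [Algebra k K]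
    (σ : Γℚ) : (ρbar.baseChange K).ρ σ = (ρbar.ρ σ).baseChange K := rfl

theorem noConjLine_of_hyp (h2ne : (2 : k) ≠ 0) (ρbar : ResidualGaloisRep k)
    (habs : ρbar.IsAbsolutelyIrreducible) (hTW : HTW ρbar) : NoConjLine ρbar.ρ := by
  intro e he htr hconj
  let F := AlgebraicClosure k
  have h2F : (2 : F) ≠ 0 := by
    intro h
    apply h2ne
    apply (algebraMap k F).injective
    rw [map_ofNat, h, map_zero]
  have hfin : Module.Finite k ρbar.V := inferInstance
  have hfree : Module.Free k ρbar.V := inferInstance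
  set e' : Module.End F (ρbar.baseChange F).V := e.baseChange F with he'
  have he'0 : e' ≠ 0 := by
    obtain ⟨x, hx⟩ : ∃ x, e x ≠ 0 := by
      by_contra hcon
      exact he (LinearMap.ext fun x => by_contra fun hx => hcon ⟨x, hx⟩)
    intro h0
    have h1 : e' ((1 : F) ⊗ₜ[k] x) = 0 := by rw [h0, LinearMap.zero_apply]
    rw [he', LinearMap.baseChange_tmul, Module.FaithfullyFlat.one_tmul_eq_zero_iff] at h1
    exact hx h1
  have he'tr : LinearMap.trace F (ρbar.baseChange F).V e' = 0 := by
    rw [he', LinearMap.trace_baseChange, htr, map_zero]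
  have he'conj : ∀ g : Γℚ, ∃ c : F, (ρbar.baseChange F).ρ g * e' = c • (e' * (ρbar.baseChange F).ρ g) := by
    intro g
    obtain ⟨c, hc⟩ := hconj g
    refine ⟨algebraMap k F c, ?_⟩
    rw [baseChange_ρ_apply, he', ← LinearMap.baseChange_mul, hc, LinearMap.baseChange_smul,
      LinearMap.baseChange_mul, algebraMap_smul]
  obtain ⟨G₀, hG₀, L, hL0, hL1, hL⟩ := exists_stableLine_of_conj_line h2F
    (ρbar.baseChange F).finrank_eq (ρbar.baseChange F).ρ e' he'0 he'tr he'conj
  rcases hG₀ with hG₀ | hG₀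
  · rcases habs L (fun σ x hx => hL σ (by rw [hG₀]; trivial) x hx) with h | h
    · exact hL0 h
    · exact hL1 h
  · rcases hTW F G₀ hG₀ L hL with h | h
    · exact hL0 h
    · exact hL1 h

theorem not_hasStableLine_of_habs (ρbar : ResidualGaloisRep k)
    (habs : ρbar.IsAbsolutelyIrreducible) : ¬ HasStableLine ρbar.ρ ⊤ := by
  rintro ⟨L, hL0, hL1, hL⟩
  let F := AlgebraicClosure k
  have h2 := ρbar.finrank_eq
  have hfin : Module.Finite k ρbar.V := inferInstance
  -- `L` is spanned by a vector `v`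
  obtain ⟨v, hvL, hv0⟩ : ∃ v ∈ L, v ≠ 0 := by
    by_contra hcon
    apply hL0
    rw [eq_bot_iff]
    intro x hx
    by_contra hx0
    exact hcon ⟨x, hx, hx0⟩
  have hrank : Module.finrank k L = 1 := by
    have h1 : Module.finrank k L < 2 := by
      rw [← h2]; exact Submodule.finrank_lt hL1
    have h0 : 0 < Module.finrank k L := by
      rw [Module.finrank_pos_iff_exists_ne_zero]
      exact ⟨⟨v, hvL⟩, fun h => hv0 (congrArg Subtype.val h)⟩
    omega
  have hspan : ∀ w ∈ L, ∃ c : k, w = c • v := by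
    intro w hw
    have hv' : (⟨v, hvL⟩ : L) ≠ 0 := fun h => hv0 (congrArg Subtype.val h)
    obtain ⟨c, hc⟩ := (finrank_eq_one_iff_of_nonzero' (⟨v, hvL⟩ : L) hv').mp hrank ⟨w, hw⟩
    exact ⟨c, by simpa using (congrArg Subtype.val hc).symm⟩
  -- the line spanned by `1 ⊗ v`
  set v' : (ρbar.baseChange F).V := (1 : F) ⊗ₜ[k] v with hv'
  have hv'0 : v' ≠ 0 := by
    rw [hv', Ne, Module.FaithfullyFlat.one_tmul_eq_zero_iff]; exact hv0
  have hstab : ∀ σ : Γℚ, ∀ x ∈ Submodule.span F {v'}, (ρbar.baseChange F).ρ σ x ∈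
      Submodule.span F {v'} := by
    intro σ x hx
    obtain ⟨a, rfl⟩ := Submodule.mem_span_singleton.mp hx
    obtain ⟨c, hc⟩ := hspan _ (hL σ trivial v hvL)
    rw [map_smul, baseChange_ρ_apply, hv', LinearMap.baseChange_tmul, hc, TensorProduct.tmul_smul]
    exact Submodule.smul_mem _ _ (Submodule.smul_of_tower_mem _ c (Submodule.mem_span_singleton_self _))
  rcases habs (Submodule.span F {v'}) hstab with h | h
  · rw [Submodule.span_singleton_eq_bot] at h; exact hv'0 h
  · have h1 : Module.finrank F (Submodule.span F {v'}) = 1 := finrank_span_singleton hv'0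
    rw [h, finrank_top, (ρbar.baseChange F).finrank_eq] at h1
    norm_num at h1

end Fermat.Agent.TW.Cheb
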