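import Fermat.Agent.TW.Cheb.Regular

/-!
# Program G (S56), block TW: the trace form on `End W` and inner derivations

* `rankOne φ x : End W`, `y ↦ φ y • x`; `trace_rankOne`, `mul_rankOne`;
* `eq_zero_of_forall_trace_mul_eq_zero` : the trace form is nondegenerate;
* `exists_trace_mul_eq` : every linear functional on `End W` is `Y ↦ tr (X * Y)`;
* `span_eq_top_of_trace_nondeg` : a set `S ⊆ End W` with `(∀ s ∈ S, tr (X * s) = 0) → X = 0` spans;
* `exists_inner_of_derivation` : a linear map `D` on `End W` which satisfies the Leibniz rule for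
  left factors in a set `S` is `X ↦ m * X - X * m` on `S`.
-/

set_option autoImplicit false

open TensorProduct

namespace Fermat.Agent.TW.Cheb

variable {F : Type*} [Field F] {W : Type*} [AddCommGroup W] [Module F W]

local notation "tr" => LinearMap.trace F W

/-- The rank-one endomorphism `y ↦ φ y • x`. -/
noncomputable def rankOne (φ : Module.Dual F W) (x : W) : Module.End F W :=
  dualTensorHom F W W (φ ⊗ₜ[F] x)

theorem rankOne_apply (φ : Module.Dual F W) (x y : W) : rankOne φ x y = φ y • x := by
  rw [rankOne, dualTensorHom_apply]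

theorem trace_rankOne [Module.Finite F W] (φ : Module.Dual F W) (x : W) :
    tr (rankOne φ x) = φ x := by
  rw [rankOne, LinearMap.trace_eq_contract_apply, contractLeft_apply]

theorem mul_rankOne (X : Module.End F W) (φ : Module.Dual F W) (x : W) :
    X * rankOne φ x = rankOne φ (X x) := by
  ext y
  rw [Module.End.mul_apply, rankOne_apply, rankOne_apply, map_smul]

theorem rankOne_add (φ : Module.Dual F W) (x y : W) :
    rankOne φ (x + y) = rankOne φ x + rankOne φ y := by
  ext z
  rw [LinearMap.add_apply, rankOne_apply, rankOne_apply, rankOne_apply, smul_add]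

theorem rankOne_smul (φ : Module.Dual F W) (a : F) (x : W) :
    rankOne φ (a • x) = a • rankOne φ x := by
  ext z
  rw [LinearMap.smul_apply, rankOne_apply, rankOne_apply, smul_comm]

/-- The trace form on `End W` is nondegenerate. -/
theorem eq_zero_of_forall_trace_mul_eq_zero [Module.Finite F W] {X : Module.End F W}
    (h : ∀ Y : Module.End F W, tr (X * Y) = 0) : X = 0 := by
  ext x
  rw [LinearMap.zero_apply, ← Module.forall_dual_apply_eq_zero_iff F]
  intro φ
  have := h (rankOne φ x)
  rwa [mul_rankOne, trace_rankOne] at this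

/-- The trace pairing `X ↦ (Y ↦ tr (X * Y))`. -/
noncomputable def tracePairing : Module.End F W →ₗ[F] Module.Dual F (Module.End F W) where
  toFun X := (tr).comp (LinearMap.mulLeft F X)
  map_add' X Y := by
    ext Z
    simp only [LinearMap.comp_apply, LinearMap.mulLeft_apply, LinearMap.add_apply, add_mul,
      map_add]
  map_smul' a X := by
    ext Z
    simp only [LinearMap.comp_apply, LinearMap.mulLeft_apply, LinearMap.smul_apply, smul_mul_assoc,
      map_smul, RingHom.id_apply]

theorem tracePairing_apply (X Y : Module.End F W) : tracePairing X Y = tr (X * Y) := rfl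

/-- Every functional on `End W` is a trace pairing. -/
theorem exists_trace_mul_eq [Module.Finite F W] (f : Module.Dual F (Module.End F W)) :
    ∃ X : Module.End F W, ∀ Y, f Y = tr (X * Y) := by
  have hinj : Function.Injective (tracePairing : Module.End F W →ₗ[F] _) := by
    rw [← LinearMap.ker_eq_bot, eq_bot_iff]
    intro X hX
    rw [Submodule.mem_bot]
    apply eq_zero_of_forall_trace_mul_eq_zero
    intro Y
    rw [← tracePairing_apply, LinearMap.mem_ker.mp hX, LinearMap.zero_apply]
  have hsurj : Function.Surjective (tracePairing : Module.End F W →ₗ[F] _) :=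
    (LinearMap.injective_iff_surjective_of_finrank_eq_finrank
      (Subspace.dual_finrank_eq (K := F) (V := Module.End F W)).symm).mp hinj
  obtain ⟨X, hX⟩ := hsurj f
  exact ⟨X, fun Y => by rw [← hX, tracePairing_apply]⟩

/-- A set which separates `End W` through the trace form spans `End W`. -/
theorem span_eq_top_of_trace_nondeg [Module.Finite F W] (S : Set (Module.End F W))
    (hS : ∀ X : Module.End F W, (∀ s ∈ S, tr (X * s) = 0) → X = 0) :
    Submodule.span F S = ⊤ := by
  by_contra hne
  obtain ⟨f, hf0, hf⟩ := Submodule.exists_le_ker_of_lt_top _ (lt_top_iff_ne_top.mpr hne)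
  obtain ⟨X, hX⟩ := exists_trace_mul_eq f
  apply hf0
  have hX0 : X = 0 := by
    apply hS
    intro s hs
    rw [← hX]
    exact LinearMap.mem_ker.mp (hf (Submodule.subset_span hs))
  ext Y
  rw [hX, hX0, zero_mul, map_zero, LinearMap.zero_apply]

/-- **Inner derivations.**  A linear `D : End W → End W` with
`D (s * Y) = D s * Y + s * D Y` for `s ∈ S` and all `Y` is `s ↦ m * s - s * m` on `S`. -/
theorem exists_inner_of_derivation [Nontrivial W] (D : Module.End F W →ₗ[F] Module.End F W)
    (S : Set (Module.End F W))
    (hD : ∀ s ∈ S, ∀ Y : Module.End F W, D (s * Y) = D s * Y + s * D Y) :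
    ∃ m : Module.End F W, ∀ s ∈ S, D s = m * s - s * m := by
  obtain ⟨w₀, hw₀⟩ := exists_ne (0 : W)
  obtain ⟨φ₀, hφ₀⟩ : ∃ φ₀ : Module.Dual F W, φ₀ w₀ = 1 := by
    obtain ⟨φ, hφ⟩ : ∃ φ : Module.Dual F W, φ w₀ ≠ 0 := by
      by_contra hcon
      exact hw₀ ((Module.forall_dual_apply_eq_zero_iff F w₀).mp
        fun φ => by_contra fun hφ => hcon ⟨φ, hφ⟩)
    exact ⟨(φ w₀)⁻¹ • φ, by rw [LinearMap.smul_apply, smul_eq_mul, inv_mul_cancel₀ hφ]⟩
  let m : Module.End F W :=
    { toFun := fun x => D (rankOne φ₀ x) w₀
      map_add' := fun x y => by rw [rankOne_add, map_add, LinearMap.add_apply]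
      map_smul' := fun a x => by
        rw [rankOne_smul, map_smul, LinearMap.smul_apply, RingHom.id_apply] }
  have hm : ∀ x, m x = D (rankOne φ₀ x) w₀ := fun _ => rfl
  refine ⟨m, fun s hs => ?_⟩
  ext x
  have h1 := LinearMap.congr_fun (hD s hs (rankOne φ₀ x)) w₀
  rw [mul_rankOne, LinearMap.add_apply, Module.End.mul_apply, Module.End.mul_apply, rankOne_apply,
    hφ₀, one_smul, ← hm, ← hm] at h1
  rw [LinearMap.sub_apply, Module.End.mul_apply, Module.End.mul_apply, h1]
  abel

end Fermat.Agent.TW.Cheb
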