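import Fermat.Agent.TW.Cheb.TauZero
import Fermat.Agent.TW.Cheb.TraceForm

/-!
# Program G (S56), block TW, node (TW-2): a det-cocycle with `tau = 0` on `K` is a coboundary on `K`

`K ≤ G` a subgroup on which `det ∘ r = 1`, such that `r '' K` separates `End W` through the trace
form (Burnside for `K`).  If `tau r c = 0` on `K` then `X ↦ c g * r g` (`X = r g`) extends to a
well-defined derivation of `End W`, which is inner: `c g = m - r g * m * r g⁻¹` on `K`.
-/

set_option autoImplicit false

namespace Fermat.Agent.TW.Cheb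

variable {F : Type*} [Field F] {W : Type*} [AddCommGroup W] [Module F W]
variable {G : Type*} [Group G]

local notation "tr" => LinearMap.trace F W

namespace IsDetCocycle

variable {r : G →* Module.End F W} {c : G → Module.End F W}

theorem tau_mul (hc : IsDetCocycle r c) {a : G} (ha : LinearMap.det (r a) = 1) (b : G) :
    tau r c (a * b) = tr (c a * r a * r b) + tr (c b * r b * r a) := by
  have hai : r a⁻¹ * r a = 1 := map_inv_mul_map' r a
  have x1 : tr (c a * (r a * r b)) = tr (c a * r a * r b) := by rw [mul_assoc]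
  have x2 : tr (r a * c b * r a⁻¹ * (r a * r b)) = tr (c b * r b * r a) := by
    calc tr (r a * c b * r a⁻¹ * (r a * r b))
        = tr (r a * c b * (r a⁻¹ * r a) * r b) := by simp only [mul_assoc]
      _ = tr (r a * (c b * r b)) := by rw [hai, mul_one]; simp only [mul_assoc]
      _ = tr (c b * r b * r a) := LinearMap.trace_mul_comm F _ _
  rw [tau, hc.map_mul_of_det ha, _root_.map_mul r, add_mul, map_add, x1, x2]

/-- **Coboundary on `K`.** -/
theorem exists_coboundary_on (h2 : Module.finrank F W = 2) (hc : IsDetCocycle r c)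
    (K : Subgroup G) (hK : ∀ g ∈ K, LinearMap.det (r g) = 1)
    (hsep : ∀ X : Module.End F W, (∀ g ∈ K, tr (X * r g) = 0) → X = 0)
    (hτ : ∀ g ∈ K, tau r c g = 0) :
    ∃ m : Module.End F W, ∀ g ∈ K, c g = m - r g * m * r g⁻¹ := by
  have hfin : Module.Finite F W := Module.finite_of_finrank_eq_succ h2
  have hnt : Nontrivial W := Module.nontrivial_of_finrank_eq_succ h2
  let Φ : (K →₀ F) →ₗ[F] Module.End F W := Finsupp.linearCombination F (fun g : K => r (g : G))
  let Ct : (K →₀ F) →ₗ[F] Module.End F W :=
    Finsupp.linearCombination F (fun g : K => c (g : G) * r (g : G))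
  have hΦs : ∀ (g : K) (x : F), Φ (Finsupp.single g x) = x • r (g : G) := fun g x => by
    simp only [Φ, Finsupp.linearCombination_single]
  have hCs : ∀ (g : K) (x : F), Ct (Finsupp.single g x) = x • (c (g : G) * r (g : G)) :=
    fun g x => by simp only [Ct, Finsupp.linearCombination_single]
  -- the key orthogonality relation
  have hrel : ∀ g h : K, tr (c (g : G) * r (g : G) * r (h : G))
      = -tr (c (h : G) * r (h : G) * r (g : G)) := by
    intro g h
    have h1 := hc.tau_mul (hK g g.2) (h : G)
    rw [hτ _ (K.mul_mem g.2 h.2)] at h1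
    exact eq_neg_of_add_eq_zero_left h1.symm
  have hCΦ : ∀ (h : K) (a : K →₀ F), tr (Ct a * r (h : G))
      = -tr (c (h : G) * r (h : G) * Φ a) := by
    intro h a
    have : ((tr).comp (LinearMap.mulRight F (r (h : G)))).comp Ct
        = -(((tr).comp (LinearMap.mulLeft F (c (h : G) * r (h : G)))).comp Φ) := by
      apply Finsupp.lhom_ext
      intro g x
      simp only [LinearMap.comp_apply, LinearMap.neg_apply, LinearMap.mulRight_apply,
        LinearMap.mulLeft_apply, hΦs, hCs, map_smul]
      rw [hrel g h, smul_neg]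
    exact LinearMap.congr_fun this a
  have hle : LinearMap.ker Φ ≤ LinearMap.ker Ct := by
    intro a ha
    rw [LinearMap.mem_ker] at ha ⊢
    apply hsep
    intro g hg
    have := hCΦ ⟨g, hg⟩ a
    rw [ha, mul_zero, map_zero, neg_zero] at this
    exact this
  have hsurj : Function.Surjective Φ := by
    rw [← LinearMap.range_eq_top, Finsupp.range_linearCombination]
    apply span_eq_top_of_trace_nondeg
    intro X hX
    apply hsep
    intro g hg
    exact hX _ ⟨⟨g, hg⟩, rfl⟩
  let e := Φ.quotKerEquivOfSurjective hsurj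
  let D : Module.End F W →ₗ[F] Module.End F W :=
    ((LinearMap.ker Φ).liftQ Ct hle).comp (e.symm : Module.End F W →ₗ[F] _)
  have hDΦ : ∀ a, D (Φ a) = Ct a := by
    intro a
    have : e.symm (Φ a) = Submodule.Quotient.mk a := by
      rw [LinearEquiv.symm_apply_eq]
      rfl
    show ((LinearMap.ker Φ).liftQ Ct hle) (e.symm (Φ a)) = Ct a
    rw [this, Submodule.liftQ_apply]
  have hDr : ∀ g : K, D (r (g : G)) = c (g : G) * r (g : G) := by
    intro g
    have := hDΦ (Finsupp.single g 1)
    rwa [hΦs, hCs, one_smul, one_smul] at this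
  -- Leibniz rule with left factor in `r '' K`
  have hLeib : ∀ s ∈ Set.range (fun g : K => r (g : G)), ∀ Y : Module.End F W,
      D (s * Y) = D s * Y + s * D Y := by
    rintro _ ⟨g, rfl⟩ Y
    obtain ⟨b, rfl⟩ := hsurj Y
    show D (r (g : G) * Φ b) = D (r (g : G)) * Φ b + r (g : G) * D (Φ b)
    rw [hDΦ, hDr]
    have : (D.comp (LinearMap.mulLeft F (r (g : G)))).comp Φ
        = (LinearMap.mulLeft F (c (g : G) * r (g : G))).comp Φ
          + (LinearMap.mulLeft F (r (g : G))).comp Ct := by
      apply Finsupp.lhom_ext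
      intro h x
      simp only [LinearMap.comp_apply, LinearMap.add_apply, LinearMap.mulLeft_apply, hΦs, hCs,
        map_smul]
      have hgh : r (g : G) * r (h : G) = r ((g * h : K) : G) := by
        rw [Subgroup.coe_mul, _root_.map_mul r]
      have hgi : r (g : G)⁻¹ * r (g : G) = 1 := map_inv_mul_map' r _
      have y1 : c (g : G) * (r (g : G) * r (h : G)) = c (g : G) * r (g : G) * r (h : G) := by
        rw [mul_assoc]
      have y2 : r (g : G) * c (h : G) * r (g : G)⁻¹ * (r (g : G) * r (h : G))
          = r (g : G) * (c (h : G) * r (h : G)) := by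
        calc r (g : G) * c (h : G) * r (g : G)⁻¹ * (r (g : G) * r (h : G))
            = r (g : G) * c (h : G) * (r (g : G)⁻¹ * r (g : G)) * r (h : G) := by
              simp only [mul_assoc]
          _ = r (g : G) * (c (h : G) * r (h : G)) := by rw [hgi, mul_one]; simp only [mul_assoc]
      rw [hgh, hDr, Subgroup.coe_mul, hc.map_mul_of_det (hK g g.2), _root_.map_mul r, add_mul,
        y1, y2, smul_add]
    exact LinearMap.congr_fun this b
  obtain ⟨m, hm⟩ := exists_inner_of_derivation D _ hLeib
  refine ⟨m, fun g hg => ?_⟩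
  have h1 := hm _ ⟨⟨g, hg⟩, rfl⟩
  have h2' : c g * r g = m * r g - r g * m := by
    rw [← h1]
    exact (hDr ⟨g, hg⟩).symm
  have hgi : r g * r g⁻¹ = 1 := map_mul_map_inv' r g
  calc c g = c g * r g * r g⁻¹ := by rw [mul_assoc, hgi, mul_one]
    _ = (m * r g - r g * m) * r g⁻¹ := by rw [h2']
    _ = m - r g * m * r g⁻¹ := by rw [sub_mul, mul_assoc m, hgi, mul_one]

end IsDetCocycle

end Fermat.Agent.TW.Cheb
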