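import Fermat.Agent.Pseudo.CycloPow
import Fermat.Agent.S55.LCBridgeGlobal
import Fermat.Prelude.Def_GaloisRep_LocalConditions

/-!
# Program G (S56), block TW, node (TW-1), concrete form: `Gal(ℚ̄ / ℚ(ζ_{p^{n+1}}))`

`cycloKer p n = ker (cycloN (p^(n+1)))` (main's `Pseudo.Cyclo.cycloN`).

* `mem_cycloKer_iff`, normality, `commutator_mem_cycloKer`, `cycloKer_antitone`;
* `dvd_sub_one_of_frobenius_mem_cycloKer` : a Frobenius at `q ≠ p` in `cycloKer p n` forces
  `p^(n+1) ∣ q - 1`;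
* `exists_level_cycloKer` : membership only depends on the restriction to a finite extension;
* `det_eq_natCast_of_detIsCyclotomic`, `det_eq_one_of_mem_cycloKer` : consequences of `hdet`.
-/

set_option autoImplicit false

open Fermat.Agent.Pseudo.Cyclo

namespace Fermat.Agent.TW.Cheb

local notation "Qb" => AlgebraicClosure ℚ
local notation "GQ" => (AlgebraicClosure ℚ ≃ₐ[ℚ] AlgebraicClosure ℚ)

variable (p : ℕ) [Fact p.Prime]

/-- The absolute Galois group of `ℚ(ζ_{p^{n+1}})`. -/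
noncomputable def cycloKer (n : ℕ) : Subgroup GQ := (cycloN (p ^ (n + 1))).ker

instance (n : ℕ) : (cycloKer p n).Normal := MonoidHom.normal_ker _

theorem mem_cycloKer_iff (n : ℕ) (σ : GQ) :
    σ ∈ cycloKer p n ↔ ∀ ζ : Qb, ζ ^ p ^ (n + 1) = 1 → σ ζ = ζ := by
  rw [cycloKer, MonoidHom.mem_ker, cycloN_eq_one_iff]

theorem commutator_mem_cycloKer (n : ℕ) (g g' : GQ) : g * g' * g⁻¹ * g'⁻¹ ∈ cycloKer p n := by
  rw [cycloKer, MonoidHom.mem_ker, map_mul, map_mul, map_mul, map_inv, map_inv,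
    mul_right_comm (cycloN (p ^ (n + 1)) g), mul_inv_cancel, one_mul, mul_inv_cancel]

theorem cycloKer_antitone {n m : ℕ} (h : n ≤ m) : cycloKer p m ≤ cycloKer p n := by
  intro σ hσ
  rw [mem_cycloKer_iff] at hσ ⊢
  intro ζ hζ
  apply hσ
  obtain ⟨d, rfl⟩ := Nat.exists_eq_add_of_le h
  rw [show n + d + 1 = (n + 1) + d by ring, pow_add, pow_mul, hζ, one_pow]

/-- A Frobenius element at `q ≠ p` which fixes `ζ_{p^{n+1}}` forces `q ≡ 1 mod p^{n+1}`. -/
theorem dvd_sub_one_of_frobenius_mem_cycloKer (n : ℕ) {q : ℕ} (hq : q.Prime) (hqp : q ≠ p)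
    (A : ValuationSubring Qb) (hA : A.LiesOverPrime q) {φ : GQ} (hφ : A.IsFrobeniusAt φ q)
    (hmem : φ ∈ cycloKer p n) : p ^ (n + 1) ∣ q - 1 := by
  have hqn : ¬ q ∣ p ^ (n + 1) := by
    intro h
    have := (Nat.prime_dvd_prime_iff_eq hq Fact.out).mp (hq.dvd_of_dvd_pow h)
    exact hqp this
  have h1 := cycloN_frobenius (p ^ (n + 1)) hq hqn A hA hφ
  rw [cycloKer, MonoidHom.mem_ker] at hmem
  rw [hmem, Units.val_one] at h1
  have h2 : ((q : ℕ) : ZMod (p ^ (n + 1))) = ((1 : ℕ) : ZMod (p ^ (n + 1))) := by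
    rw [Nat.cast_one]; exact h1.symm
  rw [ZMod.natCast_eq_natCast_iff] at h2
  exact (Nat.modEq_iff_dvd' hq.one_lt.le).mp h2.symm

/-- Membership in `cycloKer p n` only depends on the restriction to a finite extension. -/
theorem exists_level_cycloKer (n : ℕ) :
    ∃ L : IntermediateField ℚ Qb, FiniteDimensional ℚ L ∧
      ∀ σ τ : GQ, (∀ x ∈ L, σ x = τ x) → (σ ∈ cycloKer p n ↔ τ ∈ cycloKer p n) := by
  obtain ⟨L, hL, h⟩ := exists_finite_level_cycloN (p ^ (n + 1))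
  refine ⟨L, hL, fun σ τ hστ => ?_⟩
  rw [cycloKer, MonoidHom.mem_ker, MonoidHom.mem_ker, h σ τ hστ]

section Det

variable {k : Type} [Field k] (ρbar : ResidualGaloisRep k)

omit [Fact (Nat.Prime p)] in
/-- `hdet` forces `p = 0` in `k`. -/
theorem natCast_eq_zero_of_detIsCyclotomic
    (hdet : (GaloisRepAdic.ofResidualGaloisRep ρbar).DetIsCyclotomic p) : (p : k) = 0 := by
  have h := hdet.1
  rwa [IsLocalRing.mem_maximalIdeal, mem_nonunits_iff, isUnit_iff_ne_zero, not_not] at h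

/-- `det ρbar σ` is the mod `p` cyclotomic character. -/
theorem det_eq_natCast_of_detIsCyclotomic
    (hdet : (GaloisRepAdic.ofResidualGaloisRep ρbar).DetIsCyclotomic p) (σ : GQ) :
    LinearMap.det (ρbar.ρ σ) = ((((cycloN p σ : (ZMod p)ˣ) : ZMod p).val : ℕ) : k) := by
  have hp0 := natCast_eq_zero_of_detIsCyclotomic p ρbar hdet
  have h := hdet.2 1 σ ((cycloN p σ : (ZMod p)ˣ) : ZMod p).val
    (fun μ hμ => by
      rw [pow_one] at hμ
      exact cycloN_spec p σ hμ)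
  rw [pow_one, hp0, Ideal.span_singleton_eq_bot.mpr rfl, Ideal.mem_bot, sub_eq_zero] at h
  exact h

theorem det_eq_one_of_mem_cycloKer
    (hdet : (GaloisRepAdic.ofResidualGaloisRep ρbar).DetIsCyclotomic p) {n : ℕ} {σ : GQ}
    (hσ : σ ∈ cycloKer p n) : LinearMap.det (ρbar.ρ σ) = 1 := by
  have hp0 := natCast_eq_zero_of_detIsCyclotomic p ρbar hdet
  have hσ0 : σ ∈ cycloKer p 0 := cycloKer_antitone p (Nat.zero_le n) hσ
  rw [mem_cycloKer_iff] at hσ0
  have h := hdet.2 1 σ 1 (fun μ hμ => by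
    rw [pow_one]
    exact hσ0 μ (by rwa [zero_add]))
  rw [pow_one, hp0, Ideal.span_singleton_eq_bot.mpr rfl, Ideal.mem_bot, sub_eq_zero,
    Nat.cast_one] at h
  exact h

end Det

end Fermat.Agent.TW.Cheb
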