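import Fermat.Agent.TW.Cheb.Level

/-!
# Program G (S56), block TW: deflation

* `LocTriv M q c` : the restriction of the `1`-cochain `c : G_ℚ → M` to `G_{ℚ_q}` is a coboundary;
* `lcResH1_eq_zero_iff` : this is the vanishing of `lcResH1` at `q`;
* `deflate` : an LC `1`-cocycle of level `T'` with values in a finite module smooth for `T`, whose
  restrictions to the primes of `T' ∖ T` are coboundaries, is an LC `1`-cocycle of level `T`
  (kernel-field argument).
-/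

set_option autoImplicit false

open groupCohomology ExtCitation
open Fermat.Agent.CFT Fermat.Agent.S55 Fermat.Agent.S54.FrobExists

namespace Fermat.Agent.TW.Cheb

local notation "Qb" => AlgebraicClosure ℚ
local notation "GQ" => (AlgebraicClosure ℚ ≃ₐ[ℚ] AlgebraicClosure ℚ)

variable {R : Type} [CommRing R] (M : Rep.{0} R GQ)

/-- The restriction of `c` to `G_{ℚ_q}` is a coboundary. -/
def LocTriv (q : Nat.Primes) (c : GQ → M) : Prop :=
  ∃ m : M, ∀ h : primeLocalGaloisGroup q,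
    c (primeLocalToGlobal q h) = M.ρ (primeLocalToGlobal q h) m - m

/-- Vanishing of the restriction at `q` of the class of an LC cocycle. -/
theorem lcResH1_eq_zero_iff (T : Finset Nat.Primes) (q : Nat.Primes)
    (c : ↥(LC.Z₁ (globalLevel T) M)) :
    lcResH1 M (levelCompat_globalLevel (primeLocalToGlobal q) T) (LC.H1π _ M c) = 0 ↔
      LocTriv M q c := by
  rw [lcResH1_mk, LC.H1π_eq_zero_iff, coe_lcResZ₁]
  constructor
  · rintro ⟨m, hm⟩
    refine ⟨m, fun h => ?_⟩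
    have := congrFun hm h
    rw [d₀₁_hom_apply, pullC₁_apply] at this
    exact this.symm
  · rintro ⟨m, hm⟩
    refine ⟨m, ?_⟩
    funext h
    rw [d₀₁_hom_apply, pullC₁_apply]
    exact (hm h).symm

section Deflate

local instance instIsGaloisQbDefl : IsGalois ℚ Qb := isGalois_rat_algebraicClosure

variable {M}

/-- **Deflation.** -/
theorem deflate [Finite M] {T T' : Finset Nat.Primes} (hsm : IsSmooth (globalLevel T) M)
    {c : GQ → M} (hc : c ∈ LC.Z₁ (globalLevel T') M)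
    (hloc : ∀ q : Nat.Primes, q ∉ T → q ∈ T' → LocTriv M q c) :
    c ∈ LC.Z₁ (globalLevel T) M := by
  obtain ⟨hcoc, N', ⟨F', hgal', hF', rfl⟩, hN'⟩ := hc
  obtain ⟨N₀, ⟨F₀, hgal₀, hF₀, rfl⟩, hN₀⟩ :=
    hsm.exists_level_of_finite (Set.finite_univ (α := M))
  have hcoc' := (mem_cocycles₁_iff c).mp hcoc
  have hc1 : c 1 = 0 := cocycles₁_map_one ⟨c, hcoc⟩
  have htriv : ∀ σ ∈ F₀.fixingSubgroup, ∀ a : M, M.ρ σ a = a :=
    fun σ hσ a => hN₀ a (Set.mem_univ a) σ hσ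
  have hn₀ : F₀.fixingSubgroup.Normal := normal_fixingSubgroup_of_isGalois F₀ hgal₀
  have hfd' := hF'.1
  have hfd₀ := hF₀.1
  have hF₁fd : FiniteDimensional ℚ (F' ⊔ F₀ : IntermediateField ℚ Qb) :=
    IntermediateField.finiteDimensional_sup F' F₀
  have hF₁' : (F' ⊔ F₀ : IntermediateField ℚ Qb).fixingSubgroup ≤ F'.fixingSubgroup :=
    IntermediateField.fixingSubgroup_antitone le_sup_left
  have hF₁₀ : (F' ⊔ F₀ : IntermediateField ℚ Qb).fixingSubgroup ≤ F₀.fixingSubgroup :=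
    IntermediateField.fixingSubgroup_antitone le_sup_right
  -- the subgroup `H`
  let H : Subgroup GQ :=
    { carrier := {σ | σ ∈ F₀.fixingSubgroup ∧ c σ = 0}
      mul_mem' := by
        rintro σ τ ⟨hσ, hσc⟩ ⟨hτ, hτc⟩
        exact ⟨mul_mem hσ hτ, by rw [hcoc' σ τ, hτc, hσc, map_zero, add_zero]⟩
      one_mem' := ⟨one_mem _, hc1⟩
      inv_mem' := by
        rintro σ ⟨hσ, hσc⟩
        refine ⟨inv_mem hσ, ?_⟩
        have h := hcoc' σ⁻¹ σ
        rwa [inv_mul_cancel, hc1, hσc, map_zero, zero_add, eq_comm] at h }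
  have hHmem : ∀ σ, σ ∈ H ↔ σ ∈ F₀.fixingSubgroup ∧ c σ = 0 := fun σ => Iff.rfl
  have hHn : H.Normal := by
    refine ⟨fun σ hσ g => ?_⟩
    obtain ⟨hσ0, hσc⟩ := (hHmem σ).mp hσ
    refine (hHmem _).mpr ⟨hn₀.conj_mem σ hσ0 g, ?_⟩
    have h1 : c (g * σ) = c g := by rw [hcoc' g σ, hσc, map_zero, zero_add]
    have h2 : M.ρ (g * σ) (c g⁻¹) = M.ρ g (c g⁻¹) := by
      rw [map_mul, Module.End.mul_apply, htriv σ hσ0]
    have h3 := hcoc' g g⁻¹
    rw [mul_inv_cancel, hc1] at h3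
    rw [hcoc' (g * σ) g⁻¹, h1, h2, ← h3]
  have hle : (F' ⊔ F₀ : IntermediateField ℚ Qb).fixingSubgroup ≤ H := fun s hs =>
    (hHmem s).mpr ⟨hF₁₀ hs, by
      have := hN' 1 s (hF₁' hs)
      rwa [one_mul, hc1] at this⟩
  obtain ⟨E, hEfd, hEgal, hEfix⟩ := exists_isGalois_fixingSubgroup_eq H (F' ⊔ F₀) hle
  refine ⟨hcoc, E.fixingSubgroup, ⟨E, hEgal, ⟨hEfd, fun q hq A hA σ hσ => ?_⟩, rfl⟩,
    fun g s hs => ?_⟩
  · -- inertia outside `T` lies in `H`
    rw [hEfix]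
    by_cases hqT' : q ∈ T'
    · obtain ⟨m, hm⟩ := hloc q hq hqT'
      have hA₀ := primeLocalPlace_liesOverPrime (ℓ := q)
      obtain ⟨g, rfl⟩ := Fermat.Agent.S13.exists_smul_valuationSubring_eq (primeLocalPlace q) A
        q.2 hA₀ hA
      have hσ₀ : g⁻¹ * σ * g ∈ (primeLocalPlace q).inertiaSubgroupIn ℚ :=
        (mem_inertiaSubgroupIn_smul_iff g σ (primeLocalPlace q)).mp hσ
      have hσ₀F : g⁻¹ * σ * g ∈ F₀.fixingSubgroup := hF₀.2 q hq _ hA₀ hσ₀
      have hσ₀D := ((Fermat.Agent.S14.mem_inertiaSubgroupIn_iff _ _).mp hσ₀).1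
      obtain ⟨h, hh⟩ := exists_primeLocalToGlobal_eq_on q hσ₀D (F' ⊔ F₀)
      have hs : (g⁻¹ * σ * g)⁻¹ * primeLocalToGlobal q h ∈
          (F' ⊔ F₀ : IntermediateField ℚ Qb).fixingSubgroup := by
        rw [IntermediateField.mem_fixingSubgroup_iff]
        intro x hx
        rw [AlgEquiv.mul_apply, hh x hx]
        exact (g⁻¹ * σ * g).symm_apply_apply x
      have hι : primeLocalToGlobal q h = (g⁻¹ * σ * g) * ((g⁻¹ * σ * g)⁻¹ * primeLocalToGlobal q h) :=
        (mul_inv_cancel_left _ _).symm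
      have hιF : primeLocalToGlobal q h ∈ F₀.fixingSubgroup := by
        rw [hι]
        exact mul_mem hσ₀F (hF₁₀ hs)
      have hc0 : c (g⁻¹ * σ * g) = 0 := by
        have h1 := hN' (g⁻¹ * σ * g) _ (hF₁' hs)
        rw [← hι, hm h, htriv _ hιF, sub_self] at h1
        exact h1.symm
      have hmem : g⁻¹ * σ * g ∈ H := (hHmem _).mpr ⟨hσ₀F, hc0⟩
      have := hHn.conj_mem _ hmem g
      have e : g * (g⁻¹ * σ * g) * g⁻¹ = σ := by group
      rwa [e] at this
    · refine (hHmem σ).mpr ⟨hF₀.2 q hq A hA hσ, ?_⟩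
      have := hN' 1 σ (hF'.2 q hqT' A hA hσ)
      rwa [one_mul, hc1] at this
  · rw [hEfix] at hs
    rw [hcoc' g s, ((hHmem s).mp hs).2, map_zero, zero_add]

end Deflate

end Fermat.Agent.TW.Cheb
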