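import Fermat.Agent.TW.Cheb.H1Zero

/-!
# Program G (S56), block TW, node (TW-3), abstract form: a detecting element

`r : G →* End W` as in `H1Zero`; `N ≤ G` a normal subgroup containing the commutators
(for `G = G_ℚ`: `N = Gal(ℚ̄ / ℚ(ζ_{p^{n+1}}))`).  If a det-cocycle `c` is not a
coboundary, there is `τ ∈ N` with `disc (r τ) ≠ 0` and `tau r c τ ≠ 0`.

* `eq_zero_on_ker` : inflation step (`N ∩ ker r` to `ker r`): the quotient `ker r / (N ∩ ker r)` is
  central and `(ad⁰ ⊗ det)^G = 0`;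
* `exists_detecting`.
-/

set_option autoImplicit false

namespace Fermat.Agent.TW.Cheb

variable {F : Type*} [Field F] {W : Type*} [AddCommGroup W] [Module F W]
variable {G : Type*} [Group G]

local notation "tr" => LinearMap.trace F W

theorem map_inv_eq_one_of_ker (r : G →* Module.End F W) {k : G} (hk : r k = 1) : r k⁻¹ = 1 := by
  have := map_inv_mul_map' r k
  rwa [hk, mul_one] at this

namespace IsDetCocycle

variable {r : G →* Module.End F W} {c : G → Module.End F W}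

/-- For `k ∈ ker r`: `c (g k g⁻¹) = det (r g) • (r g * c k * r g⁻¹)`. -/
theorem map_conj_of_ker (hc : IsDetCocycle r c) {k : G} (hk : r k = 1) (g : G) :
    c (g * k * g⁻¹) = LinearMap.det (r g) • (r g * c k * r g⁻¹) := by
  have hkdet : LinearMap.det (r k) = 1 := by rw [hk, _root_.map_one]
  have hki := map_inv_eq_one_of_ker r hk
  have hdd := det_map_mul_det_map_inv r g
  have hgi : r g * r g⁻¹ = 1 := map_mul_map_inv' r g
  have h1 : c (k * g⁻¹) = c k + c g⁻¹ := by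
    rw [hc.map_mul_of_det hkdet, hk, hki, one_mul, mul_one]
  rw [mul_assoc, hc.map_mul, h1, hc.map_inv g, mul_add, add_mul, smul_add]
  have key : LinearMap.det (r g) •
      (r g * -(LinearMap.det (r g⁻¹) • (r g⁻¹ * c g * r g)) * r g⁻¹) = -c g := by
    simp only [mul_neg, neg_mul, smul_neg, mul_smul_comm, smul_mul_assoc, smul_smul, hdd,
      one_smul]
    congr 1
    calc r g * (r g⁻¹ * c g * r g) * r g⁻¹
        = (r g * r g⁻¹) * c g * (r g * r g⁻¹) := by simp only [mul_assoc]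
      _ = c g := by rw [hgi, one_mul, mul_one]
  rw [key]
  abel

/-- **Inflation step**: a det-cocycle vanishing on `N ∩ ker r` vanishes on `ker r`. -/
theorem eq_zero_on_ker (hc : IsDetCocycle r c) (hN : NoConjLine r) (N : Subgroup G)
    (hcomm : ∀ g g' : G, g * g' * g⁻¹ * g'⁻¹ ∈ N) (h0 : ∀ k ∈ N, r k = 1 → c k = 0)
    {k : G} (hk : r k = 1) : c k = 0 := by
  by_contra hne
  apply hN (c k) hne (hc.trace_eq k)
  intro g
  have hki := map_inv_eq_one_of_ker r hk
  have hgi : r g⁻¹ * r g = 1 := map_inv_mul_map' r g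
  have hdd := det_map_mul_det_map_inv r g
  have hrcomm : r (g * k * g⁻¹ * k⁻¹) = 1 := by
    rw [_root_.map_mul r, _root_.map_mul r, _root_.map_mul r, hk, hki, mul_one, mul_one,
      map_mul_map_inv']
  have hccomm : c (g * k * g⁻¹ * k⁻¹) = 0 := h0 _ (hcomm g k) hrcomm
  have h1 : c (g * k * g⁻¹) = c k := by
    have : g * k * g⁻¹ = (g * k * g⁻¹ * k⁻¹) * k := by group
    rw [this, hc.map_mul, hccomm, hrcomm, _root_.map_one, one_smul, one_mul,
      map_inv_eq_one_of_ker r hrcomm, mul_one, zero_add]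
  rw [hc.map_conj_of_ker hk g] at h1
  -- `c k * r g = det (r g) • (r g * c k)`
  have h2 : c k * r g = LinearMap.det (r g) • (r g * c k) := by
    calc c k * r g = LinearMap.det (r g) • (r g * c k * r g⁻¹) * r g := by rw [h1]
      _ = LinearMap.det (r g) • (r g * c k * (r g⁻¹ * r g)) := by
        rw [smul_mul_assoc]; simp only [mul_assoc]
      _ = LinearMap.det (r g) • (r g * c k) := by rw [hgi, mul_one]
  refine ⟨LinearMap.det (r g⁻¹), ?_⟩
  rw [h2, smul_smul, mul_comm, hdd, one_smul]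

/-- **A detecting element.** -/
theorem exists_detecting (p : ℕ) [Fact p.Prime] [CharP F p] (hp2 : p ≠ 2)
    (h2 : Module.finrank F W = 2) (hc : IsDetCocycle r c)
    (hfin : ∀ g : G, ∃ n : ℕ, 0 < n ∧ r g ^ n = 1) (hirr : ¬ HasStableLine r ⊤)
    (hN : NoConjLine r) (hnsq : ∃ t : G, ¬ IsPrimeSq p (LinearMap.det (r t)))
    (N : Subgroup G) [hNn : N.Normal] (hcomm : ∀ g g' : G, g * g' * g⁻¹ * g'⁻¹ ∈ N)
    (hnc : ¬ ∃ m : Module.End F W, tr m = 0 ∧
      ∀ g, c g = LinearMap.det (r g) • (r g * m * r g⁻¹) - m) :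
    ∃ τ ∈ N, disc (r τ) ≠ 0 ∧ tau r c τ ≠ 0 := by
  have h2ne : (2 : F) ≠ 0 := by
    intro h0
    have h1 : ((2 : ℕ) : F) = 0 := by exact_mod_cast h0
    rw [CharP.cast_eq_zero_iff F p] at h1
    exact hp2 ((Nat.prime_dvd_prime_iff_eq Fact.out Nat.prime_two).mp h1)
  -- some `h₀ ∈ N ∩ ker r` has `c h₀ ≠ 0`
  obtain ⟨h₀, hh₀N, hh₀r, hh₀c⟩ : ∃ h₀ ∈ N, r h₀ = 1 ∧ c h₀ ≠ 0 := by
    by_contra hcon
    apply hnc
    have h0 : ∀ k ∈ N, r k = 1 → c k = 0 := fun k hk hrk =>
      by_contra fun hck => hcon ⟨k, hk, hrk, hck⟩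
    exact hc.exists_eq_coboundary p hp2 h2 (fun g hg => hc.eq_zero_on_ker hN N hcomm h0 hg)
      hfin hirr hN hnsq
  have hreg := exists_regular h2ne h2 r hirr hN N hcomm
  obtain ⟨σ, hσN, hσd, hσw⟩ :=
    exists_regular_trace_ne_zero h2ne h2 r hN N hreg (c h₀) (hc.trace_eq h₀) hh₀c
  by_cases hτσ : tau r c σ = 0
  · refine ⟨h₀ * σ, N.mul_mem hh₀N hσN, ?_, ?_⟩
    · rw [_root_.map_mul r, hh₀r, one_mul]; exact hσd
    · have hdet0 : LinearMap.det (r h₀) = 1 := by rw [hh₀r, _root_.map_one]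
      rw [tau, hc.map_mul_of_det hdet0, hh₀r, map_inv_eq_one_of_ker r hh₀r, one_mul, mul_one,
        _root_.map_mul r, hh₀r, one_mul, add_mul, map_add]
      rw [tau] at hτσ
      rw [hτσ, add_zero]
      exact hσw
  · exact ⟨σ, hσN, hσd, hτσ⟩

end IsDetCocycle

end Fermat.Agent.TW.Cheb
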