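import Fermat.Agent.TW.Cheb.SpanAd

/-!
# Program G (S56), block TW, group theory: a normal subgroup with abelian quotient contains a
regular element

`exists_regular`: `G` acts irreducibly on a plane `W` (char `≠ 2`), `NoConjLine r`, and `N` is a
normal subgroup containing all commutators.  Then some `h ∈ N` has `disc (r h) ≠ 0`.
-/

set_option autoImplicit false

namespace Fermat.Agent.TW.Cheb

variable {F : Type*} [Field F] {W : Type*} [AddCommGroup W] [Module F W]
variable {G : Type*} [Group G]

local notation "tr" => LinearMap.trace F W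

theorem tl_smul (c : F) (A : Module.End F W) : tl (c • A) = c • tl A := by
  rw [tl, tl, map_smul, smul_sub, smul_smul, smul_eq_mul, mul_div_assoc]

theorem eq_smul_one_of_tl_eq_zero {A : Module.End F W} (h : tl A = 0) :
    A = (tr A / 2) • (1 : Module.End F W) := sub_eq_zero.mp h

/-- The kernel of a nonzero square-zero endomorphism of a plane is the line spanned by any
nonzero vector of its range. -/
theorem mem_ker_iff_of_sq_zero (h2 : Module.finrank F W = 2) {n : Module.End F W}
    (hsq : n * n = 0) {u : W} (hu : n u ≠ 0) (x : W) : n x = 0 ↔ ∃ b : F, x = b • n u := by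
  have hfin : Module.Finite F W := Module.finite_of_finrank_eq_succ h2
  have hnn : ∀ y, n (n y) = 0 := fun y => by
    rw [← Module.End.mul_apply, hsq, LinearMap.zero_apply]
  constructor
  · intro hx
    have hli : LinearIndependent F ![u, n u] := by
      rw [LinearIndependent.pair_iff]
      intro a b hab
      have h1 : a • n u = 0 := by
        have := congrArg n hab
        rwa [map_add, map_smul, map_smul, hnn, smul_zero, add_zero, map_zero] at this
      have ha : a = 0 := (smul_eq_zero.mp h1).resolve_right hu
      rw [ha, zero_smul, zero_add] at hab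
      exact ⟨ha, (smul_eq_zero.mp hab).resolve_right hu⟩
    have hspan : Submodule.span F (Set.range ![u, n u]) = ⊤ := by
      apply hli.span_eq_top_of_card_eq_finrank'
      rw [h2]; simp
    have hrange : Set.range ![u, n u] = {u, n u} := by
      ext z
      constructor
      · rintro ⟨i, rfl⟩
        fin_cases i
        · exact Or.inl rfl
        · exact Or.inr rfl
      · rintro (rfl | rfl)
        · exact ⟨0, rfl⟩
        · exact ⟨1, rfl⟩
    have hxs : x ∈ Submodule.span F (Set.range ![u, n u]) := by rw [hspan]; trivial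
    rw [hrange, Submodule.mem_span_pair] at hxs
    obtain ⟨a, b, hab⟩ := hxs
    have h1 : a • n u = 0 := by
      have := congrArg n hab
      rwa [map_add, map_smul, map_smul, hnn, smul_zero, add_zero, hx] at this
    have ha : a = 0 := (smul_eq_zero.mp h1).resolve_right hu
    exact ⟨b, by rw [← hab, ha, zero_smul, zero_add]⟩
  · rintro ⟨b, rfl⟩
    rw [map_smul, hnn, smul_zero]

theorem exists_regular (h2ne : (2 : F) ≠ 0) (h2 : Module.finrank F W = 2)
    (r : G →* Module.End F W) (hirr : ¬ HasStableLine r ⊤) (hN : NoConjLine r)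
    (N : Subgroup G) [hNn : N.Normal] (hcomm : ∀ g g' : G, g * g' * g⁻¹ * g'⁻¹ ∈ N) :
    ∃ h₀ ∈ N, disc (r h₀) ≠ 0 := by
  have hfin : Module.Finite F W := Module.finite_of_finrank_eq_succ h2
  have hnt : Nontrivial W := Module.nontrivial_of_finrank_eq_succ h2
  have h4 : (4 : F) ≠ 0 := by
    have : (4 : F) = 2 * 2 := by norm_num
    rw [this]; exact mul_ne_zero h2ne h2ne
  by_contra hcon
  have hall : ∀ h ∈ N, disc (r h) = 0 := by
    intro h hh
    by_contra hne
    exact hcon ⟨h, hh, hne⟩
  have hinj : ∀ g : G, ∀ x : W, r g x = 0 → x = 0 := by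
    intro g x hx
    have : (r g⁻¹ * r g) x = x := by rw [map_inv_mul_map', Module.End.one_apply]
    rw [Module.End.mul_apply, hx, map_zero] at this
    exact this.symm
  by_cases hcase : ∀ h ∈ N, tl (r h) = 0
  · -- `r N` is scalar
    by_cases hsc : ∀ σ : G, tl (r σ) = 0
    · -- everything is scalar: any line is stable
      obtain ⟨v, hv⟩ := exists_ne (0 : W)
      apply hirr
      refine ⟨Submodule.span F {v}, ?_, ?_, ?_⟩
      · rw [Ne, Submodule.span_singleton_eq_bot]; exact hv
      · intro htop
        have h1 : Module.finrank F (Submodule.span F {v}) = 1 := finrank_span_singleton hv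
        rw [htop, finrank_top, h2] at h1
        norm_num at h1
      · intro g _ x hx
        rw [eq_smul_one_of_tl_eq_zero (hsc g), LinearMap.smul_apply, Module.End.one_apply]
        exact Submodule.smul_mem _ _ hx
    · push Not at hsc
      obtain ⟨σ, hσ⟩ := hsc
      apply hN (tl (r σ)) hσ (trace_tl h2ne h2 _)
      intro g
      have hz := hcase _ (hcomm g σ)
      set c : F := tr (r (g * σ * g⁻¹ * σ⁻¹)) / 2 with hc
      have h1 : r (g * σ * g⁻¹ * σ⁻¹) = c • (1 : Module.End F W) := eq_smul_one_of_tl_eq_zero hz
      have h2' : r (g * σ * g⁻¹) = c • r σ := by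
        have : r (g * σ * g⁻¹) = r (g * σ * g⁻¹ * σ⁻¹) * r σ := by
          rw [← map_mul, inv_mul_cancel_right]
        rw [this, h1, smul_mul_assoc, one_mul]
      refine ⟨c, mul_eq_smul_mul_of_conj r ?_⟩
      rw [← tl_map_conj, h2', tl_smul]
  · -- a non-scalar element of `N` with a double eigenvalue
    push Not at hcase
    obtain ⟨h₀, hh₀, hn₀⟩ := hcase
    set n₀ : Module.End F W := tl (r h₀) with hn₀def
    have hn₀sq : n₀ * n₀ = 0 := tl_mul_tl_of_disc_eq_zero h2ne h2 (hall h₀ hh₀)
    have hn₀tr : tr n₀ = 0 := trace_tl h2ne h2 _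
    set a : F := tr (r h₀) / 2 with ha
    have hB : r h₀ = a • (1 : Module.End F W) + n₀ := by
      rw [hn₀def, tl, ← ha]; abel
    have htrB : tr (r h₀) = 2 * a := by rw [ha]; field_simp
    have hdetB : LinearMap.det (r h₀) = a ^ 2 := by
      have := hall h₀ hh₀
      rw [disc, htrB] at this
      have h' : 4 * (a ^ 2 - LinearMap.det (r h₀)) = 0 := by linear_combination this
      exact (sub_eq_zero.mp ((mul_eq_zero.mp h').resolve_left h4)).symm
    have ha0 : a ≠ 0 := by
      intro h0
      have hdet0 : LinearMap.det (r h₀) = 0 := by rw [hdetB, h0]; ring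
      have h1 : LinearMap.det (r h₀ * r h₀⁻¹) = 1 := by rw [map_mul_map_inv', map_one]
      rw [map_mul, hdet0, zero_mul] at h1
      exact zero_ne_one h1
    -- key claim: `tr (r h * n₀) = 0` for all `h ∈ N`
    have hkey : ∀ h ∈ N, tr (r h * n₀) = 0 := by
      intro h hh
      set A : Module.End F W := r h with hA
      set s : F := tr A with hs
      set t : F := tr (A * n₀) with ht
      have hdA : 4 * LinearMap.det A = s ^ 2 := by
        have := hall h hh
        rw [disc] at this
        linear_combination -this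
      have hAB : A * r h₀ = a • A + A * n₀ := by
        rw [hB, mul_add, mul_smul_comm, mul_one]
      have hAnB : A * n₀ * r h₀ = a • (A * n₀) := by
        rw [hB, mul_add, mul_smul_comm, mul_one, mul_assoc, hn₀sq, mul_zero, add_zero]
      have hABB : A * r h₀ * r h₀ = (a ^ 2) • A + (2 * a) • (A * n₀) := by
        rw [hAB, add_mul, smul_mul_assoc, hAB, hAnB, smul_add, smul_smul, add_assoc, ← add_smul,
          pow_two, two_mul]
      have hd1 : disc (A * r h₀) = 0 := by
        have := hall (h * h₀) (N.mul_mem hh hh₀)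
        rwa [map_mul] at this
      have hd2 : disc (A * r h₀ * r h₀) = 0 := by
        have := hall (h * h₀ * h₀) (N.mul_mem (N.mul_mem hh hh₀) hh₀)
        rwa [map_mul, map_mul] at this
      have hdet1 : LinearMap.det (A * r h₀) = LinearMap.det A * a ^ 2 := by
        rw [map_mul LinearMap.det, hdetB]
      have hdet2 : LinearMap.det (A * r h₀ * r h₀) = LinearMap.det A * a ^ 2 * a ^ 2 := by
        rw [map_mul LinearMap.det, hdet1, hdetB]
      have htr1 : tr (A * r h₀) = a * s + t := by
        rw [hAB, map_add, map_smul, smul_eq_mul]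
      have htr2 : tr (A * r h₀ * r h₀) = a ^ 2 * s + 2 * a * t := by
        rw [hABB, map_add, map_smul, map_smul, smul_eq_mul, smul_eq_mul]
      have e1 : t * (2 * a * s + t) = 0 := by
        rw [disc, htr1, hdet1] at hd1
        linear_combination hd1 + a ^ 2 * hdA
      have e2 : t * (a * s + t) = 0 := by
        rw [disc, htr2, hdet2] at hd2
        have h' : 4 * a ^ 2 * (t * (a * s + t)) = 0 := by
          linear_combination hd2 + a ^ 4 * hdA
        exact (mul_eq_zero.mp h').resolve_left (mul_ne_zero h4 (pow_ne_zero 2 ha0))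
      by_contra htne
      have f1 : 2 * a * s + t = 0 := (mul_eq_zero.mp e1).resolve_left htne
      have f2 : a * s + t = 0 := (mul_eq_zero.mp e2).resolve_left htne
      apply htne
      linear_combination 2 * f2 - f1
    -- the kernel of `n₀` is a `G`-stable line
    obtain ⟨u, hu⟩ : ∃ u, n₀ u ≠ 0 := by
      by_contra hcon'
      exact hn₀ (LinearMap.ext fun x => by_contra fun hx => hcon' ⟨x, hx⟩)
    have hnn : n₀ (n₀ u) = 0 := by
      rw [← Module.End.mul_apply, hn₀sq, LinearMap.zero_apply]
    apply hirr
    refine ⟨LinearMap.ker n₀, ?_, ?_, ?_⟩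
    · intro hbot
      have : n₀ u ∈ LinearMap.ker n₀ := LinearMap.mem_ker.mpr hnn
      rw [hbot, Submodule.mem_bot] at this
      exact hu this
    · intro htop
      exact hn₀ (LinearMap.ker_eq_top.mp htop)
    · intro g _ x hx
      rw [LinearMap.mem_ker] at hx ⊢
      -- `n' = r g⁻¹ * n₀ * r g`
      have hh' : g⁻¹ * h₀ * g⁻¹⁻¹ ∈ N := hNn.conj_mem h₀ hh₀ g⁻¹
      set n' : Module.End F W := tl (r (g⁻¹ * h₀ * g⁻¹⁻¹)) with hn'def
      have hn' : n' = r g⁻¹ * n₀ * r g := by
        rw [hn'def, tl_map_conj, inv_inv]
      have hn'sq : n' * n' = 0 := tl_mul_tl_of_disc_eq_zero h2ne h2 (hall _ hh')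
      have hn'tr : tr n' = 0 := trace_tl h2ne h2 _
      have horth : tr (n' * n₀) = 0 := by
        rw [LinearMap.trace_mul_comm, hn'def, trace_mul_tl hn₀tr, LinearMap.trace_mul_comm]
        exact hkey _ hh'
      have hanti : n' * n₀ + n₀ * n' = 0 := by
        rw [mul_add_mul_eq_trace h2ne h2 n' n₀ hn'tr hn₀tr, horth, zero_smul]
      -- `n'` preserves `ker n₀ = F ∙ n₀ u` and is nilpotent, hence kills it
      have h1 : n₀ (n' (n₀ u)) = 0 := by
        have := congrArg (fun f : Module.End F W => f (n₀ u)) hanti
        simp only [LinearMap.add_apply, Module.End.mul_apply, LinearMap.zero_apply, hnn,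
          map_zero, zero_add] at this
        exact this
      obtain ⟨c, hc⟩ := (mem_ker_iff_of_sq_zero h2 hn₀sq hu _).mp h1
      have hc0 : c = 0 := by
        have h3 : n' (n' (n₀ u)) = 0 := by
          rw [← Module.End.mul_apply, hn'sq, LinearMap.zero_apply]
        rw [hc, map_smul, hc, smul_smul] at h3
        have := (smul_eq_zero.mp h3).resolve_right hu
        exact mul_self_eq_zero.mp this
      have h4' : n' (n₀ u) = 0 := by rw [hc, hc0, zero_smul]
      obtain ⟨b, hb⟩ := (mem_ker_iff_of_sq_zero h2 hn₀sq hu x).mp hx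
      have h5 : n' x = 0 := by rw [hb, map_smul, h4', smul_zero]
      rw [hn', Module.End.mul_apply, Module.End.mul_apply] at h5
      exact hinj g⁻¹ _ h5

end Fermat.Agent.TW.Cheb
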