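import Fermat.Agent.TW.Cheb.Deflate
import Fermat.Agent.Cheb.Cross.ChebExactMain
import Fermat.Agent.Cheb.FrobDict
import Fermat.Agent.Cheb.RankTwo

/-!
# Program G (S56), block TW, node (TW-4): the Chebotarev step

* `exists_frobenius_conj` : Chebotarev at the standard place: for a finite Galois `L'/ℚ`, `τ ∈ G_ℚ`
  and a finite set of primes to avoid there are a prime `q`, a Frobenius element `φ₀` at
  `primeLocalPlace q` and `g ∈ G_ℚ` with `φ₀ = g⁻¹ τ g` on `L'`;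
* `regular_of_frobenius` : if `ρbar` is unramified at `q` and one Frobenius element at `q` has
  `disc ≠ 0`, all Frobenius elements at `q` have distinct eigenvalues;
* `exists_tw_prime_core`, `exists_tw_prime` (a Taylor–Wiles prime at which a given non-trivial class
  does not vanish), `exists_tw_prime'` (a Taylor–Wiles prime).
-/

set_option autoImplicit false

open groupCohomology ExtCitation Polynomial
open scoped Pointwise
open Fermat.Agent.CFT Fermat.Agent.S55 Fermat.Agent.S54.FrobExists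

namespace Fermat.Agent.TW.Cheb

local notation "Qb" => AlgebraicClosure ℚ
local notation "GQ" => (AlgebraicClosure ℚ ≃ₐ[ℚ] AlgebraicClosure ℚ)

section Cheb

local instance instIsGaloisQbFS : IsGalois ℚ Qb := isGalois_rat_algebraicClosure

/-- **Chebotarev at the standard place.** -/
theorem exists_frobenius_conj (L' : IntermediateField ℚ Qb) (hfd : FiniteDimensional ℚ L')
    (hgal : IsGalois ℚ L') (τ : GQ) (avoid : Finset ℕ) :
    ∃ q : Nat.Primes, (q : ℕ) ∉ avoid ∧ ∃ φ₀ g : GQ,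
      (primeLocalPlace q).IsFrobeniusAt φ₀ (q : ℕ) ∧ ∀ x ∈ L', φ₀ x = (g⁻¹ * τ * g) x := by
  obtain ⟨q, hq, hqa, P, φ, hP, hφ, hτφ⟩ := Fermat.Agent.Cheb.chebExact L' hfd τ avoid
  have hA₀ := primeLocalPlace_liesOverPrime (ℓ := ⟨q, hq⟩)
  obtain ⟨g, rfl⟩ := Fermat.Agent.S13.exists_smul_valuationSubring_eq (primeLocalPlace ⟨q, hq⟩) P
    hq hA₀ hP
  refine ⟨⟨q, hq⟩, hqa, g⁻¹ * φ * g, g, ?_, fun x hx => ?_⟩
  · have h := Fermat.Agent.Cheb.isFrobeniusAt_conj hφ g⁻¹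
    have e : g⁻¹ • g • primeLocalPlace ⟨q, hq⟩ = primeLocalPlace ⟨q, hq⟩ := inv_smul_smul g _
    rwa [inv_inv, e] at h
  · have hgx : g x ∈ L' := apply_mem_of_isGalois L' hgal g hx
    simp only [AlgEquiv.mul_apply]
    rw [hτφ (g x) hgx]

variable {k : Type} [Field k] (ρbar : ResidualGaloisRep k)

/-- If `ρbar` is unramified at `q` and one Frobenius element at `q` is regular semisimple, all
Frobenius elements at `q` have distinct eigenvalues. -/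
theorem regular_of_frobenius
    (hsplit : ∀ σ : GQ, ∃ α β : k, LinearMap.charpoly (ρbar.ρ σ) = (X - C α) * (X - C β))
    (q : Nat.Primes) (hunr : ρbar.IsUnramifiedAt (q : ℕ)) {φ₀ : GQ}
    (hφ₀ : (primeLocalPlace q).IsFrobeniusAt φ₀ (q : ℕ)) (hdisc : disc (ρbar.ρ φ₀) ≠ 0)
    (P : ValuationSubring Qb) (hP : P.LiesOverPrime (q : ℕ)) (φ : GQ)
    (hφ : P.IsFrobeniusAt φ (q : ℕ)) :
    ∃ α β : k, α ≠ β ∧ LinearMap.charpoly (ρbar.ρ φ) = (X - C α) * (X - C β) := by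
  have hA₀ := primeLocalPlace_liesOverPrime (ℓ := q)
  obtain ⟨g, rfl⟩ := Fermat.Agent.S13.exists_smul_valuationSubring_eq (primeLocalPlace q) P
    q.2 hA₀ hP
  have hφ' : (primeLocalPlace q).IsFrobeniusAt (g⁻¹ * φ * g) (q : ℕ) := by
    have h := Fermat.Agent.Cheb.isFrobeniusAt_conj hφ g⁻¹
    have e : g⁻¹ • g • primeLocalPlace q = primeLocalPlace q := inv_smul_smul g _
    rwa [inv_inv, e] at h
  have hin := Fermat.Agent.Cheb.mul_inv_mem_inertiaSubgroupIn hφ' hφ₀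
  have h1 : ρbar.ρ (g⁻¹ * φ * g * φ₀⁻¹) = 1 := hunr _ hA₀ _ hin
  have h2 : ρbar.ρ (g⁻¹ * φ * g) = ρbar.ρ φ₀ := by
    have e : g⁻¹ * φ * g = (g⁻¹ * φ * g * φ₀⁻¹) * φ₀ := by group
    rw [e, map_mul, h1, one_mul]
  have h3 : disc (ρbar.ρ φ) ≠ 0 := by
    have e : φ = g * (g⁻¹ * φ * g) * g⁻¹ := by group
    rw [e, disc_map_conj, h2]
    exact hdisc
  obtain ⟨α, β, hαβ⟩ := hsplit φ
  refine ⟨α, β, ?_, hαβ⟩
  rintro rfl
  have hpoly : LinearMap.charpoly (ρbar.ρ φ) = X ^ 2 - C (α + α) * X + C (α * α) := by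
    rw [hαβ, C_add, C_mul]
    ring
  obtain ⟨ht, hd⟩ := Fermat.Agent.Cheb.trace_det_of_charpoly ρbar.finrank_eq _ hpoly
  apply h3
  rw [disc, ht, hd]
  ring

/-- A finite Galois level containing `F` on which `ρbar` and the membership in `cycloKer p n`
can be read off. -/
theorem exists_level_data (p : ℕ) [Fact p.Prime] (n : ℕ) (F : IntermediateField ℚ Qb)
    (hF : FiniteDimensional ℚ F) :
    ∃ L' : IntermediateField ℚ Qb, F ≤ L' ∧ FiniteDimensional ℚ L' ∧ IsGalois ℚ L' ∧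
      (∀ σ σ' : GQ, (∀ x ∈ L', σ x = σ' x) → ρbar.ρ σ = ρbar.ρ σ') ∧
      (∀ σ σ' : GQ, (∀ x ∈ L', σ x = σ' x) → (σ ∈ cycloKer p n ↔ σ' ∈ cycloKer p n)) := by
  obtain ⟨L₁, hL₁, h₁⟩ := exists_level_residual ρbar
  obtain ⟨L₂, hL₂, h₂⟩ := exists_level_cycloKer p n
  have hfd1 : FiniteDimensional ℚ (F ⊔ L₁ : IntermediateField ℚ Qb) :=
    IntermediateField.finiteDimensional_sup F L₁
  have hfd2 : FiniteDimensional ℚ (F ⊔ L₁ ⊔ L₂ : IntermediateField ℚ Qb) :=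
    IntermediateField.finiteDimensional_sup (F ⊔ L₁) L₂
  obtain ⟨L', hle, hfd, hgal⟩ := exists_galois_level (F ⊔ L₁ ⊔ L₂)
  refine ⟨L', (le_sup_left.trans le_sup_left).trans hle, hfd, hgal, fun σ σ' h => ?_,
    fun σ σ' h => ?_⟩
  · exact h₁ σ σ' fun x hx => h x (hle ((le_sup_right.trans le_sup_left : L₁ ≤ F ⊔ L₁ ⊔ L₂) hx))
  · exact h₂ σ σ' fun x hx => h x (hle ((le_sup_right : L₂ ≤ F ⊔ L₁ ⊔ L₂) hx))

/-- **The Chebotarev step, core form.** -/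
theorem exists_tw_prime_core (p : ℕ) [Fact p.Prime]
    (hsplit : ∀ σ : GQ, ∃ α β : k, LinearMap.charpoly (ρbar.ρ σ) = (X - C α) * (X - C β))
    (S : Finset ℕ) (hpS : p ∈ S)
    (hunr : ∀ q : ℕ, q.Prime → q ∉ S → ρbar.IsUnramifiedAt q)
    (n : ℕ) {τ : GQ} (hτ : τ ∈ cycloKer p n) (hdisc : disc (ρbar.ρ τ) ≠ 0)
    (L' : IntermediateField ℚ Qb) (hfd : FiniteDimensional ℚ L') (hgal : IsGalois ℚ L')
    (hρ : ∀ σ σ' : GQ, (∀ x ∈ L', σ x = σ' x) → ρbar.ρ σ = ρbar.ρ σ')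
    (hcyc : ∀ σ σ' : GQ, (∀ x ∈ L', σ x = σ' x) → (σ ∈ cycloKer p n ↔ σ' ∈ cycloKer p n))
    (avoid : Finset ℕ) :
    ∃ q : Nat.Primes, (q : ℕ) ∉ avoid ∧ (q : ℕ) ∉ S ∧ p ^ (n + 1) ∣ (q : ℕ) - 1 ∧
      (∀ P : ValuationSubring Qb, P.LiesOverPrime (q : ℕ) → ∀ φ : GQ,
        P.IsFrobeniusAt φ (q : ℕ) →
          ∃ α β : k, α ≠ β ∧ LinearMap.charpoly (ρbar.ρ φ) = (X - C α) * (X - C β)) ∧
      ∃ φ₀ g : GQ, (primeLocalPlace q).IsFrobeniusAt φ₀ (q : ℕ) ∧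
        ∀ x ∈ L', φ₀ x = (g⁻¹ * τ * g) x := by
  classical
  obtain ⟨q, hqa, φ₀, g, hφ₀, hφ₀τ⟩ := exists_frobenius_conj L' hfd hgal τ (avoid ∪ S)
  have hqa' : (q : ℕ) ∉ avoid := fun h => hqa (Finset.mem_union_left _ h)
  have hqS : (q : ℕ) ∉ S := fun h => hqa (Finset.mem_union_right _ h)
  have hqp : (q : ℕ) ≠ p := fun h => hqS (h ▸ hpS)
  have hA₀ := primeLocalPlace_liesOverPrime (ℓ := q)
  have hconj : g⁻¹ * τ * g ∈ cycloKer p n := by
    have := (inferInstance : (cycloKer p n).Normal).conj_mem τ hτ g⁻¹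
    rwa [inv_inv] at this
  have hmem : φ₀ ∈ cycloKer p n := (hcyc _ _ hφ₀τ).mpr hconj
  have hρ₀ : ρbar.ρ φ₀ = ρbar.ρ (g⁻¹ * τ * g) := hρ _ _ hφ₀τ
  have hdisc₀ : disc (ρbar.ρ φ₀) ≠ 0 := by
    have e : g⁻¹ * τ * g = g⁻¹ * τ * g⁻¹⁻¹ := by rw [inv_inv]
    rw [hρ₀, e, disc_map_conj]
    exact hdisc
  exact ⟨q, hqa', hqS, dvd_sub_one_of_frobenius_mem_cycloKer p n q.2 hqp _ hA₀ hφ₀ hmem,
    regular_of_frobenius ρbar hsplit q (hunr q q.2 hqS) hφ₀ hdisc₀, φ₀, g, hφ₀, hφ₀τ⟩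

variable {ρbar}

/-- `2 ≠ 0` in `k`. -/
theorem two_ne_zero_of_detIsCyclotomic (p : ℕ) [Fact p.Prime] (hp2 : p ≠ 2)
    (hdet : (GaloisRepAdic.ofResidualGaloisRep ρbar).DetIsCyclotomic p) : (2 : k) ≠ 0 := by
  have : CharP k p := charP_of_detIsCyclotomic ρbar p hdet
  intro h0
  have h1 : ((2 : ℕ) : k) = 0 := by exact_mod_cast h0
  rw [CharP.cast_eq_zero_iff k p] at h1
  exact hp2 ((Nat.prime_dvd_prime_iff_eq Fact.out Nat.prime_two).mp h1)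

/-- **Existence of Taylor–Wiles primes.** -/
theorem exists_tw_prime' (p : ℕ) [Fact p.Prime] (hp2 : p ≠ 2)
    (habs : ρbar.IsAbsolutelyIrreducible)
    (hdet : (GaloisRepAdic.ofResidualGaloisRep ρbar).DetIsCyclotomic p)
    (hsplit : ∀ σ : GQ, ∃ α β : k, LinearMap.charpoly (ρbar.ρ σ) = (X - C α) * (X - C β))
    (hTW : HTW ρbar) (S : Finset ℕ) (hpS : p ∈ S)
    (hunr : ∀ q : ℕ, q.Prime → q ∉ S → ρbar.IsUnramifiedAt q) (n : ℕ) (avoid : Finset ℕ) :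
    ∃ q : Nat.Primes, (q : ℕ) ∉ avoid ∧ (q : ℕ) ∉ S ∧ p ^ (n + 1) ∣ (q : ℕ) - 1 ∧
      (∀ P : ValuationSubring Qb, P.LiesOverPrime (q : ℕ) → ∀ φ : GQ,
        P.IsFrobeniusAt φ (q : ℕ) →
          ∃ α β : k, α ≠ β ∧ LinearMap.charpoly (ρbar.ρ φ) = (X - C α) * (X - C β)) := by
  have h2ne := two_ne_zero_of_detIsCyclotomic p hp2 hdet
  obtain ⟨τ, hτ, hdisc⟩ := exists_regular h2ne ρbar.finrank_eq ρbar.ρ
    (not_hasStableLine_of_habs ρbar habs) (noConjLine_of_hyp h2ne ρbar habs hTW)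
    (cycloKer p n) (commutator_mem_cycloKer p n)
  obtain ⟨L', -, hfd, hgal, hρ, hcyc⟩ := exists_level_data ρbar p n ⊥ inferInstance
  obtain ⟨q, h1, h2, h3, h4, -⟩ := exists_tw_prime_core ρbar p hsplit S hpS hunr n hτ hdisc L' hfd
    hgal hρ hcyc avoid
  exact ⟨q, h1, h2, h3, h4⟩

variable {R : Type} [CommRing R] {Mstar : Rep.{0} R GQ}

/-- **The Chebotarev step.** A class which is not a coboundary does not vanish at some
Taylor–Wiles prime outside any given finite set. -/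
theorem exists_tw_prime (p : ℕ) [Fact p.Prime] (hp2 : p ≠ 2)
    (habs : ρbar.IsAbsolutelyIrreducible)
    (hdet : (GaloisRepAdic.ofResidualGaloisRep ρbar).DetIsCyclotomic p)
    (hsplit : ∀ σ : GQ, ∃ α β : k, LinearMap.charpoly (ρbar.ρ σ) = (X - C α) * (X - C β))
    (hTW : HTW ρbar) (S : Finset ℕ) (hpS : p ∈ S)
    (hunr : ∀ q : ℕ, q.Prime → q ∉ S → ρbar.IsUnramifiedAt q)
    (E : AdjointModel ρbar Mstar) (T : Finset Nat.Primes) {c : GQ → Mstar}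
    (hc : c ∈ LC.Z₁ (globalLevel T) Mstar) (hnc : c ∉ coboundaries₁ Mstar) (n : ℕ)
    (avoid : Finset ℕ) :
    ∃ q : Nat.Primes, (q : ℕ) ∉ avoid ∧ (q : ℕ) ∉ S ∧ p ^ (n + 1) ∣ (q : ℕ) - 1 ∧
      (∀ P : ValuationSubring Qb, P.LiesOverPrime (q : ℕ) → ∀ φ : GQ,
        P.IsFrobeniusAt φ (q : ℕ) →
          ∃ α β : k, α ≠ β ∧ LinearMap.charpoly (ρbar.ρ φ) = (X - C α) * (X - C β)) ∧
      ¬ LocTriv Mstar q c := by
  obtain ⟨τ, hτ, hdisc, htr⟩ := exists_detecting_galois E p hp2 habs hdet hTW hc.1 hnc n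
  obtain ⟨N, ⟨F, -, hF, rfl⟩, hN⟩ := hc.2
  obtain ⟨L', hFL', hfd, hgal, hρ, hcyc⟩ := exists_level_data ρbar p n F hF.1
  have hcL : ∀ σ σ' : GQ, (∀ x ∈ L', σ x = σ' x) → c σ = c σ' := by
    intro σ σ' h
    have hs : σ⁻¹ * σ' ∈ F.fixingSubgroup := by
      rw [IntermediateField.mem_fixingSubgroup_iff]
      intro x hx
      rw [AlgEquiv.mul_apply, ← h x (hFL' hx)]
      exact σ.symm_apply_apply x
    have := hN σ _ hs
    rw [mul_inv_cancel_left] at this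
    exact this.symm
  obtain ⟨q, h1, h2, h3, h4, φ₀, g, hφ₀, hφ₀τ⟩ := exists_tw_prime_core ρbar p hsplit S hpS hunr n
    hτ hdisc L' hfd hgal hρ hcyc avoid
  refine ⟨q, h1, h2, h3, h4, ?_⟩
  rintro ⟨m, hm⟩
  apply htr
  -- the local element acting like `φ₀`
  obtain ⟨h, hh⟩ := exists_primeLocalToGlobal_eq_on q hφ₀.mem_decompositionSubgroup L'
  have hdc := E.isDetCocycle hc.1
  have hdetτ : LinearMap.det (ρbar.ρ τ) = 1 := det_eq_one_of_mem_cycloKer p ρbar hdet hτ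
  have hconj : g⁻¹ * τ * g ∈ cycloKer p n := by
    have := (inferInstance : (cycloKer p n).Normal).conj_mem τ hτ g⁻¹
    rwa [inv_inv] at this
  have hdetc : LinearMap.det (ρbar.ρ (g⁻¹ * τ * g)) = 1 :=
    det_eq_one_of_mem_cycloKer p ρbar hdet hconj
  have e1 : c (g⁻¹ * τ * g) = c (primeLocalToGlobal q h) :=
    (hcL _ _ fun x hx => (hh x hx).trans (hφ₀τ x hx)).symm
  have e2 : ρbar.ρ (primeLocalToGlobal q h) = ρbar.ρ (g⁻¹ * τ * g) :=
    hρ _ _ fun x hx => (hh x hx).trans (hφ₀τ x hx)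
  have e3 : c (g⁻¹ * τ * g) = Mstar.ρ (g⁻¹ * τ * g) m - m := by
    rw [e1, hm h, E.ρ_eq_of_ρ_eq e2]
  have h0 := E.trace_eq_zero_of_eq_coboundary hdetc e3
  have h5 := hdc.tau_conj hdetτ g⁻¹
  rw [inv_inv] at h5
  have h6 : tau ρbar.ρ (fun σ => E.e (c σ)) (g⁻¹ * τ * g) = 0 := h0
  rw [h6] at h5
  have hunit : LinearMap.det (ρbar.ρ g⁻¹) ≠ 0 := by
    intro h7
    have := det_map_mul_det_map_inv ρbar.ρ g
    rw [h7, mul_zero] at this
    exact zero_ne_one this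
  exact (mul_eq_zero.mp h5.symm).resolve_left hunit

end Cheb

end Fermat.Agent.TW.Cheb
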