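import Fermat.Agent.TW.Cheb.TauUnip5

/-!
# Program G (S56), block TW, node (TW-2): `tau = 0` on `ker det`

`r : G →* End W` irreducible on a plane over a field of odd characteristic `p`, with finite-order
values; `c` a det-cocycle vanishing on `ker r`; some `det (r t)` is not a nonzero square of the
prime field.  Then `tau r c g = 0` for every `g` with `det (r g) = 1`.
-/

set_option autoImplicit false

namespace Fermat.Agent.TW.Cheb

variable {F : Type*} [Field F] {W : Type*} [AddCommGroup W] [Module F W]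
variable {G : Type*} [Group G]

local notation "tr" => LinearMap.trace F W

/-- `x` is a nonzero square of the prime field. -/
def IsPrimeSq (p : ℕ) [Fact p.Prime] [CharP F p] (x : F) : Prop :=
  ∃ a : ZMod p, a ≠ 0 ∧ x = ZMod.castHom (dvd_refl p) F a ^ 2

section PrimeSq

variable (p : ℕ) [Fact p.Prime] [CharP F p]

theorem isPrimeSq_one : IsPrimeSq p (1 : F) := ⟨1, one_ne_zero, by rw [map_one, one_pow]⟩

theorem IsPrimeSq.mul {x y : F} (hx : IsPrimeSq p x) (hy : IsPrimeSq p y) :
    IsPrimeSq p (x * y) := by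
  obtain ⟨a, ha, rfl⟩ := hx
  obtain ⟨b, hb, rfl⟩ := hy
  exact ⟨a * b, mul_ne_zero ha hb, by rw [map_mul, mul_pow]⟩

theorem IsPrimeSq.inv {x : F} (hx : IsPrimeSq p x) : IsPrimeSq p x⁻¹ := by
  obtain ⟨a, ha, rfl⟩ := hx
  exact ⟨a⁻¹, inv_ne_zero ha, by rw [map_inv₀, inv_pow]⟩

theorem isPrimeSq_four (hp2 : p ≠ 2) : IsPrimeSq p (4 : F) := by
  refine ⟨2, ?_, ?_⟩
  · intro h0
    have h1 : ((2 : ℕ) : ZMod p) = 0 := by exact_mod_cast h0
    rw [ZMod.natCast_eq_zero_iff] at h1
    exact hp2 ((Nat.prime_dvd_prime_iff_eq Fact.out Nat.prime_two).mp h1)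
  · rw [map_ofNat]; norm_num

end PrimeSq

namespace IsDetCocycle

variable {r : G →* Module.End F W} {c : G → Module.End F W}

/-- `tau` vanishes at unipotent elements, characteristic `≥ 5`. -/
theorem tau_eq_zero_of_unipotent_of_five_le (p : ℕ) [Fact p.Prime] [CharP F p] (hp5 : 5 ≤ p)
    (h2 : Module.finrank F W = 2) (hc : IsDetCocycle r c) (hker : ∀ g, r g = 1 → c g = 0)
    (hfin : ∀ g : G, ∃ n : ℕ, 0 < n ∧ r g ^ n = 1) (hirr : ¬ HasStableLine r ⊤)
    (hnsq : ∃ t : G, ¬ IsPrimeSq p (LinearMap.det (r t)))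
    {g : G} (hg : LinearMap.det (r g) = 1) (ht : tr (r g) = 2) : tau r c g = 0 := by
  by_contra hτ
  have hp2 : p ≠ 2 := by omega
  have h2ne : (2 : F) ≠ 0 := by
    intro h0
    have h1 : ((2 : ℕ) : F) = 0 := by exact_mod_cast h0
    rw [CharP.cast_eq_zero_iff F p] at h1
    have := Nat.le_of_dvd (by norm_num) h1
    omega
  obtain ⟨N, hN⟩ : ∃ N : Module.End F W, N = r g - 1 := ⟨_, rfl⟩
  have hA : r g = 1 + N := by rw [hN]; abel
  have hNN : N * N = 0 := by rw [hN]; exact sub_one_mul_self_of_unipotent h2 hg ht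
  have hNtr : tr N = 0 := by rw [hN]; exact trace_sub_one_of_unipotent h2 ht
  have hN0 : N ≠ 0 := by
    intro h0
    apply hτ
    have : r g = 1 := by rw [hA, h0, add_zero]
    rw [tau, hker g this, zero_mul, map_zero]
  obtain ⟨u, hu⟩ : ∃ u, N u ≠ 0 := by
    by_contra hcon
    exact hN0 (LinearMap.ext fun x => by_contra fun hx => hcon ⟨x, hx⟩)
  obtain ⟨v, hv⟩ : ∃ v : W, v = N u := ⟨_, rfl⟩
  -- outside the line stabiliser, `det ∈ {-1, -4}`
  have key : ∀ h : G, ¬ InLine r N v h →
      LinearMap.det (r h) = -1 ∨ LinearMap.det (r h) = -4 := by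
    intro h hh
    apply hc.det_eq_neg_one_or_neg_four p hp5 h2 hker hfin hg ht hτ h
    intro hlam
    rw [← hN] at hlam
    exact hh (inLine_of_trace_eq_zero h2ne h2 hNN hNtr hu hv hlam)
  obtain ⟨h₀, hh₀⟩ := exists_not_inLine (v := v) h2 hNN hu hv hirr
  by_cases hm1 : IsPrimeSq p (-1 : F)
  · -- `-1` is a square of the prime field
    have hm4 : IsPrimeSq p (-4 : F) := by
      have := hm1.mul p (isPrimeSq_four p hp2)
      rwa [neg_one_mul] at this
    have hS : ∀ h : G, ¬ InLine r N v h → IsPrimeSq p (LinearMap.det (r h)) := by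
      intro h hh
      rcases key h hh with e | e
      · rw [e]; exact hm1
      · rw [e]; exact hm4
    obtain ⟨t, htns⟩ := hnsq
    have htL : InLine r N v t := by
      by_contra hcon
      exact htns (hS t hcon)
    have hth₀ : ¬ InLine r N v (t * h₀) := fun hcon =>
      hh₀ (inLine_of_mul h2 hNN hu hv htL hcon)
    have h1 := hS _ hth₀
    have h2' := hS _ hh₀
    apply htns
    have hne : LinearMap.det (r h₀) ≠ 0 := by
      obtain ⟨a, ha, e⟩ := h2'
      rw [e]
      refine pow_ne_zero 2 ?_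
      rw [Ne, map_eq_zero]
      exact ha
    have : LinearMap.det (r t) = LinearMap.det (r (t * h₀)) * (LinearMap.det (r h₀))⁻¹ := by
      rw [_root_.map_mul r, _root_.map_mul (LinearMap.det), mul_assoc, mul_inv_cancel₀ hne, mul_one]
    rw [this]
    exact h1.mul p (h2'.inv p)
  · -- `-1` is not a square of the prime field
    have hdetc : LinearMap.det (r (h₀⁻¹ * g * h₀)) = 1 := by
      have := det_map_mul_det_map_inv r h₀
      rw [_root_.map_mul r, _root_.map_mul r, _root_.map_mul (LinearMap.det),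
        _root_.map_mul (LinearMap.det), hg, mul_one, mul_comm]
      exact this
    have hL : InLine r N v (h₀⁻¹ * g * h₀) := by
      by_contra hcon
      rcases key _ hcon with e | e
      · rw [hdetc] at e
        apply hm1
        rw [← e]
        exact isPrimeSq_one p
      · rw [hdetc] at e
        apply hm1
        have h4 := (isPrimeSq_four (F := F) p hp2).inv p
        have h4ne : (4 : F) ≠ 0 := by
          obtain ⟨a, ha, e4⟩ := isPrimeSq_four (F := F) p hp2
          rw [e4]
          refine pow_ne_zero 2 ?_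
          rw [Ne, map_eq_zero]
          exact ha
        have : (-1 : F) = 4⁻¹ := by
          field_simp
          linear_combination -e
        rw [this]
        exact h4
    exact hh₀ (inLine_of_conj hNN hA hL h2 hu hv)

/-- **`tau = 0` on `ker det`.** -/
theorem tau_eq_zero (p : ℕ) [Fact p.Prime] [CharP F p] (hp2 : p ≠ 2)
    (h2 : Module.finrank F W = 2) (hc : IsDetCocycle r c) (hker : ∀ g, r g = 1 → c g = 0)
    (hfin : ∀ g : G, ∃ n : ℕ, 0 < n ∧ r g ^ n = 1) (hirr : ¬ HasStableLine r ⊤)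
    (hnsq : ∃ t : G, ¬ IsPrimeSq p (LinearMap.det (r t)))
    {g : G} (hg : LinearMap.det (r g) = 1) : tau r c g = 0 := by
  have h2ne : (2 : F) ≠ 0 := by
    intro h0
    have h1 : ((2 : ℕ) : F) = 0 := by exact_mod_cast h0
    rw [CharP.cast_eq_zero_iff F p] at h1
    exact hp2 ((Nat.prime_dvd_prime_iff_eq Fact.out Nat.prime_two).mp h1)
  have hU : ∀ g : G, LinearMap.det (r g) = 1 → tr (r g) = 2 → tau r c g = 0 := by
    intro g hg ht
    by_cases hp3 : p = 3
    · subst hp3
      exact hc.tau_eq_zero_of_unipotent_three h2ne h2 hker hg ht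
    · have hp5 : 5 ≤ p := Nat.Prime.five_le_of_ne_two_of_ne_three Fact.out hp2 hp3
      exact hc.tau_eq_zero_of_unipotent_of_five_le p hp5 h2 hker hfin hirr hnsq hg ht
  by_cases hd : disc (r g) = 0
  · rcases trace_eq_two_or_neg_two hg hd with ht | ht
    · exact hU g hg ht
    · exact hc.tau_eq_zero_of_trace_eq_neg_two h2ne h2 hU hg ht
  · exact hc.tau_eq_zero_of_disc_ne_zero p h2ne h2 hker hfin hg hd

end IsDetCocycle

end Fermat.Agent.TW.Cheb
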