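import Fermat.Agent.TW.Cheb.CycloKer
import Fermat.Agent.TW.Cheb.TauZero
import Fermat.Agent.S54.FrobExists

/-!
# Program G (S56), block TW: the determinant of `ρbar` takes a non-square value of `𝔽_p`

`hdet` (`det ρbar = ω`) and the existence of Frobenius elements at a prime `ℓ` which is not a
square modulo `p` give `t ∈ G_ℚ` with `det (ρbar t)` not a nonzero square of the prime field
(the hypothesis `hnsq` of `IsDetCocycle.exists_eq_coboundary`).
-/

set_option autoImplicit false

open Fermat.Agent.Pseudo.Cyclo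

namespace Fermat.Agent.TW.Cheb

local notation "Qb" => AlgebraicClosure ℚ
local notation "GQ" => (AlgebraicClosure ℚ ≃ₐ[ℚ] AlgebraicClosure ℚ)

variable (p : ℕ) [Fact p.Prime]

/-- A natural number which is not a square modulo `p` has a prime factor with the same property. -/
theorem exists_prime_not_isSquare (n : ℕ) (hn : ¬ IsSquare (n : ZMod p)) :
    ∃ ℓ : ℕ, ℓ.Prime ∧ ¬ IsSquare (ℓ : ZMod p) := by
  induction n using Nat.strong_induction_on with
  | _ n ih =>
    rcases Nat.lt_or_ge n 2 with h | h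
    · exfalso
      apply hn
      interval_cases n
      · exact ⟨0, by simp⟩
      · exact ⟨1, by simp⟩
    · have hn1 : n ≠ 1 := by omega
      by_cases hℓ : IsSquare ((n.minFac : ℕ) : ZMod p)
      · have hdvd := Nat.minFac_dvd n
        obtain ⟨m, hm⟩ := hdvd
        have hm0 : 0 < m := by
          rcases Nat.eq_zero_or_pos m with h0 | h0
          · rw [h0, mul_zero] at hm; omega
          · exact h0
        have hmlt : m < n := by
          have h2 := (Nat.minFac_prime hn1).two_le
          calc m < 2 * m := by omega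
            _ ≤ n.minFac * m := Nat.mul_le_mul_right m h2
            _ = n := hm.symm
        apply ih m hmlt
        intro hsq
        apply hn
        rw [hm, Nat.cast_mul]
        exact hℓ.mul hsq
      · exact ⟨n.minFac, Nat.minFac_prime hn1, hℓ⟩

/-- For odd `p` there is a prime which is not a square modulo `p`. -/
theorem exists_prime_nonresidue (hp2 : p ≠ 2) : ∃ ℓ : ℕ, ℓ.Prime ∧ ¬ IsSquare (ℓ : ZMod p) := by
  obtain ⟨a, ha⟩ := FiniteField.exists_nonsquare (F := ZMod p) (by rwa [ZMod.ringChar_zmod_n])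
  have : ((a.val : ℕ) : ZMod p) = a := ZMod.natCast_zmod_val a
  exact exists_prime_not_isSquare p a.val (by rwa [this])

section Det

variable {k : Type} [Field k] [CharP k p] (ρbar : ResidualGaloisRep k)

/-- **`hnsq` for `ρbar`.** -/
theorem exists_not_isPrimeSq_det (hp2 : p ≠ 2)
    (hdet : (GaloisRepAdic.ofResidualGaloisRep ρbar).DetIsCyclotomic p) :
    ∃ t : GQ, ¬ IsPrimeSq p (LinearMap.det (ρbar.ρ t)) := by
  obtain ⟨ℓ, hℓ, hns⟩ := exists_prime_nonresidue p hp2
  have hℓp : ¬ ℓ ∣ p := by
    intro h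
    have := (Nat.prime_dvd_prime_iff_eq hℓ Fact.out).mp h
    apply hns
    rw [this, ZMod.natCast_self]
    exact ⟨0, by simp⟩
  obtain ⟨A, hA, φ, hφ⟩ := Fermat.Agent.S54.FrobExists.exists_isFrobeniusAt ℓ hℓ
  refine ⟨φ, ?_⟩
  rintro ⟨a, -, ha⟩
  apply hns
  rw [det_eq_natCast_of_detIsCyclotomic p ρbar hdet φ, cycloN_frobenius p hℓ hℓp A hA hφ] at ha
  have h1 : (((ℓ : ZMod p).val : ℕ) : k) = ZMod.castHom (dvd_refl p) k (ℓ : ZMod p) := by
    rw [ZMod.castHom_apply, ZMod.natCast_val]
  rw [h1, ← map_pow] at ha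
  have := (ZMod.castHom (dvd_refl p) k).injective ha
  exact ⟨a, by rw [this, pow_two]⟩

end Det

end Fermat.Agent.TW.Cheb
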