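import Fermat.Agent.TW.Cheb.Detect
import Fermat.Agent.TW.Cheb.Bridge
import Fermat.Agent.TW.Cheb.NonSquare

/-!
# Program G (S56), block TW, node (TW-3), Galois form: a detecting element of
`Gal(ℚ̄ / ℚ(ζ_{p^{n+1}}))`

* `AdjointModel ρbar Mstar` : an additive identification of `Mstar : Rep R G_ℚ` (any coefficient
  ring `R`, e.g. `ZMod p` or `k`) with `ad⁰ ρbar ⊗ det ρbar`
  (`e : Mstar →+ End V`, injective, with image the traceless endomorphisms, and
  `e (σ m) = det (ρbar σ) • (ρbar σ * e m * ρbar σ⁻¹)`);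
* `exists_detecting_galois` : for a `1`-cocycle `c₀ : G_ℚ → Mstar` which is not a coboundary and
  every `n`, there is `τ ∈ cycloKer p n` with `disc (ρbar τ) ≠ 0` and
  `tr (e (c₀ τ) * ρbar τ) ≠ 0`;
* `trace_ne_zero_obstruction` : such a `τ` obstructs `c₀` being a coboundary on any subgroup
  containing an element acting like `τ`.
-/

set_option autoImplicit false

open groupCohomology

namespace Fermat.Agent.TW.Cheb

local notation "Qb" => AlgebraicClosure ℚ
local notation "GQ" => (AlgebraicClosure ℚ ≃ₐ[ℚ] AlgebraicClosure ℚ)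

variable {k : Type} [Field k] (ρbar : ResidualGaloisRep k)

local notation "tr" => LinearMap.trace k ρbar.V

/-- The values of `ρbar` have finite order. -/
theorem exists_pow_eq_one_residual (σ : GQ) : ∃ n : ℕ, 0 < n ∧ ρbar.ρ σ ^ n = 1 := by
  obtain ⟨L, hL, h1⟩ := ρbar.factorsThroughFiniteLevel
  have := hL
  have hfi : L.fixingSubgroup.FiniteIndex := Fermat.Agent.S55.finiteIndex_fixingSubgroup L
  obtain ⟨n, hn0, -, hn⟩ := Subgroup.exists_pow_mem_of_index_ne_zero hfi.index_ne_zero σ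
  refine ⟨n, hn0, ?_⟩
  rw [← map_pow]
  exact h1 _ fun x hx => (IntermediateField.mem_fixingSubgroup_iff L _).mp hn x hx

/-- `hdet` makes `k` a field of characteristic `p`. -/
theorem charP_of_detIsCyclotomic (p : ℕ) [Fact p.Prime]
    (hdet : (GaloisRepAdic.ofResidualGaloisRep ρbar).DetIsCyclotomic p) : CharP k p := by
  have hp0 := natCast_eq_zero_of_detIsCyclotomic p ρbar hdet
  have hdvd : ringChar k ∣ p := (CharP.cast_eq_zero_iff k (ringChar k) p).mp hp0
  rcases (Nat.dvd_prime Fact.out).mp hdvd with h | h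
  · exfalso
    have : CharP k 1 := h ▸ ringChar.charP k
    exact CharP.char_ne_one k 1 rfl
  · exact h ▸ ringChar.charP k

/-- An additive identification of `Mstar` with `ad⁰ ρbar ⊗ det ρbar`. -/
structure AdjointModel {R : Type} [CommRing R] (Mstar : Rep.{0} R GQ) where
  /-- the comparison map -/
  e : Mstar →+ Module.End k ρbar.V
  inj : Function.Injective e
  trace_eq : ∀ m, tr (e m) = 0
  surj : ∀ w : Module.End k ρbar.V, tr w = 0 → ∃ m, e m = w
  equiv : ∀ (σ : GQ) (m : Mstar),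
    e (Mstar.ρ σ m) = LinearMap.det (ρbar.ρ σ) • (ρbar.ρ σ * e m * ρbar.ρ σ⁻¹)

variable {ρbar} {R : Type} [CommRing R] {Mstar : Rep.{0} R GQ} (E : AdjointModel ρbar Mstar)

/-- The det-cocycle attached to a `1`-cocycle with values in `Mstar`. -/
theorem AdjointModel.isDetCocycle {c₀ : GQ → Mstar} (hc₀ : c₀ ∈ cocycles₁ Mstar) :
    IsDetCocycle ρbar.ρ (fun σ => E.e (c₀ σ)) where
  trace_eq σ := E.trace_eq _
  map_mul g h := by
    show E.e (c₀ (g * h)) = E.e (c₀ g) + _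
    rw [(mem_cocycles₁_iff c₀).mp hc₀ g h, map_add, E.equiv, add_comm]

/-- If the attached det-cocycle is a coboundary, so is `c₀`. -/
theorem AdjointModel.mem_coboundaries₁ {c₀ : GQ → Mstar} {m : Module.End k ρbar.V}
    (hm : tr m = 0) (h : ∀ σ, E.e (c₀ σ)
      = LinearMap.det (ρbar.ρ σ) • (ρbar.ρ σ * m * ρbar.ρ σ⁻¹) - m) :
    c₀ ∈ coboundaries₁ Mstar := by
  obtain ⟨m', rfl⟩ := E.surj m hm
  refine ⟨m', ?_⟩
  funext σ
  apply E.inj
  rw [d₀₁_hom_apply, map_sub, E.equiv, h σ]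

/-- **A detecting element of `Gal(ℚ̄ / ℚ(ζ_{p^{n+1}}))`.** -/
theorem exists_detecting_galois (p : ℕ) [Fact p.Prime] (hp2 : p ≠ 2)
    (habs : ρbar.IsAbsolutelyIrreducible)
    (hdet : (GaloisRepAdic.ofResidualGaloisRep ρbar).DetIsCyclotomic p) (hTW : HTW ρbar)
    {c₀ : GQ → Mstar} (hc₀ : c₀ ∈ cocycles₁ Mstar) (hnc : c₀ ∉ coboundaries₁ Mstar) (n : ℕ) :
    ∃ τ ∈ cycloKer p n, disc (ρbar.ρ τ) ≠ 0 ∧ tr (E.e (c₀ τ) * ρbar.ρ τ) ≠ 0 := by
  have : CharP k p := charP_of_detIsCyclotomic ρbar p hdet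
  have h2ne : (2 : k) ≠ 0 := by
    intro h0
    have h1 : ((2 : ℕ) : k) = 0 := by exact_mod_cast h0
    rw [CharP.cast_eq_zero_iff k p] at h1
    exact hp2 ((Nat.prime_dvd_prime_iff_eq Fact.out Nat.prime_two).mp h1)
  have hc := E.isDetCocycle hc₀
  exact hc.exists_detecting p hp2 ρbar.finrank_eq (exists_pow_eq_one_residual ρbar)
    (not_hasStableLine_of_habs ρbar habs) (noConjLine_of_hyp h2ne ρbar habs hTW)
    (exists_not_isPrimeSq_det p ρbar hp2 hdet) (cycloKer p n) (commutator_mem_cycloKer p n)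
    (fun ⟨m, hm, h⟩ => hnc (E.mem_coboundaries₁ hm h))

/-- A detecting element obstructs triviality: if `c₀ τ' = τ' • m - m` for some `τ'` acting on
`Mstar` and through `ρbar` like `τ`, with `c₀ τ' = c₀ τ`, `det (ρbar τ) = 1`, then
`tr (e (c₀ τ) * ρbar τ) = 0`. -/
theorem AdjointModel.trace_eq_zero_of_eq_coboundary {c₀ : GQ → Mstar} {τ : GQ}
    (hdetτ : LinearMap.det (ρbar.ρ τ) = 1) {m : Mstar} (h : c₀ τ = Mstar.ρ τ m - m) :
    tr (E.e (c₀ τ) * ρbar.ρ τ) = 0 := by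
  have hi : ρbar.ρ τ⁻¹ * ρbar.ρ τ = 1 := map_inv_mul_map' ρbar.ρ τ
  rw [h, map_sub, E.equiv, hdetτ, one_smul, sub_mul, map_sub, mul_assoc, hi, mul_one,
    LinearMap.trace_mul_comm, sub_self]

end Fermat.Agent.TW.Cheb
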