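import Fermat.Agent.TW.Cheb.CobK

/-!
# Program G (S56), block TW, node (TW-2): `H¹(r(G), ad⁰ ⊗ det) = 0`

`r : G →* End W` irreducible on a plane over a field of odd characteristic `p`, `NoConjLine r`,
finite-order values, `det ∘ r` takes a value which is not a nonzero square of the prime field.
Then every det-cocycle vanishing on `ker r` is a coboundary
(`IsDetCocycle.exists_eq_coboundary`).  No Sylow theory, no Dickson classification: the tangent
pseudo-character `tau` vanishes on `ker det` (`TauZero`), hence the cocycle is a coboundary on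
`ker det` (`CobK`), and `G / ker det` has order prime to `p` with `(ad⁰)^{ker det} = 0`.
-/

set_option autoImplicit false

namespace Fermat.Agent.TW.Cheb

variable {F : Type*} [Field F] {W : Type*} [AddCommGroup W] [Module F W]
variable {G : Type*} [Group G]

local notation "tr" => LinearMap.trace F W

/-- The determinant character as a monoid hom. -/
noncomputable def detHom (r : G →* Module.End F W) : G →* F := (LinearMap.det).comp r

theorem detHom_apply (r : G →* Module.End F W) (g : G) : detHom r g = LinearMap.det (r g) := rfl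

/-- `ker (det ∘ r)`. -/
noncomputable def detKer (r : G →* Module.End F W) : Subgroup G := (detHom r).ker

theorem mem_detKer (r : G →* Module.End F W) (g : G) :
    g ∈ detKer r ↔ LinearMap.det (r g) = 1 := MonoidHom.mem_ker

instance (r : G →* Module.End F W) : (detKer r).Normal := MonoidHom.normal_ker _

theorem commutator_mem_detKer (r : G →* Module.End F W) (g g' : G) :
    g * g' * g⁻¹ * g'⁻¹ ∈ detKer r := by
  rw [mem_detKer, ← detHom_apply, map_mul, map_mul, map_mul, mul_right_comm (detHom r g),
    ← map_mul, mul_inv_cancel, map_one, one_mul, ← map_mul, mul_inv_cancel, map_one]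

/-- The coboundary of a traceless `m` is a det-cocycle. -/
theorem isDetCocycle_coboundary (r : G →* Module.End F W) {m : Module.End F W} (hm : tr m = 0) :
    IsDetCocycle r (fun g => LinearMap.det (r g) • (r g * m * r g⁻¹) - m) where
  trace_eq g := by
    show tr (LinearMap.det (r g) • (r g * m * r g⁻¹) - m) = 0
    rw [map_sub, map_smul, trace_conj, hm, smul_zero, sub_zero]
  map_mul g h := by
    show LinearMap.det (r (g * h)) • (r (g * h) * m * r (g * h)⁻¹) - m
      = LinearMap.det (r g) • (r g * m * r g⁻¹) - m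
        + LinearMap.det (r g) • (r g * (LinearMap.det (r h) • (r h * m * r h⁻¹) - m) * r g⁻¹)
    rw [_root_.mul_inv_rev, map_mul, map_mul, map_mul, mul_sub, sub_mul, smul_sub, mul_smul_comm,
      smul_mul_assoc, smul_smul]
    have : r g * r h * m * (r h⁻¹ * r g⁻¹) = r g * (r h * m * r h⁻¹) * r g⁻¹ := by
      simp only [mul_assoc]
    rw [this]
    abel

theorem IsDetCocycle.sub {r : G →* Module.End F W} {c c' : G → Module.End F W}
    (hc : IsDetCocycle r c) (hc' : IsDetCocycle r c') : IsDetCocycle r (fun g => c g - c' g) where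
  trace_eq g := by
    show tr (c g - c' g) = 0
    rw [map_sub, hc.trace_eq, hc'.trace_eq, sub_zero]
  map_mul g h := by
    show c (g * h) - c' (g * h) = c g - c' g
      + LinearMap.det (r g) • (r g * (c h - c' h) * r g⁻¹)
    rw [hc.map_mul, hc'.map_mul, mul_sub, sub_mul, smul_sub]
    abel

namespace IsDetCocycle

variable {r : G →* Module.End F W} {c : G → Module.End F W}

/-- **(TW-2), abstract form: `H¹(G, ad⁰ ⊗ det) = 0`** for cocycles vanishing on `ker r`. -/
theorem exists_eq_coboundary (p : ℕ) [Fact p.Prime] [CharP F p] (hp2 : p ≠ 2)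
    (h2 : Module.finrank F W = 2) (hc : IsDetCocycle r c) (hker : ∀ g, r g = 1 → c g = 0)
    (hfin : ∀ g : G, ∃ n : ℕ, 0 < n ∧ r g ^ n = 1) (hirr : ¬ HasStableLine r ⊤)
    (hN : NoConjLine r) (hnsq : ∃ t : G, ¬ IsPrimeSq p (LinearMap.det (r t))) :
    ∃ m : Module.End F W, tr m = 0 ∧
      ∀ g, c g = LinearMap.det (r g) • (r g * m * r g⁻¹) - m := by
  have hfinW : Module.Finite F W := Module.finite_of_finrank_eq_succ h2
  have h2ne : (2 : F) ≠ 0 := by
    intro h0
    have h1 : ((2 : ℕ) : F) = 0 := by exact_mod_cast h0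
    rw [CharP.cast_eq_zero_iff F p] at h1
    exact hp2 ((Nat.prime_dvd_prime_iff_eq Fact.out Nat.prime_two).mp h1)
  have hKdet : ∀ g ∈ detKer r, LinearMap.det (r g) = 1 := fun g hg => (mem_detKer r g).mp hg
  -- Burnside for `K = ker det`
  have hreg := exists_regular h2ne h2 r hirr hN (detKer r) (commutator_mem_detKer r)
  have hsep : ∀ X : Module.End F W, (∀ g ∈ detKer r, tr (X * r g) = 0) → X = 0 := by
    intro X hX
    have hXtr : tr X = 0 := by
      have := hX 1 (one_mem _)
      rwa [_root_.map_one, mul_one] at this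
    by_contra hX0
    obtain ⟨h, hh, -, hne⟩ := exists_regular_trace_ne_zero h2ne h2 r hN (detKer r) hreg X hXtr hX0
    exact hne (hX h hh)
  have hτ : ∀ g ∈ detKer r, tau r c g = 0 := fun g hg =>
    hc.tau_eq_zero p hp2 h2 hker hfin hirr hnsq (hKdet g hg)
  obtain ⟨m₀, hm₀⟩ := hc.exists_coboundary_on h2 (detKer r) hKdet hsep hτ
  -- traceless version, with the sign of a coboundary
  obtain ⟨m, hm⟩ : ∃ m : Module.End F W, m = -(tl m₀) := ⟨_, rfl⟩
  have hmtr : tr m = 0 := by rw [hm, map_neg, trace_tl h2ne h2, neg_zero]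
  have hmK : ∀ g ∈ detKer r, c g = LinearMap.det (r g) • (r g * m * r g⁻¹) - m := by
    intro g hg
    have hgi : r g * r g⁻¹ = 1 := map_mul_map_inv' r g
    rw [hm₀ g hg, hKdet g hg, one_smul, hm, tl]
    simp only [mul_neg, neg_mul, mul_sub, sub_mul, mul_smul_comm, smul_mul_assoc, mul_one, hgi]
    abel
  -- the difference `c'` vanishes on `K`
  have hcob := isDetCocycle_coboundary r hmtr
  have hc' := hc.sub hcob
  set c' : G → Module.End F W :=
    fun g => c g - (LinearMap.det (r g) • (r g * m * r g⁻¹) - m) with hc'def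
  have hc'K : ∀ k ∈ detKer r, c' k = 0 := fun k hk => by
    rw [hc'def]
    exact sub_eq_zero.mpr (hmK k hk)
  -- `c' g` commutes with `r k`, `k ∈ K`
  have hcomm : ∀ g : G, ∀ k ∈ detKer r, r k * c' g = c' g * r k := by
    intro g k hk
    have hki : r k⁻¹ * r k = 1 := map_inv_mul_map' r k
    have h1 : c' (k * g) = r k * c' g * r k⁻¹ := by
      rw [hc'.map_mul_of_det (hKdet k hk), hc'K k hk, zero_add]
    have hk' : g⁻¹ * k * g ∈ detKer r := by
      have := (inferInstance : (detKer r).Normal).conj_mem k hk g⁻¹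
      rwa [inv_inv] at this
    have h2' : c' (k * g) = c' g := by
      have : k * g = g * (g⁻¹ * k * g) := by group
      rw [this, hc'.map_mul, hc'K _ hk', mul_zero, zero_mul, smul_zero, add_zero]
    rw [h2'] at h1
    calc r k * c' g = r k * c' g * (r k⁻¹ * r k) := by rw [hki, mul_one]
      _ = (r k * c' g * r k⁻¹) * r k := by simp only [mul_assoc]
      _ = c' g * r k := by rw [← h1]
  -- hence `c' g` is central, traceless, so zero
  have hc'0 : ∀ g, c' g = 0 := by
    intro g
    by_contra hne
    have htr : tr (c' g) = 0 := hc'.trace_eq g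
    have hspan : Submodule.span F (Set.range fun k : detKer r => r (k : G)) = ⊤ := by
      apply span_eq_top_of_trace_nondeg
      intro X hX
      apply hsep
      intro k hk
      exact hX _ ⟨⟨k, hk⟩, rfl⟩
    have hcen : ∀ Y : Module.End F W, Y * c' g = c' g * Y := by
      intro Y
      have hY : Y ∈ Submodule.span F (Set.range fun k : detKer r => r (k : G)) := by
        rw [hspan]; trivial
      induction hY using Submodule.span_induction with
      | mem y hy =>
        obtain ⟨k, rfl⟩ := hy
        exact hcomm g k k.2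
      | zero => rw [zero_mul, mul_zero]
      | add y z _ _ hy hz => rw [add_mul, mul_add, hy, hz]
      | smul a y _ hy => rw [smul_mul_assoc, mul_smul_comm, hy]
    obtain ⟨v, hv⟩ := exists_not_eigenvector h2ne h2 htr hne
    have hv0 : v ≠ 0 := by
      intro h0
      have := (hv 1 0 (by rw [h0, smul_zero, zero_smul, add_zero])).1
      exact one_ne_zero this
    obtain ⟨φ, hφ⟩ : ∃ φ : Module.Dual F W, φ v = 1 := by
      obtain ⟨φ, hφ⟩ : ∃ φ : Module.Dual F W, φ v ≠ 0 := by
        by_contra hcon
        exact hv0 ((Module.forall_dual_apply_eq_zero_iff F v).mp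
          fun φ => by_contra fun hφ => hcon ⟨φ, hφ⟩)
      exact ⟨(φ v)⁻¹ • φ, by rw [LinearMap.smul_apply, smul_eq_mul, inv_mul_cancel₀ hφ]⟩
    have h3 := LinearMap.congr_fun (hcen (rankOne φ v)) v
    rw [Module.End.mul_apply, Module.End.mul_apply, rankOne_apply, rankOne_apply, hφ, one_smul]
      at h3
    obtain ⟨a, ha⟩ : ∃ a : F, a = φ (c' g v) := ⟨_, rfl⟩
    rw [← ha] at h3
    have := (hv (-a) 1 (by rw [one_smul, ← h3, neg_smul, neg_add_cancel])).2
    exact one_ne_zero this
  refine ⟨m, hmtr, fun g => ?_⟩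
  have := hc'0 g
  rw [hc'def] at this
  exact sub_eq_zero.mp this

end IsDetCocycle

end Fermat.Agent.TW.Cheb
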