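import Fermat.Agent.TW.Cheb.GalDetect
import Fermat.Agent.S55.LCBridgeCompat
import Fermat.Agent.S55.LocalImage
import Fermat.Agent.S13.InertiaConj

/-!
# Program G (S56), block TW: finite levels

* `exists_isGalois_fixingSubgroup_eq` : a normal subgroup of `G_ℚ` containing `Gal(ℚ̄/F₁)`, `F₁/ℚ`
  finite, is `Gal(ℚ̄/E)` for a finite Galois `E/ℚ`;
* `exists_galois_level` : any finite extension lies in a finite Galois one;
* `ResidualGaloisRep` : `ρbar` is constant on the cosets of a finite level;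
* `AdjointModel.ρ_eq_of_ρ_eq`, `AdjointModel.ρ_eq_one` : the action on `Mstar` is determined by
  `ρbar`;
* `AdjointModel.isSmooth` : `Mstar` is smooth for `globalLevel T` as soon as `ρbar` is unramified
  outside `T`.
-/

set_option autoImplicit false

open groupCohomology ExtCitation
open Fermat.Agent.CFT Fermat.Agent.S55 Fermat.Agent.S54.FrobExists

namespace Fermat.Agent.TW.Cheb

local notation "Qb" => AlgebraicClosure ℚ
local notation "GQ" => (AlgebraicClosure ℚ ≃ₐ[ℚ] AlgebraicClosure ℚ)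

section KerField

local instance instIsAlgClosureQbTW : IsAlgClosure ℚ Qb := AlgebraicClosure.instIsAlgClosure ℚ
local instance instIsGaloisQbTW : IsGalois ℚ Qb := isGalois_rat_algebraicClosure
local instance instNormalQbTW : Normal ℚ Qb := IsAlgClosure.normal ℚ Qb

/-- **Kernel field.** A normal subgroup of `G_ℚ` containing `Gal(ℚ̄/F₁)` for a finite `F₁/ℚ` is
`Gal(ℚ̄/E)` for a finite Galois `E/ℚ`. -/
theorem exists_isGalois_fixingSubgroup_eq (H : Subgroup GQ) [hH : H.Normal]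
    (F₁ : IntermediateField ℚ Qb) [hF₁ : FiniteDimensional ℚ F₁] (hle : F₁.fixingSubgroup ≤ H) :
    ∃ E : IntermediateField ℚ Qb, FiniteDimensional ℚ E ∧ IsGalois ℚ E ∧ E.fixingSubgroup = H := by
  have hopen : IsOpen (H : Set GQ) :=
    Subgroup.isOpen_mono hle ((InfiniteGalois.isOpen_iff_finite F₁).2 hF₁)
  let Hc : ClosedSubgroup GQ := ⟨H, Subgroup.isClosed_of_isOpen H hopen⟩
  let E : IntermediateField ℚ Qb := IntermediateField.fixedField H
  have hfix : E.fixingSubgroup = H := InfiniteGalois.fixingSubgroup_fixedField Hc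
  have hfd : FiniteDimensional ℚ E := by
    rw [← InfiniteGalois.isOpen_iff_finite, hfix]
    exact hopen
  have hgal : IsGalois ℚ E := by
    have h' : @IsGalois ℚ _ E _ E.algebra' := by
      rw [← InfiniteGalois.normal_iff_isGalois, hfix]
      exact hH
    exact isGalois_of_normal E h'.to_normal
  exact ⟨E, hfd, hgal, hfix⟩

/-- Any finite extension of `ℚ` in `ℚ̄` lies in a finite Galois extension. -/
theorem exists_galois_level (F : IntermediateField ℚ Qb) [FiniteDimensional ℚ F] :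
    ∃ E : IntermediateField ℚ Qb, F ≤ E ∧ FiniteDimensional ℚ E ∧ IsGalois ℚ E :=
  ⟨IntermediateField.normalClosure ℚ F Qb, IntermediateField.le_normalClosure _, inferInstance,
    isGalois_of_normal _ inferInstance⟩

/-- A finite Galois subextension is stable under `G_ℚ`. -/
theorem apply_mem_of_isGalois (E : IntermediateField ℚ Qb) (hE : IsGalois ℚ E) (g : GQ) {x : Qb}
    (hx : x ∈ E) : g x ∈ E := by
  have e : (DivisionRing.toRatAlgebra : Algebra ℚ ↥E) = E.algebra' := Subsingleton.elim _ _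
  have hn : @Normal ℚ E _ _ E.algebra' := by
    rw [← e]
    exact hE.to_normal
  have h := AlgEquiv.restrictNormal_commutes g E ⟨x, hx⟩
  have h' : g x = ((AlgEquiv.restrictNormal g E ⟨x, hx⟩ : E) : Qb) := h.symm
  rw [h']
  exact SetLike.coe_mem _

end KerField

section Residual

variable {k : Type} [Field k] (ρbar : ResidualGaloisRep k)

/-- `ρbar` is constant on the cosets of a finite level. -/
theorem exists_level_residual : ∃ L : IntermediateField ℚ Qb, FiniteDimensional ℚ L ∧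
    ∀ σ τ : GQ, (∀ x ∈ L, σ x = τ x) → ρbar.ρ σ = ρbar.ρ τ := by
  obtain ⟨L, hL, h1⟩ := ρbar.factorsThroughFiniteLevel
  refine ⟨L, hL, fun σ τ h => ?_⟩
  have h2 : ρbar.ρ (τ⁻¹ * σ) = 1 := h1 _ fun x hx => by
    rw [AlgEquiv.mul_apply, h x hx]
    exact τ.symm_apply_apply x
  have h3 : ρbar.ρ σ = ρbar.ρ (τ * (τ⁻¹ * σ)) := by rw [mul_inv_cancel_left]
  rw [h3, map_mul, h2, mul_one]

/-- The kernel field of `ρbar`: a finite Galois extension `E/ℚ` with `Gal(ℚ̄/E) = ker ρbar`. -/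
theorem exists_kerField_residual : ∃ E : IntermediateField ℚ Qb, FiniteDimensional ℚ E ∧
    IsGalois ℚ E ∧ E.fixingSubgroup = ρbar.ρ.ker := by
  obtain ⟨L, hL, h1⟩ := ρbar.factorsThroughFiniteLevel
  have := hL
  exact exists_isGalois_fixingSubgroup_eq ρbar.ρ.ker L fun σ hσ =>
    MonoidHom.mem_ker.mpr (h1 σ fun x hx => (IntermediateField.mem_fixingSubgroup_iff L σ).mp hσ x hx)

variable {ρbar} {R : Type} [CommRing R] {Mstar : Rep.{0} R GQ}

/-- The action on `Mstar` is determined by `ρbar`. -/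
theorem AdjointModel.ρ_eq_of_ρ_eq (E : AdjointModel ρbar Mstar) {σ τ : GQ} (h : ρbar.ρ σ = ρbar.ρ τ) : Mstar.ρ σ = Mstar.ρ τ := by
  have hi : ρbar.ρ σ⁻¹ = ρbar.ρ τ⁻¹ := by
    have h1 : ρbar.ρ σ⁻¹ * ρbar.ρ σ = 1 := map_inv_mul_map' ρbar.ρ σ
    have h2 : ρbar.ρ τ * ρbar.ρ τ⁻¹ = 1 := map_mul_map_inv' ρbar.ρ τ
    calc ρbar.ρ σ⁻¹ = ρbar.ρ σ⁻¹ * (ρbar.ρ τ * ρbar.ρ τ⁻¹) := by rw [h2, mul_one]
      _ = (ρbar.ρ σ⁻¹ * ρbar.ρ σ) * ρbar.ρ τ⁻¹ := by rw [h, mul_assoc]
      _ = ρbar.ρ τ⁻¹ := by rw [h1, one_mul]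
  ext m
  apply E.inj
  rw [E.equiv, E.equiv, h, hi]

/-- `ker ρbar` acts trivially on `Mstar`. -/
theorem AdjointModel.ρ_eq_one (E : AdjointModel ρbar Mstar) {σ : GQ} (h : ρbar.ρ σ = 1) : Mstar.ρ σ = 1 := by
  rw [E.ρ_eq_of_ρ_eq (τ := 1) (by rw [h, map_one]), map_one]

/-- `Mstar` is smooth for `globalLevel T` as soon as `ρbar` is unramified outside `T`. -/
theorem AdjointModel.isSmooth (E : AdjointModel ρbar Mstar) (T : Finset Nat.Primes)
    (hunr : ∀ q : Nat.Primes, q ∉ T → ρbar.IsUnramifiedAt (q : ℕ)) :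
    IsSmooth (globalLevel T) Mstar := by
  obtain ⟨F, hfd, hgal, hfix⟩ := exists_kerField_residual ρbar
  intro a
  refine ⟨F.fixingSubgroup, ⟨F, hgal, ⟨hfd, fun q hq A hA σ hσ => ?_⟩, rfl⟩, fun g hg => ?_⟩
  · rw [hfix]
    exact MonoidHom.mem_ker.mpr (hunr q hq A hA σ hσ)
  · rw [hfix] at hg
    rw [E.ρ_eq_one (MonoidHom.mem_ker.mp hg), Module.End.one_apply]

/-- A finite level for `Mstar` (`k` finite). -/
theorem AdjointModel.finite (E : AdjointModel ρbar Mstar) [Finite k] : Finite Mstar :=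
  have : Finite (Module.End k ρbar.V) := Module.finite_of_finite k
  Finite.of_injective E.e E.inj

end Residual

end Fermat.Agent.TW.Cheb
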