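import Fermat.Agent.TW.Cheb.Traceless

/-!
# Program G (S56), block TW, group theory: discriminant and traceless part

For an endomorphism `A` of a plane: `disc A = (tr A)² - 4 det A`, `tl A = A - (tr A / 2) • 1`
(the traceless part).  `tl A * tl A = (disc A / 4) • 1`; both are compatible with conjugation.
-/

set_option autoImplicit false

namespace Fermat.Agent.TW.Cheb

variable {F : Type*} [Field F] {W : Type*} [AddCommGroup W] [Module F W]

local notation "tr" => LinearMap.trace F W

/-- The discriminant of the characteristic polynomial. -/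
noncomputable def disc (A : Module.End F W) : F := (tr A) ^ 2 - 4 * LinearMap.det A

/-- The traceless part. -/
noncomputable def tl (A : Module.End F W) : Module.End F W := A - (tr A / 2) • (1 : Module.End F W)

theorem trace_one_eq_two (h2 : Module.finrank F W = 2) : tr (1 : Module.End F W) = 2 := by
  have hfin : Module.Finite F W := Module.finite_of_finrank_eq_succ h2
  rw [LinearMap.trace_one, h2]; norm_num

theorem trace_tl (h2ne : (2 : F) ≠ 0) (h2 : Module.finrank F W = 2) (A : Module.End F W) :
    tr (tl A) = 0 := by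
  rw [tl, map_sub, map_smul, trace_one_eq_two h2, smul_eq_mul, div_mul_cancel₀ _ h2ne, sub_self]

theorem tl_mul_tl (h2ne : (2 : F) ≠ 0) (h2 : Module.finrank F W = 2) (A : Module.End F W) :
    tl A * tl A = (disc A / 4) • (1 : Module.End F W) := by
  have hCH := end_sq_of_finrank_two h2 A
  have h4 : (4 : F) ≠ 0 := by
    have : (4 : F) = 2 * 2 := by norm_num
    rw [this]; exact mul_ne_zero h2ne h2ne
  set s : F := tr A with hs
  set d : F := LinearMap.det A with hd
  have e1 : tl A * tl A = A * A - s • A + ((s / 2) * (s / 2)) • (1 : Module.End F W) := by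
    rw [tl, ← hs, sub_mul, mul_sub, mul_sub, mul_smul_comm, mul_one, smul_mul_assoc, one_mul,
      smul_mul_assoc, one_mul, smul_smul]
    have : s • A = (s / 2) • A + (s / 2) • A := by rw [← add_smul]; congr 1; field_simp; ring
    rw [this]; abel
  rw [e1, hCH, disc, ← hs, ← hd]
  have : s • A - d • (1 : Module.End F W) - s • A + (s / 2 * (s / 2)) • (1 : Module.End F W)
      = (s / 2 * (s / 2) - d) • (1 : Module.End F W) := by rw [sub_smul]; abel
  rw [this]; congr 1; field_simp; ring

theorem tl_ne_zero_of_disc_ne_zero (h2ne : (2 : F) ≠ 0) (h2 : Module.finrank F W = 2)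
    {A : Module.End F W} (hA : disc A ≠ 0) : tl A ≠ 0 := by
  intro h0
  have hnt : Nontrivial W := Module.nontrivial_of_finrank_eq_succ h2
  have h4 : (4 : F) ≠ 0 := by
    have : (4 : F) = 2 * 2 := by norm_num
    rw [this]; exact mul_ne_zero h2ne h2ne
  have := tl_mul_tl h2ne h2 A
  rw [h0, mul_zero] at this
  have h1 : disc A / 4 = 0 := by
    rcases smul_eq_zero.mp this.symm with h | h
    · exact h
    · exact absurd h one_ne_zero
  exact hA ((div_eq_zero_iff.mp h1).resolve_right h4)

theorem tl_mul_tl_of_disc_eq_zero (h2ne : (2 : F) ≠ 0) (h2 : Module.finrank F W = 2)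
    {A : Module.End F W} (hA : disc A = 0) : tl A * tl A = 0 := by
  rw [tl_mul_tl h2ne h2 A, hA, zero_div, zero_smul]

/-- For traceless `y`: `tr (y * tl A) = tr (y * A)`. -/
theorem trace_mul_tl {y : Module.End F W} (hy : tr y = 0) (A : Module.End F W) :
    tr (y * tl A) = tr (y * A) := by
  rw [tl, mul_sub, map_sub, mul_smul_comm, mul_one, map_smul, hy, smul_zero, sub_zero]

section Conj

variable {G : Type*} [Group G] (r : G →* Module.End F W)

theorem map_mul_map_inv' (g : G) : r g * r g⁻¹ = 1 := by
  rw [← map_mul, mul_inv_cancel, map_one]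

theorem map_inv_mul_map' (g : G) : r g⁻¹ * r g = 1 := by
  rw [← map_mul, inv_mul_cancel, map_one]

theorem trace_conj (g : G) (A : Module.End F W) : tr (r g * A * r g⁻¹) = tr A := by
  rw [LinearMap.trace_mul_comm, ← mul_assoc, map_inv_mul_map', one_mul]

theorem det_conj (g : G) (A : Module.End F W) :
    LinearMap.det (r g * A * r g⁻¹) = LinearMap.det A := by
  rw [map_mul, map_mul, mul_right_comm, ← map_mul, map_mul_map_inv', map_one, one_mul]

theorem disc_conj (g : G) (A : Module.End F W) : disc (r g * A * r g⁻¹) = disc A := by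
  rw [disc, disc, trace_conj, det_conj]

theorem tl_conj (g : G) (A : Module.End F W) : tl (r g * A * r g⁻¹) = r g * tl A * r g⁻¹ := by
  rw [tl, tl, trace_conj, mul_sub, sub_mul, mul_smul_comm, mul_one, smul_mul_assoc,
    map_mul_map_inv']

theorem map_conj (g h : G) : r (g * h * g⁻¹) = r g * r h * r g⁻¹ := by
  rw [map_mul, map_mul]

theorem disc_map_conj (g h : G) : disc (r (g * h * g⁻¹)) = disc (r h) := by
  rw [map_conj, disc_conj]

theorem tl_map_conj (g h : G) : tl (r (g * h * g⁻¹)) = r g * tl (r h) * r g⁻¹ := by
  rw [map_conj, tl_conj]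

/-- From a conjugation identity to the form used in `NoConjLine`. -/
theorem mul_eq_smul_mul_of_conj {g : G} {e : Module.End F W} {c : F}
    (h : r g * e * r g⁻¹ = c • e) : r g * e = c • (e * r g) := by
  calc r g * e = r g * e * (r g⁻¹ * r g) := by rw [map_inv_mul_map', mul_one]
    _ = (r g * e * r g⁻¹) * r g := by simp only [mul_assoc]
    _ = c • (e * r g) := by rw [h, smul_mul_assoc]

end Conj

end Fermat.Agent.TW.Cheb
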