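import Fermat.Agent.TW.Cheb.SqScalar

/-!
# Program G (S56), block TW, group theory: a conjugation-stable line in `ad⁰` gives a stable line

Let `G` act on a plane `W` over an algebraically closed field of characteristic `≠ 2`.  If some
nonzero traceless endomorphism `e` spans a line of `End W` stable under conjugation by `G`, then
either `G` or a subgroup of index two stabilises a line of `W`.
-/

set_option autoImplicit false

namespace Fermat.Agent.TW.Cheb

variable {F : Type*} [Field F] {W : Type*} [AddCommGroup W] [Module F W]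
variable {G : Type*} [Group G]

/-- `G₀` stabilises a proper nonzero subspace of `W`. -/
def HasStableLine (r : G →* Module.End F W) (G₀ : Subgroup G) : Prop :=
  ∃ L : Submodule F W, L ≠ ⊥ ∧ L ≠ ⊤ ∧ ∀ g ∈ G₀, ∀ x ∈ L, r g x ∈ L

theorem map_mul_map_inv (r : G →* Module.End F W) (g : G) : r g * r g⁻¹ = 1 := by
  rw [← map_mul, mul_inv_cancel, map_one]

theorem map_inv_mul_map (r : G →* Module.End F W) (g : G) : r g⁻¹ * r g = 1 := by
  rw [← map_mul, inv_mul_cancel, map_one]

/-- The scalar in a conjugation relation is nonzero. -/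
theorem conj_scalar_ne_zero (r : G →* Module.End F W) {e : Module.End F W} (he : e ≠ 0) {g : G}
    {c : F} (h : r g * e = c • (e * r g)) : c ≠ 0 := by
  rintro rfl
  rw [zero_smul] at h
  apply he
  calc e = (r g⁻¹ * r g) * e := by rw [map_inv_mul_map, one_mul]
    _ = r g⁻¹ * (r g * e) := by rw [mul_assoc]
    _ = 0 := by rw [h, mul_zero]

/-- Case of a non-injective `e`: its kernel is a `G`-stable line. -/
theorem hasStableLine_of_ker_ne_bot (r : G →* Module.End F W) {e : Module.End F W} (he : e ≠ 0)
    (hker : LinearMap.ker e ≠ ⊥) (hconj : ∀ g, ∃ c : F, r g * e = c • (e * r g)) :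
    HasStableLine r ⊤ := by
  refine ⟨LinearMap.ker e, hker, fun htop => he (LinearMap.ker_eq_top.mp htop), ?_⟩
  intro g _ x hx
  obtain ⟨c, hc⟩ := hconj g
  have hc0 := conj_scalar_ne_zero r he hc
  rw [LinearMap.mem_ker] at hx ⊢
  have h1 : (r g * e) x = (c • (e * r g)) x := by rw [hc]
  rw [Module.End.mul_apply, hx, map_zero, LinearMap.smul_apply, Module.End.mul_apply] at h1
  exact (smul_eq_zero.mp h1.symm).resolve_left hc0

theorem exists_stableLine_of_conj_line [IsAlgClosed F] (h2ne : (2 : F) ≠ 0)
    (h2 : Module.finrank F W = 2) (r : G →* Module.End F W)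
    (e : Module.End F W) (he : e ≠ 0) (htr : LinearMap.trace F W e = 0)
    (hconj : ∀ g, ∃ c : F, r g * e = c • (e * r g)) :
    ∃ G₀ : Subgroup G, (G₀ = ⊤ ∨ G₀.index = 2) ∧ HasStableLine r G₀ := by
  have hfin : Module.Finite F W := Module.finite_of_finrank_eq_succ h2
  have hnt : Nontrivial W := Module.nontrivial_of_finrank_eq_succ h2
  by_cases hker : LinearMap.ker e = ⊥
  swap
  · exact ⟨⊤, Or.inl rfl, hasStableLine_of_ker_ne_bot r he hker hconj⟩
  -- `e` is injective; `e * e = θ`, `θ ≠ 0`
  set θ : F := - LinearMap.det e with hθ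
  have hsq : e * e = θ • (1 : Module.End F W) := sq_eq_smul_one h2 e htr
  have hθ0 : θ ≠ 0 := by
    intro h0
    rw [h0, zero_smul] at hsq
    apply he
    ext x
    have h1 : e (e x) = 0 := by
      have := congrArg (fun f : Module.End F W => f x) hsq
      simpa [Module.End.mul_apply] using this
    have h2' : e x ∈ LinearMap.ker e := LinearMap.mem_ker.mpr h1
    rw [hker, Submodule.mem_bot] at h2'
    simpa using h2'
  obtain ⟨μ, hμ⟩ := IsAlgClosed.exists_pow_nat_eq θ (n := 2) (by norm_num)
  have hμ0 : μ ≠ 0 := by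
    rintro rfl
    apply hθ0
    rw [← hμ]; ring
  have htr1 : LinearMap.trace F W (1 : Module.End F W) = 2 := by
    rw [LinearMap.trace_one, h2]; norm_num
  -- `e ≠ ± μ`
  have hne1 : e - μ • (1 : Module.End F W) ≠ 0 := by
    intro h
    have h' : e = μ • (1 : Module.End F W) := sub_eq_zero.mp h
    rw [h', map_smul, htr1, smul_eq_mul] at htr
    exact (mul_ne_zero hμ0 h2ne) htr
  have hne2 : e + μ • (1 : Module.End F W) ≠ 0 := by
    intro h
    have h' : e = -(μ • (1 : Module.End F W)) := eq_neg_of_add_eq_zero_left h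
    rw [h', map_neg, map_smul, htr1, smul_eq_mul, neg_eq_zero] at htr
    exact (mul_ne_zero hμ0 h2ne) htr
  have hprod : (e - μ • (1 : Module.End F W)) * (e + μ • (1 : Module.End F W)) = 0 := by
    have h1 : e * (μ • (1 : Module.End F W)) = μ • e := by rw [mul_smul_comm, mul_one]
    have h2' : (μ • (1 : Module.End F W)) * e = μ • e := by rw [smul_mul_assoc, one_mul]
    have h3 : (μ • (1 : Module.End F W)) * (μ • (1 : Module.End F W))
        = (μ ^ 2) • (1 : Module.End F W) := by
      rw [smul_mul_assoc, one_mul, smul_smul, pow_two]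
    rw [sub_mul, mul_add, mul_add, h1, h2', h3, hsq, hμ]
    abel
  -- the commutant subgroup
  let G₀ : Subgroup G :=
    { carrier := {g | r g * e = e * r g}
      one_mem' := by simp
      mul_mem' := by
        intro a b ha hb
        change r a * e = e * r a at ha; change r b * e = e * r b at hb; change r (a * b) * e = e * r (a * b)
        rw [map_mul, mul_assoc, hb, ← mul_assoc, ha, mul_assoc]
      inv_mem' := by
        intro a ha
        change r a * e = e * r a at ha; change r a⁻¹ * e = e * r a⁻¹
        calc r a⁻¹ * e = r a⁻¹ * e * (r a * r a⁻¹) := by rw [map_mul_map_inv, mul_one]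
          _ = r a⁻¹ * (e * r a) * r a⁻¹ := by simp only [mul_assoc]
          _ = r a⁻¹ * (r a * e) * r a⁻¹ := by rw [ha]
          _ = (r a⁻¹ * r a) * e * r a⁻¹ := by simp only [mul_assoc]
          _ = e * r a⁻¹ := by rw [map_inv_mul_map, one_mul] }
  have hmemG₀ : ∀ g, g ∈ G₀ ↔ r g * e = e * r g := fun g => Iff.rfl
  have hrne : ∀ g, r g ≠ 0 := by
    intro g h0
    have := map_mul_map_inv r g
    rw [h0, zero_mul] at this
    exact zero_ne_one this
  have herne : ∀ g, e * r g ≠ 0 := by
    intro g h0
    apply he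
    calc e = e * (r g * r g⁻¹) := by rw [map_mul_map_inv, mul_one]
      _ = (e * r g) * r g⁻¹ := by rw [mul_assoc]
      _ = 0 := by rw [h0, zero_mul]
  -- every `g` commutes or anticommutes with `e`
  have hpm : ∀ g, r g * e = e * r g ∨ r g * e = -(e * r g) := by
    intro g
    obtain ⟨c, hc⟩ := hconj g
    have h1 : r g * e * e = (c * c) • (e * e * r g) := by
      rw [hc, smul_mul_assoc, mul_assoc e (r g) e, hc, mul_smul_comm, smul_smul, ← mul_assoc]
    rw [mul_assoc, hsq, mul_smul_comm, mul_one, smul_mul_assoc, one_mul, smul_smul] at h1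
    have h2' : (θ - c * c * θ) • r g = 0 := by rw [sub_smul, ← h1, sub_self]
    have h3 : θ - c * c * θ = 0 := (smul_eq_zero.mp h2').resolve_right (hrne g)
    have h4 : (c - 1) * (c + 1) = 0 := by
      have : θ * ((c - 1) * (c + 1)) = 0 := by linear_combination -h3
      exact (mul_eq_zero.mp this).resolve_left hθ0
    rcases mul_eq_zero.mp h4 with h | h
    · left; rw [hc, sub_eq_zero.mp h, one_smul]
    · right; rw [hc, eq_neg_of_add_eq_zero_left h, neg_smul, one_smul]
  have hnot : ∀ g, r g * e = -(e * r g) → g ∉ G₀ := by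
    intro g hg hmem
    have hmem' : r g * e = e * r g := hmem
    rw [hmem'] at hg
    have h2' : (2 : F) • (e * r g) = 0 := by
      rw [two_smul]; nth_rewrite 1 [hg]; exact neg_add_cancel _
    exact herne g ((smul_eq_zero.mp h2').resolve_left h2ne)
  -- the stable line
  have hstable : HasStableLine r G₀ := by
    refine ⟨LinearMap.ker (e - μ • (1 : Module.End F W)), ?_, ?_, ?_⟩
    · intro hbot
      obtain ⟨x, hx⟩ : ∃ x, (e + μ • (1 : Module.End F W)) x ≠ 0 := by
        by_contra hcon
        exact hne2 (LinearMap.ext fun x => by_contra fun hx => hcon ⟨x, hx⟩)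
      have hmem : (e + μ • (1 : Module.End F W)) x ∈
          LinearMap.ker (e - μ • (1 : Module.End F W)) := by
        rw [LinearMap.mem_ker, ← Module.End.mul_apply, hprod, LinearMap.zero_apply]
      rw [hbot, Submodule.mem_bot] at hmem
      exact hx hmem
    · intro htop
      exact hne1 (LinearMap.ker_eq_top.mp htop)
    · intro g hg x hx
      have hg' : r g * e = e * r g := hg
      rw [LinearMap.mem_ker] at hx ⊢
      have hcomm : (e - μ • (1 : Module.End F W)) * r g = r g * (e - μ • (1 : Module.End F W)) := by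
        rw [sub_mul, mul_sub, hg', smul_mul_assoc, mul_smul_comm, one_mul, mul_one]
      rw [← Module.End.mul_apply, hcomm, Module.End.mul_apply, hx, map_zero]
  by_cases htop : G₀ = ⊤
  · exact ⟨G₀, Or.inl htop, hstable⟩
  · refine ⟨G₀, Or.inr ?_, hstable⟩
    obtain ⟨a, ha⟩ : ∃ a, a ∉ G₀ := by
      by_contra hcon
      exact htop (eq_top_iff.mpr fun g _ => by_contra fun hg => hcon ⟨g, hg⟩)
    have ha' : r a * e = -(e * r a) := (hpm a).resolve_left ha
    rw [Subgroup.index_eq_two_iff]
    refine ⟨a, fun b => ?_⟩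
    by_cases hb : b ∈ G₀
    · refine Or.inr ⟨hb, ?_⟩
      have hb' : r b * e = e * r b := hb
      apply hnot
      rw [map_mul, mul_assoc, ha', mul_neg, ← mul_assoc, hb', mul_assoc]
    · refine Or.inl ⟨?_, hb⟩
      have hb' : r b * e = -(e * r b) := (hpm b).resolve_left hb
      show r (b * a) * e = e * r (b * a)
      rw [map_mul, mul_assoc, ha', mul_neg, ← mul_assoc, hb', neg_mul, neg_neg, mul_assoc]

end Fermat.Agent.TW.Cheb
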