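import Fermat.Agent.TW.Cheb.Regular
import Fermat.Agent.TW.Cheb.StableLine

/-!
# Program G (S56), block TW, group theory: regular elements of a normal subgroup span `ad⁰`

`NoConjLine r`: no nonzero traceless endomorphism spans a line of `End W` stable under
conjugation by `G`.

`exists_regular_trace_ne_zero`: if `NoConjLine r`, `N` is a normal subgroup containing an element
with `disc ≠ 0`, then for every nonzero traceless `w` there is `h ∈ N` with `disc (r h) ≠ 0` and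
`tr (w * r h) ≠ 0` (i.e. `w ∉ (Ad h - 1) ad⁰`).
-/

set_option autoImplicit false

namespace Fermat.Agent.TW.Cheb

variable {F : Type*} [Field F] {W : Type*} [AddCommGroup W] [Module F W]
variable {G : Type*} [Group G]

local notation "tr" => LinearMap.trace F W

/-- No nonzero traceless endomorphism spans a conjugation-stable line. -/
def NoConjLine (r : G →* Module.End F W) : Prop :=
  ∀ e : Module.End F W, e ≠ 0 → tr e = 0 → ¬ ∀ g, ∃ c : F, r g * e = c • (e * r g)

theorem exists_regular_trace_ne_zero (h2ne : (2 : F) ≠ 0) (h2 : Module.finrank F W = 2)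
    (r : G →* Module.End F W) (hN : NoConjLine r) (N : Subgroup G) [hNn : N.Normal]
    (hreg : ∃ h₀ ∈ N, disc (r h₀) ≠ 0)
    (w : Module.End F W) (hw : tr w = 0) (hw0 : w ≠ 0) :
    ∃ h ∈ N, disc (r h) ≠ 0 ∧ tr (w * r h) ≠ 0 := by
  by_contra hcon
  have hall : ∀ h ∈ N, disc (r h) ≠ 0 → tr (w * r h) = 0 := by
    intro h hh hd
    by_contra hne
    exact hcon ⟨h, hh, hd, hne⟩
  -- conjugates of `w` are orthogonal to all regular elements of `N`
  have hconjw : ∀ g : G, ∀ h ∈ N, disc (r h) ≠ 0 → tr ((r g * w * r g⁻¹) * r h) = 0 := by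
    intro g h hh hd
    have h1 : g⁻¹ * h * g⁻¹⁻¹ ∈ N := hNn.conj_mem h hh g⁻¹
    have h2' : disc (r (g⁻¹ * h * g⁻¹⁻¹)) ≠ 0 := by rw [disc_map_conj]; exact hd
    have h3 := hall _ h1 h2'
    rw [map_conj, inv_inv] at h3
    calc tr ((r g * w * r g⁻¹) * r h) = tr (r g * (w * (r g⁻¹ * r h))) := by simp only [mul_assoc]
      _ = tr ((w * (r g⁻¹ * r h)) * r g) := by rw [LinearMap.trace_mul_comm]
      _ = tr (w * (r g⁻¹ * r h * r g)) := by simp only [mul_assoc]
      _ = 0 := h3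
  have htrconj : ∀ g : G, tr (r g * w * r g⁻¹) = 0 := fun g => by rw [trace_conj, hw]
  obtain ⟨h₀, hh₀, hd₀⟩ := hreg
  set x : Module.End F W := tl (r h₀) with hx
  have hxtr : tr x = 0 := trace_tl h2ne h2 _
  have hx0 : x ≠ 0 := tl_ne_zero_of_disc_ne_zero h2ne h2 hd₀
  -- Step 1: a second regular element whose traceless part is not proportional to `x`
  have hstep1 : ∃ h₁ ∈ N, disc (r h₁) ≠ 0 ∧ ∀ c : F, tl (r h₁) ≠ c • x := by
    by_contra hcon1
    apply hN x hx0 hxtr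
    intro g
    have h1 : g * h₀ * g⁻¹ ∈ N := hNn.conj_mem h₀ hh₀ g
    have h2' : disc (r (g * h₀ * g⁻¹)) ≠ 0 := by rw [disc_map_conj]; exact hd₀
    have : ∃ c : F, tl (r (g * h₀ * g⁻¹)) = c • x := by
      by_contra hne
      exact hcon1 ⟨_, h1, h2', fun c hc => hne ⟨c, hc⟩⟩
    obtain ⟨c, hc⟩ := this
    rw [tl_map_conj] at hc
    exact ⟨c, mul_eq_smul_mul_of_conj r hc⟩
  obtain ⟨h₁, hh₁, hd₁, hne₁⟩ := hstep1
  set x' : Module.End F W := tl (r h₁) with hx'
  have hx'tr : tr x' = 0 := trace_tl h2ne h2 _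
  -- orthogonality relations
  have horth : ∀ y : Module.End F W, tr y = 0 → ∀ h ∈ N, disc (r h) ≠ 0 → tr (y * r h) = 0 →
      tr (tl (r h) * y) = 0 := by
    intro y hy h _ _ h0
    rw [LinearMap.trace_mul_comm, trace_mul_tl hy, h0]
  -- Step 2: `w` spans a conjugation-stable line
  apply hN w hw0 hw
  intro g
  have hy' := htrconj g
  obtain ⟨c, hc⟩ := mem_span_of_orthogonal_pair h2ne h2 hxtr hx'tr hw hy' hx0 hne₁ hw0
    (horth w hw h₀ hh₀ hd₀ (hall h₀ hh₀ hd₀)) (horth w hw h₁ hh₁ hd₁ (hall h₁ hh₁ hd₁))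
    (horth _ hy' h₀ hh₀ hd₀ (hconjw g h₀ hh₀ hd₀)) (horth _ hy' h₁ hh₁ hd₁ (hconjw g h₁ hh₁ hd₁))
  exact ⟨c, mul_eq_smul_mul_of_conj r hc⟩

end Fermat.Agent.TW.Cheb
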