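import Mathlib

/-!
# Program G (S56), block TW, group theory: traceless endomorphisms of a plane

`sq_eq_smul_one`: on a 2-dimensional space, a traceless endomorphism `e` satisfies
`e * e = (- det e) • 1` (Cayley–Hamilton).
-/

set_option autoImplicit false

open Polynomial

namespace Fermat.Agent.TW.Cheb

variable {F : Type*} [Field F] {W : Type*} [AddCommGroup W] [Module F W]

/-- Cayley–Hamilton in dimension two, matrix form. -/
theorem matrix_sq_fin_two (M : Matrix (Fin 2) (Fin 2) F) :
    M * M = M.trace • M - M.det • (1 : Matrix (Fin 2) (Fin 2) F) := by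
  ext i j
  fin_cases i <;> fin_cases j <;>
    simp [Matrix.mul_apply, Fin.sum_univ_two, Matrix.trace_fin_two, Matrix.det_fin_two] <;> ring

/-- Cayley–Hamilton in dimension two. -/
theorem end_sq_of_finrank_two (h2 : Module.finrank F W = 2) (e : Module.End F W) :
    e * e = LinearMap.trace F W e • e - LinearMap.det e • (1 : Module.End F W) := by
  have : Module.Finite F W := Module.finite_of_finrank_eq_succ h2
  let b : Module.Basis (Fin 2) F W := Module.finBasisOfFinrankEq F W h2
  apply (LinearMap.toMatrix b b).injective
  rw [LinearMap.toMatrix_mul, map_sub, map_smul, map_smul, matrix_sq_fin_two,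
    LinearMap.trace_eq_matrix_trace F b, LinearMap.det_toMatrix b]
  congr 2
  exact (LinearMap.toMatrix_one b).symm

/-- A traceless endomorphism of a plane squares to the scalar `- det e`. -/
theorem sq_eq_smul_one (h2 : Module.finrank F W = 2) (e : Module.End F W)
    (htr : LinearMap.trace F W e = 0) :
    e * e = (- LinearMap.det e) • (1 : Module.End F W) := by
  rw [end_sq_of_finrank_two h2 e, htr, zero_smul, zero_sub, neg_smul]

end Fermat.Agent.TW.Cheb
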