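import Fermat.Agent.TW.Cheb.Regular

/-!
# Program G (S56), block TW, node (TW-2): determinant-twisted adjoint cocycles and their
tangent pseudo-character

`r : G →* End W` on a plane.  A *det-cocycle* is a map `c : G → End W` with traceless values and
`c (g h) = c g + det (r g) • (r g * c h * r g⁻¹)` (a `1`-cocycle with values in `ad⁰ ⊗ det`).
`tau r c g = tr (c g * r g)`.  On `K = ker (det ∘ r)`:

* `tau_conj`      : `tau (h g h⁻¹) = det (r h) * tau g`;
* `tau_mul_add`   : `tau (a b) + tau (a b⁻¹) = tau a * tr (r b) + tr (r a) * tau b`.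
-/

set_option autoImplicit false

namespace Fermat.Agent.TW.Cheb

variable {F : Type*} [Field F] {W : Type*} [AddCommGroup W] [Module F W]
variable {G : Type*} [Group G]

local notation "tr" => LinearMap.trace F W

/-- A `1`-cocycle of `G` with values in the traceless endomorphisms, for the adjoint action twisted
by the determinant of `r`. -/
structure IsDetCocycle (r : G →* Module.End F W) (c : G → Module.End F W) : Prop where
  trace_eq : ∀ g, tr (c g) = 0
  map_mul : ∀ g h, c (g * h) = c g + LinearMap.det (r g) • (r g * c h * r g⁻¹)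

/-- The tangent pseudo-character of a det-cocycle. -/
noncomputable def tau (r : G →* Module.End F W) (c : G → Module.End F W) (g : G) : F :=
  tr (c g * r g)

theorem trace_mul_rotate (a b c : Module.End F W) : tr (a * b * c) = tr (c * a * b) := by
  rw [LinearMap.trace_mul_comm, mul_assoc]

theorem det_map_mul_det_map_inv (r : G →* Module.End F W) (g : G) :
    LinearMap.det (r g) * LinearMap.det (r g⁻¹) = 1 := by
  rw [← map_mul, ← map_mul, mul_inv_cancel, map_one, map_one]

theorem det_map_inv_of_det (r : G →* Module.End F W) {g : G} (hg : LinearMap.det (r g) = 1) :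
    LinearMap.det (r g⁻¹) = 1 := by
  have := det_map_mul_det_map_inv r g
  rwa [hg, one_mul] at this

theorem det_map_pow_of_det (r : G →* Module.End F W) {g : G} (hg : LinearMap.det (r g) = 1)
    (n : ℕ) : LinearMap.det (r (g ^ n)) = 1 := by
  rw [map_pow, map_pow, hg, one_pow]

theorem det_map_mul_of_det (r : G →* Module.End F W) {a b : G} (ha : LinearMap.det (r a) = 1)
    (hb : LinearMap.det (r b) = 1) : LinearMap.det (r (a * b)) = 1 := by
  rw [map_mul, map_mul, ha, hb, one_mul]

/-- Polarised Cayley–Hamilton in a plane (the scalar is not identified). -/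
theorem exists_mul_add_mul_eq (h2 : Module.finrank F W = 2) (A B : Module.End F W) :
    ∃ s : F, A * B + B * A = tr A • B + tr B • A + s • (1 : Module.End F W) := by
  refine ⟨LinearMap.det A + LinearMap.det B - LinearMap.det (A + B), ?_⟩
  have h1 := end_sq_of_finrank_two h2 A
  have h2' := end_sq_of_finrank_two h2 B
  have h3 := end_sq_of_finrank_two h2 (A + B)
  have h4 : A * B + B * A = (A + B) * (A + B) - A * A - B * B := by
    rw [add_mul, mul_add, mul_add]; abel
  rw [h4, h1, h2', h3, map_add, add_smul, smul_add, smul_add, sub_smul, add_smul]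
  abel

/-- In a plane, `B⁻¹ = tr B - B` when `det B = 1`. -/
theorem map_inv_eq_of_det (h2 : Module.finrank F W = 2) (r : G →* Module.End F W) {b : G}
    (hb : LinearMap.det (r b) = 1) : r b⁻¹ = tr (r b) • (1 : Module.End F W) - r b := by
  have hbi' : r b⁻¹ * r b = 1 := map_inv_mul_map' r b
  have hCH := end_sq_of_finrank_two h2 (r b)
  rw [hb, one_smul] at hCH
  have h1 : r b = tr (r b) • (1 : Module.End F W) - r b⁻¹ := by
    calc r b = r b⁻¹ * (r b * r b) := by rw [← mul_assoc, hbi', one_mul]
      _ = r b⁻¹ * (tr (r b) • r b - 1) := by rw [hCH]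
      _ = tr (r b) • (1 : Module.End F W) - r b⁻¹ := by
        rw [mul_sub, mul_smul_comm, hbi', mul_one]
  rw [eq_sub_iff_add_eq, add_comm]
  exact eq_sub_iff_add_eq.mp h1

namespace IsDetCocycle

variable {r : G →* Module.End F W} {c : G → Module.End F W}

theorem map_one (hc : IsDetCocycle r c) : c 1 = 0 := by
  have h := hc.map_mul 1 1
  rw [mul_one, inv_one, _root_.map_one, _root_.map_one, one_smul, one_mul, mul_one] at h
  exact left_eq_add.mp h

theorem map_mul_of_det (hc : IsDetCocycle r c) {g : G} (hg : LinearMap.det (r g) = 1) (h : G) :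
    c (g * h) = c g + r g * c h * r g⁻¹ := by
  rw [hc.map_mul, hg, one_smul]

/-- the general inverse formula -/
theorem map_inv (hc : IsDetCocycle r c) (g : G) :
    c g⁻¹ = -(LinearMap.det (r g⁻¹) • (r g⁻¹ * c g * r g)) := by
  have h := hc.map_mul g⁻¹ g
  rw [inv_mul_cancel, hc.map_one, inv_inv] at h
  exact eq_neg_of_add_eq_zero_left h.symm

theorem map_inv_of_det (hc : IsDetCocycle r c) {g : G} (hg : LinearMap.det (r g) = 1) :
    c g⁻¹ = -(r g⁻¹ * c g * r g) := by
  rw [hc.map_inv, det_map_inv_of_det r hg, one_smul]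

/-- **Equivariance of `tau`**: `tau (h g h⁻¹) = det (r h) * tau g` for `det (r g) = 1`. -/
theorem tau_conj (hc : IsDetCocycle r c) {g : G} (hg : LinearMap.det (r g) = 1) (h : G) :
    tau r c (h * g * h⁻¹) = LinearMap.det (r h) * tau r c g := by
  have hdd := det_map_mul_det_map_inv r h
  have hX : r (h * g * h⁻¹) = r h * r g * r h⁻¹ := by rw [_root_.map_mul, _root_.map_mul]
  have hXi : r (h * g * h⁻¹)⁻¹ = r h * r g⁻¹ * r h⁻¹ := by
    rw [_root_.mul_inv_rev, _root_.mul_inv_rev, inv_inv, _root_.map_mul, _root_.map_mul, mul_assoc]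
  have hhi : r h⁻¹ * r h = 1 := map_inv_mul_map' r h
  have hgi : r g⁻¹ * r g = 1 := map_inv_mul_map' r g
  have e1 : c (h * g * h⁻¹) = c h + LinearMap.det (r h) • (r h * c g * r h⁻¹)
      - r (h * g * h⁻¹) * c h * r (h * g * h⁻¹)⁻¹ := by
    have e0 : c (h * g * h⁻¹) = c h + LinearMap.det (r h) •
        (r h * (c g + r g * -(LinearMap.det (r h⁻¹) • (r h⁻¹ * c h * r h)) * r g⁻¹) * r h⁻¹) := by
      rw [mul_assoc, hc.map_mul h, hc.map_mul_of_det hg, hc.map_inv h]
    have key : LinearMap.det (r h) •
        (r h * (r g * -(LinearMap.det (r h⁻¹) • (r h⁻¹ * c h * r h)) * r g⁻¹) * r h⁻¹)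
        = -(r (h * g * h⁻¹) * c h * r (h * g * h⁻¹)⁻¹) := by
      rw [hX, hXi]
      simp only [mul_neg, neg_mul, smul_neg, mul_smul_comm, smul_mul_assoc, smul_smul, hdd,
        one_smul, mul_assoc]
    rw [e0, mul_add, add_mul, smul_add, key]
    abel
  have e2 : r (h * g * h⁻¹)⁻¹ * r (h * g * h⁻¹) = 1 := map_inv_mul_map' r _
  rw [tau, tau, e1, sub_mul, add_mul, map_sub, map_add]
  have t1 : tr (r (h * g * h⁻¹) * c h * r (h * g * h⁻¹)⁻¹ * r (h * g * h⁻¹))
      = tr (c h * r (h * g * h⁻¹)) := by
    rw [mul_assoc, e2, mul_one, LinearMap.trace_mul_comm]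
  have t2 : tr (LinearMap.det (r h) • (r h * c g * r h⁻¹) * r (h * g * h⁻¹))
      = LinearMap.det (r h) * tr (c g * r g) := by
    rw [smul_mul_assoc, map_smul, smul_eq_mul]
    congr 1
    rw [hX]
    have : r h * c g * r h⁻¹ * (r h * r g * r h⁻¹) = r h * (c g * r g) * r h⁻¹ := by
      calc r h * c g * r h⁻¹ * (r h * r g * r h⁻¹)
          = r h * c g * (r h⁻¹ * r h) * r g * r h⁻¹ := by simp only [mul_assoc]
        _ = r h * (c g * r g) * r h⁻¹ := by rw [hhi, mul_one]; simp only [mul_assoc]
    rw [this, trace_conj]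
  rw [t1, t2]
  ring

/-- **The tangent trace identity** on `ker det`. -/
theorem tau_mul_add (h2 : Module.finrank F W = 2) (hc : IsDetCocycle r c)
    {a b : G} (ha : LinearMap.det (r a) = 1) (hb : LinearMap.det (r b) = 1) :
    tau r c (a * b) + tau r c (a * b⁻¹) = tau r c a * tr (r b) + tr (r a) * tau r c b := by
  have hbi : r b * r b⁻¹ = 1 := map_mul_map_inv' r b
  have hai : r a⁻¹ * r a = 1 := map_inv_mul_map' r a
  have hBinv := map_inv_eq_of_det h2 r hb
  obtain ⟨s, hs⟩ := exists_mul_add_mul_eq h2 (r a) (r b)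
  -- first term
  have e1 : tau r c (a * b) = tr (c a * r a * r b) + tr (c b * r b * r a) := by
    have x1 : tr (c a * (r a * r b)) = tr (c a * r a * r b) := by rw [mul_assoc]
    have x2 : tr (r a * c b * r a⁻¹ * (r a * r b)) = tr (c b * r b * r a) := by
      calc tr (r a * c b * r a⁻¹ * (r a * r b))
          = tr (r a * c b * (r a⁻¹ * r a) * r b) := by simp only [mul_assoc]
        _ = tr (r a * (c b * r b)) := by rw [hai, mul_one]; simp only [mul_assoc]
        _ = tr (c b * r b * r a) := LinearMap.trace_mul_comm F _ _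
    rw [tau, hc.map_mul_of_det ha, _root_.map_mul r, add_mul, map_add, x1, x2]
  -- second term
  have e2 : tau r c (a * b⁻¹) = tr (c a * r a * r b⁻¹) - tr (c b * r a * r b⁻¹) := by
    have x1 : tr (c a * (r a * r b⁻¹)) = tr (c a * r a * r b⁻¹) := by rw [mul_assoc]
    have x2 : tr (r a * -(r b⁻¹ * c b * r b) * r a⁻¹ * (r a * r b⁻¹))
        = -tr (c b * r a * r b⁻¹) := by
      calc tr (r a * -(r b⁻¹ * c b * r b) * r a⁻¹ * (r a * r b⁻¹))
          = -tr (r a * r b⁻¹ * c b * (r b * (r a⁻¹ * r a) * r b⁻¹)) := by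
            simp only [mul_neg, neg_mul, map_neg, mul_assoc]
        _ = -tr (r a * r b⁻¹ * c b) := by rw [hai, mul_one, hbi, mul_one]
        _ = -tr (c b * r a * r b⁻¹) := by
          rw [LinearMap.trace_mul_comm, mul_assoc]
    rw [tau, hc.map_mul_of_det ha, hc.map_inv_of_det hb, _root_.map_mul r, add_mul, map_add,
      x1, x2, sub_eq_add_neg]
  have htb : tr (c b) = 0 := hc.trace_eq b
  -- `B A - A B⁻¹ = tr A • B + s • 1`
  have e3 : r b * r a - r a * r b⁻¹ = tr (r a) • r b + s • (1 : Module.End F W) := by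
    rw [hBinv, mul_sub, mul_smul_comm, mul_one]
    have : r b * r a - (tr (r b) • r a - r a * r b)
        = (r a * r b + r b * r a) - tr (r b) • r a := by abel
    rw [this, hs]
    abel
  rw [e1, e2, tau, tau]
  have e4 : tr (c a * r a * r b) + tr (c a * r a * r b⁻¹) = tr (c a * r a) * tr (r b) := by
    rw [← map_add, ← mul_add, hBinv]
    have : r b + (tr (r b) • (1 : Module.End F W) - r b) = tr (r b) • (1 : Module.End F W) := by
      abel
    rw [this, mul_smul_comm, mul_one, map_smul, smul_eq_mul, mul_comm]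
  have e5 : tr (c b * r b * r a) - tr (c b * r a * r b⁻¹) = tr (r a) * tr (c b * r b) := by
    rw [← map_sub, mul_assoc, mul_assoc, ← mul_sub, e3, mul_add, mul_smul_comm, mul_smul_comm,
      mul_one, map_add, map_smul, map_smul, htb, smul_zero, add_zero, smul_eq_mul]
  linear_combination e4 + e5

end IsDetCocycle

end Fermat.Agent.TW.Cheb
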