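import Fermat.Agent.TW.Cheb.TauBasic

/-!
# Program G (S56), block TW, node (TW-2): `tau` on powers

* `map_pow_of_det` : `c (g ^ n) = ∑_{i < n} (r g)^i * c g * (r g⁻¹)^i` on `ker det`;
* `trace_map_pow_mul` : `tr (c (g ^ n) * r g) = n * tau g`;
* `trace_map_pow_of_unipotent` : `tr (r (g ^ n)) = 2` if `det (r g) = 1`, `tr (r g) = 2`;
* `tau_pow_of_unipotent` : then `tau (g ^ n) = n² * tau g`.
-/

set_option autoImplicit false

namespace Fermat.Agent.TW.Cheb

variable {F : Type*} [Field F] {W : Type*} [AddCommGroup W] [Module F W]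
variable {G : Type*} [Group G]

local notation "tr" => LinearMap.trace F W

namespace IsDetCocycle

variable {r : G →* Module.End F W} {c : G → Module.End F W}

theorem map_pow_of_det (hc : IsDetCocycle r c) {g : G} (hg : LinearMap.det (r g) = 1) (n : ℕ) :
    c (g ^ n) = ∑ i ∈ Finset.range n, r g ^ i * c g * r g⁻¹ ^ i := by
  induction n with
  | zero => rw [pow_zero, hc.map_one, Finset.range_zero, Finset.sum_empty]
  | succ n ih =>
    rw [pow_succ, hc.map_mul_of_det (det_map_pow_of_det r hg n), ih, Finset.sum_range_succ,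
      map_pow, ← inv_pow, map_pow]

theorem trace_map_pow_mul (hc : IsDetCocycle r c) {g : G} (hg : LinearMap.det (r g) = 1) (n : ℕ) :
    tr (c (g ^ n) * r g) = n * tau r c g := by
  have hgi : r g⁻¹ * r g = 1 := map_inv_mul_map' r g
  have hcomm : ∀ i : ℕ, r g⁻¹ ^ i * r g * r g ^ i = r g := by
    intro i
    have h1 : Commute (r g⁻¹ ^ i) (r g) := by
      apply Commute.pow_left
      show r g⁻¹ * r g = r g * r g⁻¹
      rw [hgi, map_mul_map_inv']
    have h3 : r g⁻¹ ^ i * r g ^ i = 1 := by
      rw [← map_pow, ← map_pow, ← _root_.map_mul r, inv_pow, inv_mul_cancel, _root_.map_one]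
    rw [h1.eq, mul_assoc, h3, mul_one]
  rw [hc.map_pow_of_det hg, Finset.sum_mul, map_sum]
  have : ∀ i ∈ Finset.range n, tr (r g ^ i * c g * r g⁻¹ ^ i * r g) = tau r c g := by
    intro i _
    calc tr (r g ^ i * c g * r g⁻¹ ^ i * r g)
        = tr (r g ^ i * (c g * r g⁻¹ ^ i * r g)) := by simp only [mul_assoc]
      _ = tr (c g * r g⁻¹ ^ i * r g * r g ^ i) := LinearMap.trace_mul_comm F _ _
      _ = tr (c g * (r g⁻¹ ^ i * r g * r g ^ i)) := by simp only [mul_assoc]
      _ = tau r c g := by rw [hcomm, tau]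
  rw [Finset.sum_congr rfl this, Finset.sum_const, Finset.card_range, nsmul_eq_mul]

/-- If `c` vanishes at `g ^ n` then `n * tau g = 0`. -/
theorem natCast_mul_tau_eq_zero (hc : IsDetCocycle r c) {g : G} (hg : LinearMap.det (r g) = 1)
    {n : ℕ} (hn : c (g ^ n) = 0) : (n : F) * tau r c g = 0 := by
  rw [← hc.trace_map_pow_mul hg n, hn, zero_mul, map_zero]

end IsDetCocycle

/-- Powers of a unipotent element of a plane have trace `2`. -/
theorem trace_map_pow_of_unipotent (h2 : Module.finrank F W = 2) (r : G →* Module.End F W)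
    {g : G} (hg : LinearMap.det (r g) = 1) (ht : tr (r g) = 2) (n : ℕ) :
    tr (r (g ^ n)) = 2 := by
  have hCH := end_sq_of_finrank_two h2 (r g)
  rw [hg, one_smul, ht] at hCH
  have key : ∀ n : ℕ, tr (r g ^ n) = 2 ∧ tr (r g ^ (n + 1)) = 2 := by
    intro n
    induction n with
    | zero => exact ⟨by rw [pow_zero, trace_one_eq_two h2], by rw [zero_add, pow_one, ht]⟩
    | succ n ih =>
      refine ⟨ih.2, ?_⟩
      have : r g ^ (n + 1 + 1) = (2 : F) • r g ^ (n + 1) - r g ^ n := by
        rw [pow_succ (r g) (n + 1), pow_succ (r g) n, mul_assoc, hCH, mul_sub, mul_smul_comm,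
          mul_one]
      rw [this, map_sub, map_smul, ih.1, ih.2, smul_eq_mul]
      ring
  rw [map_pow]
  exact (key n).1

namespace IsDetCocycle

variable {r : G →* Module.End F W} {c : G → Module.End F W}

/-- `tau (g ^ n) = n² * tau g` for unipotent `r g`. -/
theorem tau_pow_of_unipotent (h2 : Module.finrank F W = 2) (hc : IsDetCocycle r c) {g : G}
    (hg : LinearMap.det (r g) = 1) (ht : tr (r g) = 2) (n : ℕ) :
    tau r c (g ^ n) = (n : F) ^ 2 * tau r c g := by
  have h0 : tau r c (g ^ 0) = 0 := by rw [pow_zero, tau, hc.map_one, zero_mul, map_zero]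
  have key : ∀ n : ℕ, tau r c (g ^ n) = (n : F) ^ 2 * tau r c g ∧
      tau r c (g ^ (n + 1)) = ((n + 1 : ℕ) : F) ^ 2 * tau r c g := by
    intro n
    induction n with
    | zero =>
      refine ⟨by rw [h0]; simp, by simp⟩
    | succ n ih =>
      refine ⟨ih.2, ?_⟩
      have hid := hc.tau_mul_add h2 (det_map_pow_of_det r hg (n + 1)) hg
      have e1 : g ^ (n + 1) * g = g ^ (n + 1 + 1) := (pow_succ g (n + 1)).symm
      have e2 : g ^ (n + 1) * g⁻¹ = g ^ n := by rw [pow_succ, mul_assoc, mul_inv_cancel, mul_one]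
      rw [e1, e2, ih.1, ih.2, ht, trace_map_pow_of_unipotent h2 r hg ht] at hid
      push_cast at hid ⊢
      linear_combination hid
  exact (key n).1

end IsDetCocycle

end Fermat.Agent.TW.Cheb
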