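import Fermat.Agent.TW.Cheb.TauPow
import Fermat.Agent.TW.Cheb.ExistsRegular

/-!
# Program G (S56), block TW, node (TW-2): `tau` vanishes at regular elements of finite order

In characteristic `p`, an endomorphism `A` of a plane with `disc A ≠ 0` and of finite order has
order prime to `p` (`F[A]` is reduced).  Hence `tau g = 0` whenever `disc (r g) ≠ 0`, for a
det-cocycle vanishing on `ker r`.
-/

set_option autoImplicit false

namespace Fermat.Agent.TW.Cheb

variable {F : Type*} [Field F] {W : Type*} [AddCommGroup W] [Module F W]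
variable {G : Type*} [Group G]

local notation "tr" => LinearMap.trace F W

/-- Powers of `A` lie in `F + F A`. -/
theorem exists_pow_eq_smul_add_smul (h2 : Module.finrank F W = 2) (A : Module.End F W) (n : ℕ) :
    ∃ a b : F, A ^ n = a • (1 : Module.End F W) + b • A := by
  induction n with
  | zero => exact ⟨1, 0, by rw [pow_zero, one_smul, zero_smul, add_zero]⟩
  | succ n ih =>
    obtain ⟨a, b, hab⟩ := ih
    have hCH := end_sq_of_finrank_two h2 A
    refine ⟨-(b * LinearMap.det A), a + b * tr A, ?_⟩
    rw [pow_succ, hab, add_mul, smul_mul_assoc, one_mul, smul_mul_assoc, hCH, smul_sub, smul_smul,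
      smul_smul, add_smul, neg_smul]
    abel

theorem tl_one (h2ne : (2 : F) ≠ 0) (h2 : Module.finrank F W = 2) :
    tl (1 : Module.End F W) = 0 := by
  rw [tl, trace_one_eq_two h2, div_self h2ne, one_smul, sub_self]

theorem tl_add (A B : Module.End F W) : tl (A + B) = tl A + tl B := by
  rw [tl, tl, tl, map_add, add_div, add_smul]
  abel

/-- A nilpotent element of `F + F A` vanishes when `disc A ≠ 0`. -/
theorem eq_zero_of_isNilpotent_of_disc_ne_zero (h2ne : (2 : F) ≠ 0)
    (h2 : Module.finrank F W = 2) {A : Module.End F W} (hd : disc A ≠ 0) {x : Module.End F W}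
    {a b : F} (hx : x = a • (1 : Module.End F W) + b • A) (hnil : IsNilpotent x) : x = 0 := by
  have hfin : Module.Finite F W := Module.finite_of_finrank_eq_succ h2
  have hnt : Nontrivial W := Module.nontrivial_of_finrank_eq_succ h2
  have h4 : (4 : F) ≠ 0 := by
    have : (4 : F) = 2 * 2 := by norm_num
    rw [this]; exact mul_ne_zero h2ne h2ne
  have htr : tr x = 0 := (LinearMap.isNilpotent_trace_of_isNilpotent hnil).eq_zero
  -- `x = b • tl A`
  have hxt : x = b • tl A := by
    have h1 : tl x = x := by rw [tl, htr, zero_div, zero_smul, sub_zero]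
    rw [← h1, hx, tl_add, tl_smul, tl_smul, tl_one h2ne h2, smul_zero, zero_add]
  -- `x * x` is a nilpotent scalar, hence zero
  have hsq : x * x = (b * b * (disc A / 4)) • (1 : Module.End F W) := by
    rw [hxt, smul_mul_assoc, mul_smul_comm, tl_mul_tl h2ne h2, smul_smul, smul_smul]
  have hnil2 : IsNilpotent ((b * b * (disc A / 4)) • (1 : Module.End F W)) := by
    rw [← hsq]
    exact (Commute.refl x).isNilpotent_mul_left hnil
  have hs0 : b * b * (disc A / 4) = 0 := by
    obtain ⟨k, hk⟩ := hnil2
    rw [smul_pow, one_pow] at hk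
    rcases smul_eq_zero.mp hk with h | h
    · exact IsNilpotent.eq_zero ⟨k, h⟩
    · exact absurd h one_ne_zero
  have hb : b = 0 := by
    rcases mul_eq_zero.mp hs0 with h | h
    · exact mul_self_eq_zero.mp h
    · exact absurd ((div_eq_zero_iff.mp h).resolve_right h4) hd
  rw [hxt, hb, zero_smul]

/-- A regular element of finite order has order prime to the characteristic. -/
theorem exists_pow_eq_one_of_disc_ne_zero (p : ℕ) [hp : Fact p.Prime] [CharP F p]
    (h2ne : (2 : F) ≠ 0) (h2 : Module.finrank F W = 2)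
    {A : Module.End F W} (hd : disc A ≠ 0) (hfin : ∃ n : ℕ, 0 < n ∧ A ^ n = 1) :
    ∃ m : ℕ, (m : F) ≠ 0 ∧ A ^ m = 1 := by
  have hnt : Nontrivial W := Module.nontrivial_of_finrank_eq_succ h2
  have hfinW : Module.Finite F W := Module.finite_of_finrank_eq_succ h2
  have : CharP (Module.End F W) p :=
    charP_of_injective_algebraMap (FaithfulSMul.algebraMap_injective F (Module.End F W)) p
  obtain ⟨n, hn0, hn⟩ := hfin
  obtain ⟨e, m, hpm, hnm⟩ := Nat.exists_eq_pow_mul_and_not_dvd hn0.ne' p hp.out.ne_one
  refine ⟨m, ?_, ?_⟩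
  · rw [Ne, CharP.cast_eq_zero_iff F p]
    exact hpm
  · obtain ⟨a, b, hab⟩ := exists_pow_eq_smul_add_smul h2 A m
    have hx : A ^ m - 1 = (a - 1) • (1 : Module.End F W) + b • A := by
      rw [hab, sub_smul, one_smul]; abel
    have hnil : IsNilpotent (A ^ m - 1) := by
      refine ⟨p ^ e, ?_⟩
      rw [sub_pow_char_pow_of_commute p e (Commute.one_right _), one_pow, ← pow_mul, mul_comm,
        ← hnm, hn, sub_self]
    exact sub_eq_zero.mp (eq_zero_of_isNilpotent_of_disc_ne_zero h2ne h2 hd hx hnil)

namespace IsDetCocycle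

variable {r : G →* Module.End F W} {c : G → Module.End F W}

/-- **`tau` vanishes at regular elements.** -/
theorem tau_eq_zero_of_disc_ne_zero (p : ℕ) [Fact p.Prime] [CharP F p] (h2ne : (2 : F) ≠ 0) (h2 : Module.finrank F W = 2)
    (hc : IsDetCocycle r c) (hker : ∀ g, r g = 1 → c g = 0)
    (hfin : ∀ g : G, ∃ n : ℕ, 0 < n ∧ r g ^ n = 1) {g : G} (hg : LinearMap.det (r g) = 1)
    (hd : disc (r g) ≠ 0) : tau r c g = 0 := by
  obtain ⟨m, hm0, hm⟩ := exists_pow_eq_one_of_disc_ne_zero p h2ne h2 hd (hfin g)
  have h1 : c (g ^ m) = 0 := hker _ (by rw [map_pow, hm])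
  have h3 := hc.natCast_mul_tau_eq_zero hg h1
  exact (mul_eq_zero.mp h3).resolve_left hm0

end IsDetCocycle

end Fermat.Agent.TW.Cheb
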