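import Fermat.Agent.TW.Cheb.TauRegular

/-!
# Program G (S56), block TW, node (TW-2): `tau` at unipotent elements, first reductions

* `trace_eq_two_or_neg_two` : `det A = 1`, `disc A = 0` ⟹ `tr A = ± 2`;
* `tau_eq_zero_of_trace_eq_neg_two` : the case `tr = -2` follows from the case `tr = 2` (for `g²`);
* `unipotent_data` : for `det A = 1`, `tr A = 2`: `N = A - 1` squares to zero, `A⁻¹ = 1 - N`;
* `tau_eq_zero_of_unipotent_three` : in characteristic `3`, `tau g = 0` for unipotent `r g`
  (from `c (g³) = 0`: `N * c g * N = 0`).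
-/

set_option autoImplicit false

namespace Fermat.Agent.TW.Cheb

variable {F : Type*} [Field F] {W : Type*} [AddCommGroup W] [Module F W]
variable {G : Type*} [Group G]

local notation "tr" => LinearMap.trace F W

theorem trace_eq_two_or_neg_two {A : Module.End F W} (hdet : LinearMap.det A = 1)
    (hd : disc A = 0) : tr A = 2 ∨ tr A = -2 := by
  rw [disc, hdet] at hd
  have : (tr A - 2) * (tr A + 2) = 0 := by linear_combination hd
  rcases mul_eq_zero.mp this with h | h
  · exact Or.inl (sub_eq_zero.mp h)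
  · exact Or.inr (eq_neg_of_add_eq_zero_left h)

/-- For `det A = 1`, `tr A = 2`: `N = A - 1` is traceless and squares to zero. -/
theorem sub_one_mul_self_of_unipotent (h2 : Module.finrank F W = 2) {A : Module.End F W}
    (hdet : LinearMap.det A = 1) (ht : tr A = 2) : (A - 1) * (A - 1) = 0 := by
  have hCH := end_sq_of_finrank_two h2 A
  rw [hdet, one_smul, ht] at hCH
  rw [sub_mul, mul_sub, mul_sub, hCH, mul_one, one_mul, one_mul, two_smul]
  abel

theorem trace_sub_one_of_unipotent (h2 : Module.finrank F W = 2) {A : Module.End F W}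
    (ht : tr A = 2) : tr (A - 1) = 0 := by
  rw [map_sub, ht, trace_one_eq_two h2, sub_self]

theorem map_inv_eq_of_unipotent (h2 : Module.finrank F W = 2) (r : G →* Module.End F W) {g : G}
    (hg : LinearMap.det (r g) = 1) (ht : tr (r g) = 2) : r g⁻¹ = 1 - (r g - 1) := by
  rw [map_inv_eq_of_det h2 r hg, ht, two_smul]
  abel

/-- `(1 + N)^n = 1 + n N` for `N² = 0`. -/
theorem one_add_pow_of_sq_zero {N : Module.End F W} (hNN : N * N = 0) (n : ℕ) :
    (1 + N) ^ n = 1 + (n : F) • N := by
  induction n with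
  | zero => rw [pow_zero, Nat.cast_zero, zero_smul, add_zero]
  | succ n ih =>
    rw [pow_succ, ih]
    simp only [add_mul, mul_add, mul_one, one_mul, smul_mul_assoc, hNN, smul_zero, add_zero,
      Nat.cast_succ, add_smul, one_smul]
    abel

namespace IsDetCocycle

variable {r : G →* Module.End F W} {c : G → Module.End F W}

/-- The case `tr (r g) = -2` follows from the case `tr = 2`. -/
theorem tau_eq_zero_of_trace_eq_neg_two (h2ne : (2 : F) ≠ 0) (h2 : Module.finrank F W = 2)
    (hc : IsDetCocycle r c)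
    (hU : ∀ g : G, LinearMap.det (r g) = 1 → tr (r g) = 2 → tau r c g = 0)
    {g : G} (hg : LinearMap.det (r g) = 1) (ht : tr (r g) = -2) : tau r c g = 0 := by
  have hid := hc.tau_mul_add h2 hg hg
  have hgg : LinearMap.det (r (g * g)) = 1 := det_map_mul_of_det r hg hg
  have htgg : tr (r (g * g)) = 2 := by
    have hCH := end_sq_of_finrank_two h2 (r g)
    rw [hg, one_smul, ht] at hCH
    rw [_root_.map_mul r, hCH, map_sub, map_smul, ht, trace_one_eq_two h2, smul_eq_mul]
    ring
  have h1 : tau r c (g * g⁻¹) = 0 := by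
    rw [mul_inv_cancel, tau, hc.map_one, zero_mul, map_zero]
  rw [hU _ hgg htgg, h1, ht] at hid
  have h4 : (4 : F) ≠ 0 := by
    have : (4 : F) = 2 * 2 := by norm_num
    rw [this]; exact mul_ne_zero h2ne h2ne
  have : (4 : F) * tau r c g = 0 := by linear_combination hid
  exact (mul_eq_zero.mp this).resolve_left h4

/-- **Characteristic `3`**: `tau` vanishes at unipotent elements. -/
theorem tau_eq_zero_of_unipotent_three [CharP F 3] (h2ne : (2 : F) ≠ 0)
    (h2 : Module.finrank F W = 2) (hc : IsDetCocycle r c) (hker : ∀ g, r g = 1 → c g = 0)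
    {g : G} (hg : LinearMap.det (r g) = 1) (ht : tr (r g) = 2) : tau r c g = 0 := by
  obtain ⟨N, hN⟩ : ∃ N : Module.End F W, N = r g - 1 := ⟨_, rfl⟩
  obtain ⟨w, hw⟩ : ∃ w : Module.End F W, w = c g := ⟨_, rfl⟩
  have hA : r g = 1 + N := by rw [hN]; abel
  have hNN : N * N = 0 := by rw [hN]; exact sub_one_mul_self_of_unipotent h2 hg ht
  have hNtr : tr N = 0 := by rw [hN]; exact trace_sub_one_of_unipotent h2 ht
  have hwtr : tr w = 0 := by rw [hw]; exact hc.trace_eq g
  have hAi : r g⁻¹ = 1 - N := by rw [hN]; exact map_inv_eq_of_unipotent h2 r hg ht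
  have h3F : ((3 : ℕ) : F) = 0 := CharP.cast_eq_zero F 3
  have h3 : ∀ x : Module.End F W, (3 : ℤ) • x = 0 := by
    intro x
    have : ((3 : ℤ) : F) = 0 := by exact_mod_cast h3F
    rw [← Int.cast_smul_eq_zsmul F, this, zero_smul]
  -- `r (g ^ 3) = 1`
  have hA3 : r (g ^ 3) = 1 := by
    rw [map_pow, hA, one_add_pow_of_sq_zero hNN, h3F, zero_smul, add_zero]
  have hc3 : c (g ^ 3) = 0 := hker _ hA3
  rw [hc.map_pow_of_det hg, Finset.sum_range_succ, Finset.sum_range_succ, Finset.sum_range_one,
    pow_zero, pow_zero, pow_one, pow_one, one_mul, mul_one, hA, hAi, ← hw] at hc3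
  have hexp : w + (1 + N) * w * (1 - N) + (1 + N) ^ 2 * w * (1 - N) ^ 2
      = (3 : ℤ) • w + (3 : ℤ) • (N * w - w * N) - (5 : ℤ) • (N * w * N) := by
    have e1 : (1 + N) ^ 2 = 1 + 2 • N := by
      rw [pow_two, mul_add, add_mul, add_mul, hNN, one_mul, mul_one, one_mul]; abel
    have e2 : (1 - N) ^ 2 = 1 - 2 • N := by
      rw [pow_two, mul_sub, sub_mul, sub_mul, hNN, one_mul, mul_one, one_mul]; abel
    rw [e1, e2]
    simp only [add_mul, mul_sub, mul_one, one_mul, smul_mul_assoc, mul_smul_comm, mul_assoc]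
    abel
  rw [hexp, h3, h3, zero_add, zero_sub, neg_eq_zero] at hc3
  have hNwN : N * w * N = 0 := by
    have h6 : (6 : ℤ) • (N * w * N) = 0 := by
      have : (6 : ℤ) • (N * w * N) = (2 : ℤ) • ((3 : ℤ) • (N * w * N)) := by
        rw [smul_smul]; norm_num
      rw [this, h3, smul_zero]
    have : N * w * N = (6 : ℤ) • (N * w * N) - (5 : ℤ) • (N * w * N) := by
      rw [← sub_smul]; norm_num
    rw [this, h6, hc3, sub_zero]
  -- `N w N = tr (N w) • N`
  have hpol := mul_add_mul_eq_trace h2ne h2 N w hNtr hwtr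
  have hNwN' : N * w * N = tr (N * w) • N := by
    have := congrArg (· * N) hpol
    simp only [add_mul, smul_mul_assoc, one_mul] at this
    rw [mul_assoc w N N, hNN, mul_zero, add_zero] at this
    exact this
  rw [hNwN] at hNwN'
  -- conclusion
  have htau : tau r c g = tr (N * w) := by
    rw [tau, hA, ← hw, mul_add, mul_one, map_add, hwtr, zero_add, LinearMap.trace_mul_comm]
  rw [htau]
  rcases smul_eq_zero.mp hNwN'.symm with h | h
  · exact h
  · rw [h, zero_mul, map_zero]

end IsDetCocycle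

end Fermat.Agent.TW.Cheb
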