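import Fermat.Agent.TW.Cheb.TauUnip
import Fermat.Agent.TW.Cheb.StableLine

/-!
# Program G (S56), block TW, node (TW-2): `tau` at unipotent elements, characteristic `≥ 5`

`g` unipotent (`det (r g) = 1`, `tr (r g) = 2`, `N = r g - 1`), `tau g ≠ 0`.

* `det_eq_neg_sq_of_tau_ne_zero` : for `h` with `λ = tr (N * h N h⁻¹) ≠ 0` the products
  `g^i * (h g h⁻¹)^{±1}` are regular for `i = 1` or `i = 2`, and the tangent trace identity gives
  `det (r h) = - i²`;
* `InLine` : `h` maps the line `ker N` to itself; `inLine_of_trace_eq_zero` (`λ = 0 ⟹ InLine h`),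
  `inLine_of_mul`, `inLine_of_conj`, `exists_not_inLine` (irreducibility).
-/

set_option autoImplicit false

namespace Fermat.Agent.TW.Cheb

variable {F : Type*} [Field F] {W : Type*} [AddCommGroup W] [Module F W]
variable {G : Type*} [Group G]

local notation "tr" => LinearMap.trace F W

namespace IsDetCocycle

variable {r : G →* Module.End F W} {c : G → Module.End F W}

/-- The key computation: if `g^i (h g h⁻¹)^{±1}` are regular then `det (r h) = - i²`. -/
theorem det_eq_neg_sq_of_tau_ne_zero (p : ℕ) [Fact p.Prime] [CharP F p] (h2ne : (2 : F) ≠ 0)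
    (h2 : Module.finrank F W = 2) (hc : IsDetCocycle r c) (hker : ∀ g, r g = 1 → c g = 0)
    (hfin : ∀ g : G, ∃ n : ℕ, 0 < n ∧ r g ^ n = 1) {g : G} (hg : LinearMap.det (r g) = 1)
    (ht : tr (r g) = 2) (hτ : tau r c g ≠ 0) (h : G) (i : ℕ)
    (hi1 : (i : F) * tr ((r g - 1) * (r h * (r g - 1) * r h⁻¹)) ≠ 0)
    (hi2 : (i : F) * tr ((r g - 1) * (r h * (r g - 1) * r h⁻¹)) + 4 ≠ 0)
    (hi3 : (i : F) * tr ((r g - 1) * (r h * (r g - 1) * r h⁻¹)) - 4 ≠ 0) :
    LinearMap.det (r h) = -((i : F) ^ 2) := by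
  obtain ⟨N, hN⟩ : ∃ N : Module.End F W, N = r g - 1 := ⟨_, rfl⟩
  rw [← hN] at hi1 hi2 hi3
  obtain ⟨lam, hlam⟩ : ∃ lam : F, lam = tr (N * (r h * N * r h⁻¹)) := ⟨_, rfl⟩
  rw [← hlam] at hi1 hi2 hi3
  have hA : r g = 1 + N := by rw [hN]; abel
  have hNN : N * N = 0 := by rw [hN]; exact sub_one_mul_self_of_unipotent h2 hg ht
  have hNtr : tr N = 0 := by rw [hN]; exact trace_sub_one_of_unipotent h2 ht
  -- the conjugate `g' = h g h⁻¹`
  have hg'r : r (h * g * h⁻¹) = 1 + r h * N * r h⁻¹ := by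
    rw [map_conj, hA, mul_add, add_mul, mul_one, map_mul_map_inv']
  have hg'det : LinearMap.det (r (h * g * h⁻¹)) = 1 := by rw [map_conj, det_conj, hg]
  have hg'tr : tr (r (h * g * h⁻¹)) = 2 := by rw [map_conj, trace_conj, ht]
  have hN'tr : tr (r h * N * r h⁻¹) = 0 := by rw [trace_conj, hNtr]
  have hg'i : r (h * g * h⁻¹)⁻¹ = 1 - r h * N * r h⁻¹ := by
    rw [map_inv_eq_of_unipotent h2 r hg'det hg'tr, hg'r]; abel
  have hτ' : tau r c (h * g * h⁻¹) = LinearMap.det (r h) * tau r c g := hc.tau_conj hg h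
  -- the power `a = g ^ i`
  have har : r (g ^ i) = 1 + (i : F) • N := by rw [map_pow, hA, one_add_pow_of_sq_zero hNN]
  have hadet : LinearMap.det (r (g ^ i)) = 1 := det_map_pow_of_det r hg i
  have hatr : tr (r (g ^ i)) = 2 := trace_map_pow_of_unipotent h2 r hg ht i
  have haτ : tau r c (g ^ i) = (i : F) ^ 2 * tau r c g := hc.tau_pow_of_unipotent h2 hg ht i
  -- traces of the two products
  have htr1 : tr (r (g ^ i * (h * g * h⁻¹))) = 2 + (i : F) * lam := by
    rw [_root_.map_mul r, har, hg'r, add_mul, mul_add, mul_add, mul_one, one_mul, mul_one, smul_mul_assoc,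
      map_add, map_add, map_add, map_smul, map_smul, trace_one_eq_two h2, hN'tr, hNtr, ← hlam,
      smul_eq_mul, smul_eq_mul]
    ring
  have htr2 : tr (r (g ^ i * (h * g * h⁻¹)⁻¹)) = 2 - (i : F) * lam := by
    rw [_root_.map_mul r, har, hg'i, add_mul, mul_sub, mul_sub, mul_one, one_mul, mul_one, smul_mul_assoc,
      map_add, map_sub, map_sub, map_smul, map_smul, trace_one_eq_two h2, hN'tr, hNtr, ← hlam,
      smul_eq_mul, smul_eq_mul]
    ring
  have hdet1 : LinearMap.det (r (g ^ i * (h * g * h⁻¹))) = 1 := det_map_mul_of_det r hadet hg'det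
  have hdet2 : LinearMap.det (r (g ^ i * (h * g * h⁻¹)⁻¹)) = 1 :=
    det_map_mul_of_det r hadet (det_map_inv_of_det r hg'det)
  have hd1 : disc (r (g ^ i * (h * g * h⁻¹))) ≠ 0 := by
    rw [disc, htr1, hdet1]
    have : (2 + (i : F) * lam) ^ 2 - 4 * 1 = ((i : F) * lam) * ((i : F) * lam + 4) := by ring
    rw [this]
    exact mul_ne_zero hi1 hi2
  have hd2 : disc (r (g ^ i * (h * g * h⁻¹)⁻¹)) ≠ 0 := by
    rw [disc, htr2, hdet2]
    have : (2 - (i : F) * lam) ^ 2 - 4 * 1 = ((i : F) * lam) * ((i : F) * lam - 4) := by ring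
    rw [this]
    exact mul_ne_zero hi1 hi3
  have hz1 := hc.tau_eq_zero_of_disc_ne_zero p h2ne h2 hker hfin hdet1 hd1
  have hz2 := hc.tau_eq_zero_of_disc_ne_zero p h2ne h2 hker hfin hdet2 hd2
  have hid := hc.tau_mul_add h2 hadet hg'det
  rw [hz1, hz2, haτ, hτ', hg'tr, hatr] at hid
  have h5 : (2 * tau r c g) * ((i : F) ^ 2 + LinearMap.det (r h)) = 0 := by
    linear_combination -hid
  have h6 := (mul_eq_zero.mp h5).resolve_left (mul_ne_zero h2ne hτ)
  exact eq_neg_of_add_eq_zero_right h6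

/-- For `p ≥ 5`: `det (r h) ∈ {-1, -4}` whenever `λ_h ≠ 0`. -/
theorem det_eq_neg_one_or_neg_four (p : ℕ) [Fact p.Prime] [CharP F p] (hp5 : 5 ≤ p)
    (h2 : Module.finrank F W = 2) (hc : IsDetCocycle r c) (hker : ∀ g, r g = 1 → c g = 0)
    (hfin : ∀ g : G, ∃ n : ℕ, 0 < n ∧ r g ^ n = 1) {g : G} (hg : LinearMap.det (r g) = 1)
    (ht : tr (r g) = 2) (hτ : tau r c g ≠ 0) (h : G)
    (hlam : tr ((r g - 1) * (r h * (r g - 1) * r h⁻¹)) ≠ 0) :
    LinearMap.det (r h) = -1 ∨ LinearMap.det (r h) = -4 := by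
  have hne : ∀ n : ℕ, 0 < n → n < 5 → (n : F) ≠ 0 := by
    intro n hn0 hn5 h0
    rw [CharP.cast_eq_zero_iff F p] at h0
    have := Nat.le_of_dvd hn0 h0
    omega
  have h2ne : (2 : F) ≠ 0 := by exact_mod_cast hne 2 (by norm_num) (by norm_num)
  have h3ne : (3 : F) ≠ 0 := by exact_mod_cast hne 3 (by norm_num) (by norm_num)
  have h4ne : (4 : F) ≠ 0 := by exact_mod_cast hne 4 (by norm_num) (by norm_num)
  obtain ⟨lam, hl⟩ : ∃ lam : F, lam = tr ((r g - 1) * (r h * (r g - 1) * r h⁻¹)) := ⟨_, rfl⟩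
  rw [← hl] at hlam
  by_cases hcase : lam = 4 ∨ lam = -4
  · right
    have := hc.det_eq_neg_sq_of_tau_ne_zero p h2ne h2 hker hfin hg ht hτ h 2
      (by rw [← hl]; push_cast; exact mul_ne_zero h2ne hlam)
      (by
        rw [← hl]; push_cast
        rcases hcase with h | h
        · rw [h]; intro h0
          have : (4 : F) * 3 = 0 := by linear_combination h0
          exact (mul_ne_zero h4ne h3ne) this
        · rw [h]; intro h0
          have : (4 : F) = 0 := by linear_combination -h0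
          exact h4ne this)
      (by
        rw [← hl]; push_cast
        rcases hcase with h | h
        · rw [h]; intro h0
          have : (4 : F) = 0 := by linear_combination h0
          exact h4ne this
        · rw [h]; intro h0
          have : (4 : F) * 3 = 0 := by linear_combination -h0
          exact (mul_ne_zero h4ne h3ne) this)
    rw [this]; push_cast; norm_num
  · left
    have hcase := not_or.mp hcase
    have := hc.det_eq_neg_sq_of_tau_ne_zero p h2ne h2 hker hfin hg ht hτ h 1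
      (by rw [← hl]; push_cast; rw [one_mul]; exact hlam)
      (by
        rw [← hl]; push_cast; rw [one_mul]; intro h0
        exact hcase.2 (eq_neg_of_add_eq_zero_left h0))
      (by
        rw [← hl]; push_cast; rw [one_mul]; intro h0
        exact hcase.1 (sub_eq_zero.mp h0))
    rw [this]; push_cast; norm_num

end IsDetCocycle

/-! ### The line `ker N` -/

section Line

variable (r : G →* Module.End F W) (N : Module.End F W) (v : W)

/-- `h` maps the vector `v` into `ker N`. -/
def InLine (h : G) : Prop := N (r h v) = 0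

variable {r N v}

theorem inLine_of_trace_eq_zero (h2ne : (2 : F) ≠ 0) (h2 : Module.finrank F W = 2)
    (hNN : N * N = 0) (hNtr : tr N = 0) {u : W} (hu : N u ≠ 0) (hv : v = N u) {h : G}
    (hlam : tr (N * (r h * N * r h⁻¹)) = 0) : InLine r N v h := by
  have hNv : N v = 0 := by rw [hv, ← Module.End.mul_apply, hNN, LinearMap.zero_apply]
  have hN'tr : tr (r h * N * r h⁻¹) = 0 := by rw [trace_conj, hNtr]
  have hpol := mul_add_mul_eq_trace h2ne h2 N (r h * N * r h⁻¹) hNtr hN'tr
  rw [hlam, zero_smul] at hpol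
  have hhi : r h⁻¹ * r h = 1 := map_inv_mul_map' r h
  have hhi' : ∀ x, r h⁻¹ (r h x) = x := fun x => by
    rw [← Module.End.mul_apply, hhi, Module.End.one_apply]
  have hih' : ∀ x, r h (r h⁻¹ x) = x := fun x => by
    rw [← Module.End.mul_apply, map_mul_map_inv', Module.End.one_apply]
  -- apply to `w = r h v`
  have h1 := LinearMap.congr_fun hpol (r h v)
  simp only [LinearMap.add_apply, Module.End.mul_apply, LinearMap.zero_apply, hhi', hNv, map_zero,
    zero_add] at h1
  -- `N (r h⁻¹ (N w)) = 0`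
  have h3 : N (r h⁻¹ (N (r h v))) = 0 := by
    have := congrArg (r h⁻¹) h1
    rwa [hhi', map_zero] at this
  obtain ⟨b, hb⟩ := (mem_ker_iff_of_sq_zero h2 hNN hu _).mp h3
  have h4 : N (r h v) = b • r h v := by
    have := congrArg (r h) hb
    rwa [hih', map_smul, ← hv] at this
  have h5 : b • N (r h v) = 0 := by
    have := congrArg N h4
    rwa [← Module.End.mul_apply, hNN, LinearMap.zero_apply, map_smul, eq_comm] at this
  show N (r h v) = 0
  rcases smul_eq_zero.mp h5 with h | h
  · rw [h4, h, zero_smul]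
  · exact h

theorem inLine_of_mul (h2 : Module.finrank F W = 2) (hNN : N * N = 0) {u : W} (hu : N u ≠ 0)
    (hv : v = N u) {t h : G} (ht : InLine r N v t) (hth : InLine r N v (t * h)) :
    InLine r N v h := by
  have hNv : N v = 0 := by rw [hv, ← Module.End.mul_apply, hNN, LinearMap.zero_apply]
  have hv0 : v ≠ 0 := by rw [hv]; exact hu
  have hti' : ∀ x, r t⁻¹ (r t x) = x := fun x => by
    rw [← Module.End.mul_apply, map_inv_mul_map', Module.End.one_apply]
  obtain ⟨β, hβ⟩ := (mem_ker_iff_of_sq_zero h2 hNN hu _).mp ht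
  obtain ⟨γ, hγ⟩ := (mem_ker_iff_of_sq_zero h2 hNN hu _).mp hth
  rw [← hv] at hβ hγ
  have hβ0 : β ≠ 0 := by
    rintro rfl
    rw [zero_smul] at hβ
    have := congrArg (r t⁻¹) hβ
    rw [hti', map_zero] at this
    exact hv0 this
  have h1 : r t⁻¹ v = β⁻¹ • v := by
    have := congrArg (r t⁻¹) hβ
    rw [hti', map_smul] at this
    calc r t⁻¹ v = β⁻¹ • (β • r t⁻¹ v) := by rw [smul_smul, inv_mul_cancel₀ hβ0, one_smul]
      _ = β⁻¹ • v := by rw [← this]
  have h2' : r h v = (γ * β⁻¹) • v := by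
    have := congrArg (r t⁻¹) hγ
    rw [map_mul, Module.End.mul_apply, hti', map_smul, h1, smul_smul] at this
    exact this
  show N (r h v) = 0
  rw [h2', map_smul, hNv, smul_zero]

theorem inLine_of_conj (hNN : N * N = 0) {g h : G} (hA : r g = 1 + N)
    (hconj : InLine r N v (h⁻¹ * g * h)) (h2 : Module.finrank F W = 2) {u : W} (hu : N u ≠ 0)
    (hv : v = N u) : InLine r N v h := by
  have hih' : ∀ x, r h (r h⁻¹ x) = x := fun x => by
    rw [← Module.End.mul_apply, map_mul_map_inv', Module.End.one_apply]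
  obtain ⟨γ, hγ⟩ := (mem_ker_iff_of_sq_zero h2 hNN hu _).mp hconj
  rw [← hv] at hγ
  have h1 : r g (r h v) = γ • r h v := by
    have := congrArg (r h) hγ
    rwa [map_mul, map_mul, Module.End.mul_apply, Module.End.mul_apply, hih', map_smul] at this
  have h2' : N (r h v) = (γ - 1) • r h v := by
    rw [hA, LinearMap.add_apply, Module.End.one_apply] at h1
    rw [sub_smul, one_smul, ← h1]
    abel
  have h3 : (γ - 1) • N (r h v) = 0 := by
    have := congrArg N h2'
    rwa [← Module.End.mul_apply, hNN, LinearMap.zero_apply, map_smul, eq_comm] at this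
  show N (r h v) = 0
  rcases smul_eq_zero.mp h3 with h | h
  · rw [h2', h, zero_smul]
  · exact h

theorem exists_not_inLine (h2 : Module.finrank F W = 2) (hNN : N * N = 0) {u : W}
    (hu : N u ≠ 0) (hv : v = N u) (hirr : ¬ HasStableLine r ⊤) : ∃ h : G, ¬ InLine r N v h := by
  by_contra hcon0
  have hcon : ∀ h : G, InLine r N v h := fun h => by_contra fun hh => hcon0 ⟨h, hh⟩
  apply hirr
  have hNv : N v = 0 := by rw [hv, ← Module.End.mul_apply, hNN, LinearMap.zero_apply]
  refine ⟨LinearMap.ker N, ?_, ?_, ?_⟩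
  · intro hbot
    have : v ∈ LinearMap.ker N := LinearMap.mem_ker.mpr hNv
    rw [hbot, Submodule.mem_bot] at this
    rw [hv] at this
    exact hu this
  · intro htop
    have : u ∈ LinearMap.ker N := by rw [htop]; trivial
    exact hu (LinearMap.mem_ker.mp this)
  · intro g _ x hx
    obtain ⟨b, hb⟩ := (mem_ker_iff_of_sq_zero h2 hNN hu x).mp (LinearMap.mem_ker.mp hx)
    rw [LinearMap.mem_ker, hb, ← hv, map_smul, map_smul]
    have := hcon g
    unfold InLine at this
    rw [this, smul_zero]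

end Line

end Fermat.Agent.TW.Cheb
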