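import Fermat.Agent.TW.Cheb.SqScalar

/-!
# Program G (S56), block TW, group theory: traceless endomorphisms of a plane, II

* `mul_add_mul_eq_trace`: `x * y + y * x = tr (x * y) • 1` for traceless `x`, `y` (polarisation of
  Cayley–Hamilton);
* `mem_span_of_commute`: two commuting traceless endomorphisms are proportional;
* `mem_span_of_orthogonal_pair`: in the 3-dimensional space of traceless endomorphisms, the
  orthogonal (for the trace form) of two independent vectors is at most a line.
-/

set_option autoImplicit false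

namespace Fermat.Agent.TW.Cheb

variable {F : Type*} [Field F] {W : Type*} [AddCommGroup W] [Module F W]

local notation "tr" => LinearMap.trace F W

/-- Polarisation of `x * x = - det x`. -/
theorem mul_add_mul_eq_trace (h2ne : (2 : F) ≠ 0) (h2 : Module.finrank F W = 2)
    (x y : Module.End F W) (hx : tr x = 0) (hy : tr y = 0) :
    x * y + y * x = (tr (x * y)) • (1 : Module.End F W) := by
  have hfin : Module.Finite F W := Module.finite_of_finrank_eq_succ h2
  have hxy : tr (x + y) = 0 := by rw [map_add, hx, hy, add_zero]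
  have h1 := sq_eq_smul_one h2 x hx
  have h2' := sq_eq_smul_one h2 y hy
  have h3 := sq_eq_smul_one h2 (x + y) hxy
  -- `x * y + y * x = s • 1` with `s = -det (x+y) + det x + det y`
  set s : F := -LinearMap.det (x + y) + LinearMap.det x + LinearMap.det y with hs
  have h4 : x * y + y * x = s • (1 : Module.End F W) := by
    have : (x + y) * (x + y) = x * x + (x * y + y * x) + y * y := by
      rw [add_mul, mul_add, mul_add]; abel
    rw [this, h1, h2'] at h3
    have h5 : x * y + y * x = (-LinearMap.det (x + y)) • (1 : Module.End F W)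
        - (-LinearMap.det x) • (1 : Module.End F W) - (-LinearMap.det y) • (1 : Module.End F W) := by
      rw [← h3]; abel
    rw [h5, hs, add_smul, add_smul, neg_smul, neg_smul, neg_smul]; abel
  have htr1 : tr (1 : Module.End F W) = 2 := by
    rw [LinearMap.trace_one, h2]; norm_num
  have h6 : tr (x * y + y * x) = s * 2 := by rw [h4, map_smul, htr1, smul_eq_mul]
  rw [map_add, LinearMap.trace_mul_comm F y x] at h6
  have h7 : s = tr (x * y) := by
    have : (tr (x * y) - s) * 2 = 0 := by linear_combination h6
    exact (sub_eq_zero.mp ((mul_eq_zero.mp this).resolve_right h2ne)).symm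
  rw [h4, h7]

/-- A traceless endomorphism of a plane that is a scalar is zero. -/
theorem eq_zero_of_traceless_of_scalar (h2ne : (2 : F) ≠ 0) (h2 : Module.finrank F W = 2)
    {x : Module.End F W} (hx : tr x = 0) {c : F} (hc : x = c • (1 : Module.End F W)) : x = 0 := by
  have hfin : Module.Finite F W := Module.finite_of_finrank_eq_succ h2
  have htr1 : tr (1 : Module.End F W) = 2 := by
    rw [LinearMap.trace_one, h2]; norm_num
  rw [hc, map_smul, htr1, smul_eq_mul] at hx
  rw [hc, (mul_eq_zero.mp hx).resolve_right h2ne, zero_smul]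

/-- A nonzero traceless endomorphism of a plane has a non-eigenvector. -/
theorem exists_not_eigenvector (h2ne : (2 : F) ≠ 0) (h2 : Module.finrank F W = 2)
    {x : Module.End F W} (hx : tr x = 0) (hx0 : x ≠ 0) :
    ∃ v : W, ∀ a b : F, a • v + b • x v = 0 → a = 0 ∧ b = 0 := by
  have hfin : Module.Finite F W := Module.finite_of_finrank_eq_succ h2
  by_contra hcon
  push Not at hcon
  -- every vector is an eigenvector
  have heig : ∀ v : W, ∃ c : F, x v = c • v := by
    intro v
    by_cases hv : v = 0
    · exact ⟨0, by rw [hv, map_zero, smul_zero]⟩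
    obtain ⟨a, b, hab, hne⟩ := hcon v
    have hb : b ≠ 0 := by
      intro hb
      rw [hb, zero_smul, add_zero] at hab
      have ha : a = 0 := (smul_eq_zero.mp hab).resolve_right hv
      exact hne ha hb
    refine ⟨-(b⁻¹ * a), ?_⟩
    have : b • x v = -(a • v) := eq_neg_of_add_eq_zero_right hab
    calc x v = b⁻¹ • (b • x v) := by rw [smul_smul, inv_mul_cancel₀ hb, one_smul]
      _ = -(b⁻¹ * a) • v := by rw [this, smul_neg, smul_smul, neg_smul]
  -- hence `x` is a scalar
  obtain ⟨b⟩ : Nonempty (Module.Basis (Fin 2) F W) := ⟨Module.finBasisOfFinrankEq F W h2⟩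
  obtain ⟨c0, hc0⟩ := heig (b 0)
  obtain ⟨c1, hc1⟩ := heig (b 1)
  obtain ⟨c2, hc2⟩ := heig (b 0 + b 1)
  have hli := b.linearIndependent
  have h01 : c0 = c1 := by
    rw [map_add, hc0, hc1, smul_add] at hc2
    have h : (c0 - c2) • b 0 + (c1 - c2) • b 1 = 0 := by
      rw [sub_smul, sub_smul]
      have := hc2
      calc c0 • b 0 - c2 • b 0 + (c1 • b 1 - c2 • b 1)
          = (c0 • b 0 + c1 • b 1) - (c2 • b 0 + c2 • b 1) := by abel
        _ = 0 := by rw [this, sub_self]
    have hg := Fintype.linearIndependent_iff.mp hli ![c0 - c2, c1 - c2]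
      (by rw [Fin.sum_univ_two]; simpa using h)
    have this : c0 - c2 = 0 ∧ c1 - c2 = 0 := ⟨by simpa using hg 0, by simpa using hg 1⟩
    rw [sub_eq_zero.mp this.1, sub_eq_zero.mp this.2]
  apply hx0
  apply eq_zero_of_traceless_of_scalar h2ne h2 hx (c := c0)
  apply b.ext
  intro i
  fin_cases i
  · simpa using hc0
  · simpa [h01] using hc1

/-- Two commuting traceless endomorphisms of a plane are proportional. -/
theorem mem_span_of_commute (h2ne : (2 : F) ≠ 0) (h2 : Module.finrank F W = 2)
    {x y : Module.End F W} (hx : tr x = 0) (hy : tr y = 0) (hx0 : x ≠ 0)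
    (hcomm : x * y = y * x) : ∃ c : F, y = c • x := by
  obtain ⟨v, hv⟩ := exists_not_eigenvector h2ne h2 hx hx0
  have hfin : Module.Finite F W := Module.finite_of_finrank_eq_succ h2
  -- `v, x v` is a basis
  have hli : LinearIndependent F ![v, x v] := by
    rw [LinearIndependent.pair_iff]
    intro a b hab
    exact hv a b hab
  have hspan : Submodule.span F (Set.range ![v, x v]) = ⊤ := by
    apply hli.span_eq_top_of_card_eq_finrank'
    rw [h2]; simp
  -- write `y v = a v + b x v`
  have hyv : y v ∈ Submodule.span F (Set.range ![v, x v]) := by rw [hspan]; trivial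
  have hrange : Set.range ![v, x v] = {v, x v} := by
    ext z
    constructor
    · rintro ⟨i, rfl⟩
      fin_cases i
      · exact Or.inl rfl
      · exact Or.inr rfl
    · rintro (rfl | rfl)
      · exact ⟨0, rfl⟩
      · exact ⟨1, rfl⟩
  rw [hrange, Submodule.mem_span_pair] at hyv
  obtain ⟨a, b, hab⟩ := hyv
  -- `z = y - a - b x` kills `v` and `x v`
  set z : Module.End F W := y - a • (1 : Module.End F W) - b • x with hz
  have hzv : z v = 0 := by
    rw [hz, LinearMap.sub_apply, LinearMap.sub_apply, LinearMap.smul_apply, LinearMap.smul_apply,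
      Module.End.one_apply, ← hab]; abel
  have hzx : z * x = x * z := by
    rw [hz, sub_mul, sub_mul, mul_sub, mul_sub, smul_mul_assoc, one_mul, mul_smul_comm, mul_one,
      smul_mul_assoc, mul_smul_comm, hcomm]
  have hzxv : z (x v) = 0 := by
    rw [← Module.End.mul_apply, hzx, Module.End.mul_apply, hzv, map_zero]
  have hz0 : z = 0 := by
    apply LinearMap.ext_on_range hspan
    intro i
    fin_cases i
    · simpa using hzv
    · simpa using hzxv
  have hy' : y = a • (1 : Module.End F W) + b • x := by
    have := hz0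
    rw [hz, sub_sub, sub_eq_zero] at this
    exact this
  -- traces: `a = 0`
  have htr1 : tr (1 : Module.End F W) = 2 := by
    rw [LinearMap.trace_one, h2]; norm_num
  have ha : a = 0 := by
    have := hy
    rw [hy', map_add, map_smul, map_smul, htr1, hx, smul_zero, add_zero, smul_eq_mul] at this
    exact (mul_eq_zero.mp this).resolve_right h2ne
  exact ⟨b, by rw [hy', ha, zero_smul, zero_add]⟩

/-- In the space of traceless endomorphisms of a plane, two vectors orthogonal (for the trace
form) to two non-proportional vectors `x`, `x'` are proportional. -/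
theorem mem_span_of_orthogonal_pair (h2ne : (2 : F) ≠ 0) (h2 : Module.finrank F W = 2)
    {x x' y y' : Module.End F W} (hx : tr x = 0) (hx' : tr x' = 0) (hy : tr y = 0)
    (hy' : tr y' = 0) (hx0 : x ≠ 0) (hxx' : ∀ c : F, x' ≠ c • x) (hy0 : y ≠ 0)
    (h1 : tr (x * y) = 0) (h2' : tr (x' * y) = 0) (h3 : tr (x * y') = 0) (h4 : tr (x' * y') = 0) :
    ∃ c : F, y' = c • y := by
  have hfin : Module.Finite F W := Module.finite_of_finrank_eq_succ h2
  -- `y`, `y'` anticommute with `x`, `x'`
  have a1 : x * y = -(y * x) := by
    have := mul_add_mul_eq_trace h2ne h2 x y hx hy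
    rw [h1, zero_smul] at this; exact eq_neg_of_add_eq_zero_left this
  have a2 : x' * y = -(y * x') := by
    have := mul_add_mul_eq_trace h2ne h2 x' y hx' hy
    rw [h2', zero_smul] at this; exact eq_neg_of_add_eq_zero_left this
  have a3 : x * y' = -(y' * x) := by
    have := mul_add_mul_eq_trace h2ne h2 x y' hx hy'
    rw [h3, zero_smul] at this; exact eq_neg_of_add_eq_zero_left this
  have a4 : x' * y' = -(y' * x') := by
    have := mul_add_mul_eq_trace h2ne h2 x' y' hx' hy'
    rw [h4, zero_smul] at this; exact eq_neg_of_add_eq_zero_left this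
  -- `y * y'` commutes with `x`, `x'`
  have c1 : x * (y * y') = (y * y') * x := by
    rw [← mul_assoc, a1, neg_mul, mul_assoc, a3, mul_neg, neg_neg, mul_assoc]
  have c2 : x' * (y * y') = (y * y') * x' := by
    rw [← mul_assoc, a2, neg_mul, mul_assoc, a4, mul_neg, neg_neg, mul_assoc]
  -- traceless part of `y * y'`
  have htr1 : tr (1 : Module.End F W) = 2 := by
    rw [LinearMap.trace_one, h2]; norm_num
  set t : F := tr (y * y') / 2 with ht
  set c : Module.End F W := y * y' - t • (1 : Module.End F W) with hc
  have hctr : tr c = 0 := by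
    rw [hc, map_sub, map_smul, htr1, smul_eq_mul, ht, div_mul_cancel₀ _ h2ne, sub_self]
  have hcx : x * c = c * x := by
    rw [hc, mul_sub, sub_mul, c1, mul_smul_comm, mul_one, smul_mul_assoc, one_mul]
  have hcx' : x' * c = c * x' := by
    rw [hc, mul_sub, sub_mul, c2, mul_smul_comm, mul_one, smul_mul_assoc, one_mul]
  have hc0 : c = 0 := by
    by_contra hne
    obtain ⟨d, hd⟩ := mem_span_of_commute h2ne h2 hctr hx hne hcx.symm
    obtain ⟨d', hd'⟩ := mem_span_of_commute h2ne h2 hctr hx' hne hcx'.symm
    have hd0 : d ≠ 0 := by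
      rintro rfl
      rw [zero_smul] at hd; exact hx0 hd
    apply hxx' (d' * d⁻¹)
    rw [hd', hd, smul_smul, mul_assoc, inv_mul_cancel₀ hd0, mul_one]
  -- `y * y' = t`, so also `y' * y = t`
  have hyy' : y * y' = t • (1 : Module.End F W) := sub_eq_zero.mp hc0
  have hy'y : y' * y = t • (1 : Module.End F W) := by
    have h5 := mul_add_mul_eq_trace h2ne h2 y y' hy hy'
    rw [hyy'] at h5
    have h6 : tr (t • (1 : Module.End F W)) = t * 2 := by rw [map_smul, htr1, smul_eq_mul]
    rw [h6] at h5
    have : y' * y = (t * 2) • (1 : Module.End F W) - t • (1 : Module.End F W) := by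
      rw [← h5]; abel
    rw [this, ← sub_smul]; congr 1; ring
  exact mem_span_of_commute h2ne h2 hy hy' hy0 (by rw [hyy', hy'y])

end Fermat.Agent.TW.Cheb
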